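import Mathlib.NumberTheory.NumberField.Cyclotomic.Basic

set_option autoImplicit false

namespace Fermat.Agent.Lib.Kummer

open NumberField

/-- Kummer's lemma for a number field `K` (meant for the `p`-th cyclotomic field): a unit which is
congruent to a rational integer modulo `p` is a `p`-th power of a unit. -/
def KummerLemmaHolds (p : ℕ) (K : Type*) [Field K] [NumberField K] : Prop :=
  ∀ u : (𝓞 K)ˣ, (∃ n : ℤ, (p : 𝓞 K) ∣ (u : 𝓞 K) - n) → ∃ v : (𝓞 K)ˣ, u = v ^ p

end Fermat.Agent.Lib.Kummer
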