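import Mathlib.NumberTheory.NumberField.Cyclotomic.Ideal
import Mathlib.NumberTheory.NumberField.Cyclotomic.PID
import Mathlib.RingTheory.RootsOfUnity.CyclotomicUnits
import Mathlib.NumberTheory.FLT.Basic
import Mathlib.Tactic
import Fermat.Agent.Lib.Kummer.Defs

/-!
# Case II of Fermat's Last Theorem for a prime exponent `p`, assuming that `Z[zeta_p]` is a
principal ideal domain and that Kummer's lemma on units holds.

Main results (namespace `Fermat.Agent.Lib.Kummer`):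
* uses `KummerLemmaHolds p K` from `Fermat.Agent.Lib.Kummer.Defs`.
* `no_solution'`: the generalised equation `x ^ p + y ^ p = eps * z ^ p` has no solution in `O_K`
  with `z` nonzero, divisible by `zeta - 1`, `y` prime to `zeta - 1` and `x`, `y` coprime.
* `caseII_int`: case II for rational integers.
* `fermat_of_caseI`: Fermat's Last Theorem for exponent `p` for coprime nonzero integers, given
  case I.
-/

set_option autoImplicit false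

namespace Fermat.Agent.Lib.Kummer

open NumberField Polynomial

section basic

variable {p : ℕ} [hpri : Fact p.Prime] {K : Type*} [Field K] [NumberField K]
  [hK : IsCyclotomicExtension {p} ℚ K] {ζ : K} (hζ : IsPrimitiveRoot ζ p)

lemma card_quotient_span_zeta_sub_one :
    Nat.card (𝓞 K ⧸ Ideal.span {hζ.toInteger - 1}) = p := by
  have hK' : IsCyclotomicExtension {p ^ (0 + 1)} ℚ K := by simpa using hK
  have hζ' : IsPrimitiveRoot ζ (p ^ (0 + 1)) := by simpa using hζ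
  have h := IsCyclotomicExtension.Rat.absNorm_span_zeta_sub_one p 0 hζ'
  rw [← Submodule.cardQuot_apply, ← Ideal.absNorm_apply]
  exact h

/-- Every element of the ring of integers is congruent to a rational integer modulo `ζ - 1`. -/
lemma exists_int_sub_dvd (α : 𝓞 K) : ∃ n : ℤ, hζ.toInteger - 1 ∣ α - n := by
  classical
  set I : Ideal (𝓞 K) := Ideal.span {hζ.toInteger - 1} with hI
  have hcard : Nat.card (𝓞 K ⧸ I) = p := card_quotient_span_zeta_sub_one hζ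
  have hfin : Finite (𝓞 K ⧸ I) := Nat.finite_of_card_ne_zero (by rw [hcard]; exact hpri.out.ne_zero)
  have : Fintype (𝓞 K ⧸ I) := Fintype.ofFinite _
  have hcard' : Fintype.card (𝓞 K ⧸ I) = p := by rw [← Nat.card_eq_fintype_card, hcard]
  let e := ZMod.ringEquivOfPrime (𝓞 K ⧸ I) hpri.out hcard'
  set t : ZMod p := e.symm (Ideal.Quotient.mk I α) with ht
  refine ⟨(t.val : ℤ), ?_⟩
  rw [← Ideal.mem_span_singleton, ← hI, ← Ideal.Quotient.eq]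
  have h1 : (Ideal.Quotient.mk I α) = e t := by simp [ht]
  have h2 : t = ((t.val : ℤ) : ZMod p) := by simp
  rw [h1, h2, map_intCast, map_intCast]
  simp

omit [NumberField K] hK in
lemma zeta_sub_one_dvd_root_sub_one {η : 𝓞 K} (hη : η ∈ nthRootsFinset p (1 : 𝓞 K)) :
    hζ.toInteger - 1 ∣ η - 1 :=
  hζ.toInteger_isPrimitiveRoot.sub_one_dvd_sub hpri.out hη (one_mem_nthRootsFinset hpri.out.pos)

omit [NumberField K] hK in
lemma zeta_sub_one_pow_dvd_pow_sub_pow {α β : 𝓞 K} (h : hζ.toInteger - 1 ∣ α - β) :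
    (hζ.toInteger - 1) ^ p ∣ α ^ p - β ^ p := by
  rw [hζ.toInteger_isPrimitiveRoot.pow_sub_pow_eq_prod_sub_mul α β hpri.out.pos]
  have hcard : (nthRootsFinset p (1 : 𝓞 K)).card = p :=
    hζ.toInteger_isPrimitiveRoot.card_nthRootsFinset
  calc (hζ.toInteger - 1) ^ p = ∏ _η ∈ nthRootsFinset p (1 : 𝓞 K), (hζ.toInteger - 1) := by
        rw [Finset.prod_const, hcard]
    _ ∣ _ := by
        refine Finset.prod_dvd_prod_of_dvd _ _ fun η hη ↦ ?_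
        have : α - η * β = (α - β) - (η - 1) * β := by ring
        rw [this]
        exact dvd_sub h (Dvd.dvd.mul_right (zeta_sub_one_dvd_root_sub_one hζ hη) _)

omit [NumberField K] hK in
lemma natCast_dvd_of_zeta_sub_one_pow_dvd {w : 𝓞 K} (h : (hζ.toInteger - 1) ^ p ∣ w) :
    (p : 𝓞 K) ∣ w := by
  have h1 := (IsCyclotomicExtension.Rat.associated_zeta_sub_one_pow_prime p hζ).symm.dvd
  refine h1.trans (dvd_trans ?_ h)
  exact pow_dvd_pow _ (Nat.sub_le p 1)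

/-- `p`-th powers are congruent to rational integers modulo `(ζ - 1) ^ p`; the integer is prime
to `p` if the element is prime to `ζ - 1`. -/
lemma exists_int_pow_sub_dvd (α : 𝓞 K) :
    ∃ n : ℤ, (hζ.toInteger - 1) ^ p ∣ α ^ p - n ∧ (¬ hζ.toInteger - 1 ∣ α → ¬ (p : ℤ) ∣ n) := by
  obtain ⟨a, ha⟩ := exists_int_sub_dvd hζ α
  refine ⟨a ^ p, ?_, fun hα hpa ↦ hα ?_⟩
  · have := zeta_sub_one_pow_dvd_pow_sub_pow hζ ha
    simpa using this
  · have hpa' : (p : ℤ) ∣ a := Int.Prime.dvd_pow' hpri.out hpa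
    have h1 : hζ.toInteger - 1 ∣ (a : 𝓞 K) :=
      (IsCyclotomicExtension.Rat.zeta_sub_one_dvd_intCast_iff' p hζ).mpr hpa'
    have : α = (α - a) + a := by ring
    rw [this]
    exact dvd_add ha h1

omit [NumberField K] hK in
lemma isUnit_one_add_zeta (hp2 : p ≠ 2) : IsUnit (1 + hζ.toInteger) := by
  have h2 : (2 : ℕ).Coprime p := by
    rw [Nat.coprime_comm]
    exact (Nat.coprime_primes hpri.out Nat.prime_two).mpr hp2
  have := hζ.toInteger_isPrimitiveRoot.geom_sum_isUnit hpri.out.two_le h2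
  simpa [Finset.sum_range_succ] using this

omit [NumberField K] hK in
lemma zeta_sub_one_dvd_geom_sum_sub (j : ℕ) :
    hζ.toInteger - 1 ∣ (∑ i ∈ Finset.range j, hζ.toInteger ^ i) - (j : 𝓞 K) := by
  have : (∑ i ∈ Finset.range j, hζ.toInteger ^ i) - (j : 𝓞 K) =
      ∑ i ∈ Finset.range j, (hζ.toInteger ^ i - 1) := by
    simp [Finset.sum_sub_distrib]
  rw [this]
  refine Finset.dvd_sum fun i _ ↦ ?_
  simpa using sub_dvd_pow_sub_pow hζ.toInteger 1 i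

lemma exists_geom_sum_dvd (c y : 𝓞 K) (hy : ¬ hζ.toInteger - 1 ∣ y) :
    ∃ j : ℕ, hζ.toInteger - 1 ∣ c + (∑ i ∈ Finset.range j, hζ.toInteger ^ i) * y := by
  obtain ⟨c₀, hc₀⟩ := exists_int_sub_dvd hζ c
  obtain ⟨y₀, hy₀⟩ := exists_int_sub_dvd hζ y
  have hy₀p : ¬ (p : ℤ) ∣ y₀ := by
    intro h
    apply hy
    have h1 : hζ.toInteger - 1 ∣ (y₀ : 𝓞 K) :=
      (IsCyclotomicExtension.Rat.zeta_sub_one_dvd_intCast_iff' p hζ).mpr h
    have : y = (y - y₀) + y₀ := by ring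
    rw [this]
    exact dvd_add hy₀ h1
  have hy₀z : (y₀ : ZMod p) ≠ 0 := by
    rwa [Ne, ZMod.intCast_zmod_eq_zero_iff_dvd]
  set j : ℕ := (-(c₀ : ZMod p) * (y₀ : ZMod p)⁻¹).val with hj
  have hjz : (j : ZMod p) = -(c₀ : ZMod p) * (y₀ : ZMod p)⁻¹ := by
    rw [hj, ZMod.natCast_zmod_val]
  have hdvd : (p : ℤ) ∣ c₀ + j * y₀ := by
    rw [← ZMod.intCast_zmod_eq_zero_iff_dvd]
    push_cast
    rw [hjz]
    field_simp
    ring
  refine ⟨j, ?_⟩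
  have h1 : hζ.toInteger - 1 ∣ ((c₀ + j * y₀ : ℤ) : 𝓞 K) :=
    (IsCyclotomicExtension.Rat.zeta_sub_one_dvd_intCast_iff' p hζ).mpr hdvd
  have h2 := zeta_sub_one_dvd_geom_sum_sub hζ j
  have : c + (∑ i ∈ Finset.range j, hζ.toInteger ^ i) * y =
      (c - c₀) + ((∑ i ∈ Finset.range j, hζ.toInteger ^ i) - (j : 𝓞 K)) * y + j * (y - y₀) +
        ((c₀ + j * y₀ : ℤ) : 𝓞 K) := by
    push_cast
    ring
  rw [this]
  exact dvd_add (dvd_add (dvd_add hc₀ (Dvd.dvd.mul_right h2 _)) (Dvd.dvd.mul_left hy₀ _)) h1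


omit [NumberField K] hK in
/-- The quotients by `ζ - 1` of two distinct factors `x + η y` are coprime. -/
lemma isCoprime_quot {x y c₁ c₂ η₁ η₂ : 𝓞 K} (hxy : IsCoprime x y)
    (hη₁ : η₁ ∈ nthRootsFinset p (1 : 𝓞 K)) (hη₂ : η₂ ∈ nthRootsFinset p (1 : 𝓞 K))
    (hne : η₁ ≠ η₂) (h1 : x + η₁ * y = (hζ.toInteger - 1) * c₁)
    (h2 : x + η₂ * y = (hζ.toInteger - 1) * c₂) : IsCoprime c₁ c₂ := by
  obtain ⟨u, hu⟩ := hζ.toInteger_isPrimitiveRoot.nthRootsFinset_pairwise_associated_sub_one_sub_of_prime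
    hpri.out hη₁ hη₂ hne
  obtain ⟨a, b, hab⟩ := hxy
  have hπ0 : hζ.toInteger - 1 ≠ 0 := by
    intro h0
    apply hne
    have : η₁ - η₂ = 0 := by rw [← hu, h0, zero_mul]
    exact sub_eq_zero.mp this
  have hw : (b - a * η₂) * c₁ + (a * η₁ - b) * c₂ = u := by
    apply mul_left_cancel₀ hπ0
    linear_combination (-(b - a * η₂)) * h1 - (a * η₁ - b) * h2 + (η₁ - η₂) * hab - hu
  refine ⟨↑u⁻¹ * (b - a * η₂), ↑u⁻¹ * (a * η₁ - b), ?_⟩
  have : (↑u⁻¹ * (b - a * η₂)) * c₁ + (↑u⁻¹ * (a * η₁ - b)) * c₂ =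
      ↑u⁻¹ * ((b - a * η₂) * c₁ + (a * η₁ - b) * c₂) := by ring
  rw [this, hw]
  simp

/-- The final step of the descent: from the three-term identity to a new solution, using
Kummer's lemma. -/
lemma descent_final (hp2 : p ≠ 2) (hk : KummerLemmaHolds p K) {m : ℕ} (hm : 1 ≤ m)
    {c₁ c₂ d ρ₁ ρ₂ ρ₀ : 𝓞 K} {ε₁ ε₂ ε₀ : (𝓞 K)ˣ}
    (h1 : ρ₁ ^ p * ε₁ = c₁) (h2 : ρ₂ ^ p * ε₂ = c₂) (h0 : ρ₀ ^ p * ε₀ = d)
    (hid : c₁ + hζ.toInteger * c₂ = (1 + hζ.toInteger) * ((hζ.toInteger - 1) ^ (p * m) * d))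
    (hρ₂ : ¬ hζ.toInteger - 1 ∣ ρ₂) :
    ∃ v ε' : (𝓞 K)ˣ, ρ₁ ^ p + (v * ρ₂) ^ p = ε' * ((hζ.toInteger - 1) ^ m * ρ₀) ^ p := by
  set π := hζ.toInteger - 1 with hπ
  obtain ⟨ω, hω⟩ := isUnit_one_add_zeta hζ hp2
  have hζu : IsUnit hζ.toInteger := hζ.toInteger_isPrimitiveRoot.isUnit hpri.out.ne_zero
  obtain ⟨ζu, hζu⟩ := hζu
  -- the unit to which Kummer's lemma is applied
  set η' : (𝓞 K)ˣ := ζu * ε₂ * ε₁⁻¹ with hη'
  set ε' : (𝓞 K)ˣ := ω * ε₀ * ε₁⁻¹ with hε'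
  have key : ρ₁ ^ p + η' * ρ₂ ^ p = ε' * (π ^ m * ρ₀) ^ p := by
    have e1 : (ε₁ : 𝓞 K) * ↑ε₁⁻¹ = 1 := by simp
    rw [hη', hε']
    push_cast
    rw [hζu, hω]
    rw [← h1, ← h2, ← h0] at hid
    rw [mul_pow, ← pow_mul, mul_comm m p]
    linear_combination (↑ε₁⁻¹ : 𝓞 K) * hid - ρ₁ ^ p * e1
  -- congruence modulo `p` for the unit
  have hπp : π ^ p ∣ ρ₁ ^ p + η' * ρ₂ ^ p := by
    rw [key, mul_pow, ← pow_mul]
    refine Dvd.dvd.mul_left (Dvd.dvd.mul_right (pow_dvd_pow _ ?_) _) _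
    exact Nat.le_mul_of_pos_left p hm
  obtain ⟨a, ha, -⟩ := exists_int_pow_sub_dvd hζ ρ₁
  obtain ⟨b, hb, hb'⟩ := exists_int_pow_sub_dvd hζ ρ₂
  have hbp : ¬ (p : ℤ) ∣ b := hb' hρ₂
  have hcop : IsCoprime b (p : ℤ) := by
    rw [isCoprime_comm]
    exact (Nat.prime_iff_prime_int.mp hpri.out).coprime_iff_not_dvd.mpr hbp
  obtain ⟨s, t, hst⟩ := hcop
  have hdvd1 : π ^ p ∣ (a : 𝓞 K) + η' * b := by
    have : (a : 𝓞 K) + η' * b = (ρ₁ ^ p + η' * ρ₂ ^ p) - (ρ₁ ^ p - a) - η' * (ρ₂ ^ p - b) := by ring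
    rw [this]
    exact dvd_sub (dvd_sub hπp ha) (Dvd.dvd.mul_left hb _)
  have hdvd2 : (p : 𝓞 K) ∣ (a : 𝓞 K) + η' * b := natCast_dvd_of_zeta_sub_one_pow_dvd hζ hdvd1
  have hkum : ∃ n : ℤ, (p : 𝓞 K) ∣ (η' : 𝓞 K) - n := by
    refine ⟨-(s * a), ?_⟩
    have hst' : (s : 𝓞 K) * b + t * p = 1 := by exact_mod_cast congrArg (Int.cast : ℤ → 𝓞 K) hst
    have : (η' : 𝓞 K) - ((-(s * a) : ℤ) : 𝓞 K) = s * ((a : 𝓞 K) + η' * b) + (p : 𝓞 K) * (t * η') := by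
      push_cast
      linear_combination (-(η' : 𝓞 K)) * hst'
    rw [this]
    exact dvd_add (Dvd.dvd.mul_left hdvd2 _) (dvd_mul_right _ _)
  obtain ⟨v, hv⟩ := hk η' hkum
  refine ⟨v, ε', ?_⟩
  rw [← key, mul_pow, hv, Units.val_pow_eq_pow_val]


/-- If `ζ - 1` divides `x ^ p + y ^ p`, it divides every factor `x + η y`. -/
lemma zeta_sub_one_dvd_add_root_mul (hp2 : p ≠ 2) {x y : 𝓞 K}
    (h : hζ.toInteger - 1 ∣ x ^ p + y ^ p) {η : 𝓞 K} (hη : η ∈ nthRootsFinset p (1 : 𝓞 K)) :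
    hζ.toInteger - 1 ∣ x + η * y := by
  have hodd : Odd p := hpri.out.odd_of_ne_two hp2
  rw [hζ.toInteger_isPrimitiveRoot.pow_add_pow_eq_prod_add_mul x y hodd] at h
  obtain ⟨η₁, hη₁, hdvd⟩ := (hζ.zeta_sub_one_prime'.dvd_finsetProd_iff _).mp h
  have : x + η * y = (x + η₁ * y) + ((η - 1) - (η₁ - 1)) * y := by ring
  rw [this]
  exact dvd_add hdvd (Dvd.dvd.mul_right (dvd_sub (zeta_sub_one_dvd_root_sub_one hζ hη)
    (zeta_sub_one_dvd_root_sub_one hζ hη₁)) _)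

lemma descent_normalized (hp2 : p ≠ 2) [IsPrincipalIdealRing (𝓞 K)] (hk : KummerLemmaHolds p K)
    {n : ℕ} (hn : 1 ≤ n) {x y z : 𝓞 K} {ε : (𝓞 K)ˣ} (hy : ¬ hζ.toInteger - 1 ∣ y)
    (hz : ¬ hζ.toInteger - 1 ∣ z) (hxy : IsCoprime x y) (hsq : (hζ.toInteger - 1) ^ 2 ∣ x + y)
    (H : x ^ p + y ^ p = ε * ((hζ.toInteger - 1) ^ n * z) ^ p) :
    2 ≤ n ∧ ∃ (x' y' z' : 𝓞 K) (ε' : (𝓞 K)ˣ), ¬ hζ.toInteger - 1 ∣ y' ∧ ¬ hζ.toInteger - 1 ∣ z' ∧
      IsCoprime x' y' ∧ x' ^ p + y' ^ p = ε' * ((hζ.toInteger - 1) ^ (n - 1) * z') ^ p := by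
  classical
  have hπ : Prime (hζ.toInteger - 1) := hζ.zeta_sub_one_prime'
  set π := hζ.toInteger - 1 with hπdef
  have hπ0 : π ≠ 0 := hπ.ne_zero
  have hζR := hζ.toInteger_isPrimitiveRoot
  set S := nthRootsFinset p (1 : 𝓞 K) with hS
  have hodd : Odd p := hpri.out.odd_of_ne_two hp2
  have hcard : S.card = p := hζR.card_nthRootsFinset
  have h1S : (1 : 𝓞 K) ∈ S := one_mem_nthRootsFinset hpri.out.pos
  have hp0 : p ≠ 0 := hpri.out.ne_zero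
  have h0 : π ∣ x ^ p + y ^ p := by
    rw [H]
    exact Dvd.dvd.mul_left (dvd_pow (Dvd.dvd.mul_right (dvd_pow_self _ (by omega)) _) hp0) _
  have hall : ∀ η ∈ S, π ∣ x + η * y := fun η hη ↦ zeta_sub_one_dvd_add_root_mul hζ hp2 h0 hη
  choose! c hc using hall
  -- Step B
  have hB : ∀ η ∈ S, η ≠ 1 → ¬ π ∣ c η := by
    intro η hη hη1 hdvd
    obtain ⟨u, hu⟩ := hζR.nthRootsFinset_pairwise_associated_sub_one_sub_of_prime
      hpri.out hη h1S hη1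
    apply hy
    have h2 : π ^ 2 ∣ x + η * y := by
      rw [hc η hη, pow_two]
      exact mul_dvd_mul_left _ hdvd
    have h3 : π ^ 2 ∣ π * (u * y) := by
      have : π * (u * y) = (x + η * y) - (x + y) := by
        rw [← mul_assoc, hu]; ring
      rw [this]
      exact dvd_sub h2 hsq
    rw [pow_two] at h3
    have h4 : π ∣ u * y := (mul_dvd_mul_iff_left hπ0).mp h3
    exact (Units.isUnit u).dvd_mul_left.mp h4
  -- Step C
  have hC : π ∣ c 1 := by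
    have h2 : π * π ∣ π * c 1 := by
      rw [← hc 1 h1S, one_mul, ← pow_two]
      exact hsq
    exact (mul_dvd_mul_iff_left hπ0).mp h2
  -- Step D
  have hD : ∏ η ∈ S, c η = ε * π ^ (p * (n - 1)) * z ^ p := by
    have h1 : ∏ η ∈ S, (x + η * y) = π ^ p * ∏ η ∈ S, c η := by
      rw [Finset.prod_congr rfl hc, Finset.prod_mul_distrib, Finset.prod_const, hcard]
    rw [← hζR.pow_add_pow_eq_prod_add_mul x y hodd, H] at h1
    apply mul_left_cancel₀ (pow_ne_zero p hπ0)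
    rw [← h1]
    obtain ⟨k, rfl⟩ : ∃ k, n = k + 1 := ⟨n - 1, by omega⟩
    simp only [Nat.add_sub_cancel]
    ring_nf
  -- Step E
  have hE : ¬ π ∣ ∏ η ∈ S.erase 1, c η := by
    intro h
    obtain ⟨η, hη, hdvd⟩ := (hπ.dvd_finsetProd_iff _).mp h
    exact hB η (Finset.mem_of_mem_erase hη) (Finset.ne_of_mem_erase hη) hdvd
  have hsplit : c 1 * ∏ η ∈ S.erase 1, c η = ∏ η ∈ S, c η := Finset.mul_prod_erase S c h1S
  have hpow : π ^ (p * (n - 1)) ∣ c 1 := by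
    apply hπ.pow_dvd_of_dvd_mul_right _ hE
    rw [hsplit, hD]
    exact Dvd.dvd.mul_right (dvd_mul_left _ _) _
  obtain ⟨d, hd⟩ := hpow
  have hd' : d * ∏ η ∈ S.erase 1, c η = ε * z ^ p := by
    apply mul_left_cancel₀ (pow_ne_zero (p * (n - 1)) hπ0)
    rw [← mul_assoc, ← hd, hsplit, hD]
    ring
  have hdπ : ¬ π ∣ d := by
    intro h
    have h1 : π ∣ ε * z ^ p := by
      rw [← hd']
      exact Dvd.dvd.mul_right h _
    have h2 : π ∣ z ^ p := (Units.isUnit ε).dvd_mul_left.mp h1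
    exact hz (hπ.dvd_of_dvd_pow h2)
  have hn2 : 2 ≤ n := by
    by_contra hlt
    have hn1 : n = 1 := by omega
    apply hdπ
    rw [hn1] at hd
    simp only [Nat.sub_self, mul_zero, pow_zero, one_mul] at hd
    rw [← hd]
    exact hC
  refine ⟨hn2, ?_⟩
  -- Step G
  set c' : 𝓞 K → 𝓞 K := Function.update c 1 d with hc'
  have hc'1 : c' 1 = d := by simp [hc']
  have hc'ne : ∀ η, η ≠ 1 → c' η = c η := fun η hη ↦ by simp [hc', hη]
  have hprod' : ∏ η ∈ S, c' η = ε * z ^ p := by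
    rw [← Finset.mul_prod_erase S c' h1S, hc'1, ← hd']
    congr 1
    exact Finset.prod_congr rfl fun η hη ↦ hc'ne η (Finset.ne_of_mem_erase hη)
  have hcop : ∀ η₁ ∈ S, ∀ η₂ ∈ S, η₁ ≠ η₂ → IsCoprime (c η₁) (c η₂) :=
    fun η₁ hη₁ η₂ hη₂ hne ↦ isCoprime_quot hζ hxy hη₁ hη₂ hne (hc η₁ hη₁) (hc η₂ hη₂)
  have hdc1 : d ∣ c 1 := ⟨π ^ (p * (n - 1)), by rw [hd]; ring⟩
  have hcop' : ∀ η₁ ∈ S, ∀ η₂ ∈ S, η₁ ≠ η₂ → IsCoprime (c' η₁) (c' η₂) := by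
    intro η₁ hη₁ η₂ hη₂ hne
    by_cases h1 : η₁ = 1
    · have h2 : η₂ ≠ 1 := fun h ↦ hne (h1.trans h.symm)
      rw [h1, hc'1, hc'ne η₂ h2]
      exact (hcop 1 h1S η₂ hη₂ (h1 ▸ hne)).of_isCoprime_of_dvd_left hdc1
    · by_cases h2 : η₂ = 1
      · rw [h2, hc'1, hc'ne η₁ h1]
        exact (hcop η₁ hη₁ 1 h1S h1).of_isCoprime_of_dvd_right hdc1
      · rw [hc'ne η₁ h1, hc'ne η₂ h2]
        exact hcop η₁ hη₁ η₂ hη₂ hne
  have hpowers : ∀ η ∈ S, ∃ ρ : 𝓞 K, Associated (ρ ^ p) (c' η) := by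
    intro η hη
    refine exists_associated_pow_of_associated_pow_mul (b := ∏ i ∈ S.erase η, c' i) (c := z) ?_ ?_
    · exact IsCoprime.prod_right fun i hi ↦
        hcop' η hη i (Finset.mem_of_mem_erase hi) (Finset.ne_of_mem_erase hi).symm
    · refine ⟨ε, ?_⟩
      rw [Finset.mul_prod_erase S c' hη, hprod', mul_comm]
  -- Step I: the three roots `1`, `ζ`, `ζ ^ (p - 1)`
  set ζ₁ : 𝓞 K := hζ.toInteger with hζ₁
  set ζ₂ : 𝓞 K := hζ.toInteger ^ (p - 1) with hζ₂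
  have hp3 : 3 ≤ p := by
    have := hpri.out.two_le
    omega
  have hζ₁S : ζ₁ ∈ S := (mem_nthRootsFinset hpri.out.pos 1).mpr hζR.pow_eq_one
  have hζ₂S : ζ₂ ∈ S := by
    refine (mem_nthRootsFinset hpri.out.pos 1).mpr ?_
    rw [hζ₂, ← pow_mul, mul_comm, pow_mul, hζR.pow_eq_one, one_pow]
  have hζ₁1 : ζ₁ ≠ 1 := hζR.ne_one hpri.out.one_lt
  have hζ₂1 : ζ₂ ≠ 1 := hζR.pow_ne_one_of_pos_of_lt (by omega) (by omega)
  have hmul : ζ₁ * ζ₂ = 1 := by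
    rw [hζ₁, hζ₂, ← pow_succ', Nat.sub_add_cancel hpri.out.one_le, hζR.pow_eq_one]
  have hζ₁₂ : ζ₁ ≠ ζ₂ := by
    intro h
    have h2 : hζ.toInteger ^ 2 = 1 := by
      rw [pow_two]
      calc hζ.toInteger * hζ.toInteger = ζ₁ * ζ₂ := by rw [← h]
        _ = 1 := hmul
    exact hζR.pow_ne_one_of_pos_of_lt (by omega) (by omega) h2
  obtain ⟨ρ₀, ε₀, h0'⟩ := hpowers 1 h1S
  obtain ⟨ρ₁, ε₁, h1'⟩ := hpowers ζ₁ hζ₁S
  obtain ⟨ρ₂, ε₂, h2'⟩ := hpowers ζ₂ hζ₂S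
  rw [hc'1] at h0'
  rw [hc'ne ζ₁ hζ₁1] at h1'
  rw [hc'ne ζ₂ hζ₂1] at h2'
  have hid : c ζ₁ + ζ₁ * c ζ₂ = (1 + ζ₁) * (π ^ (p * (n - 1)) * d) := by
    apply mul_left_cancel₀ hπ0
    have e0 := hc 1 h1S
    have e1 := hc ζ₁ hζ₁S
    have e2 := hc ζ₂ hζ₂S
    rw [hd] at e0
    linear_combination (-1 : 𝓞 K) * e1 - ζ₁ * e2 + (1 + ζ₁) * e0 + y * hmul
  have hρ₂ : ¬ π ∣ ρ₂ := by
    intro h
    apply hB ζ₂ hζ₂S hζ₂1
    rw [← h2']
    exact Dvd.dvd.mul_right (dvd_pow h hp0) _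
  have hρ₀ : ¬ π ∣ ρ₀ := by
    intro h
    apply hdπ
    rw [← h0']
    exact Dvd.dvd.mul_right (dvd_pow h hp0) _
  obtain ⟨v, ε', hfin⟩ := descent_final hζ hp2 hk (m := n - 1) (by omega) h1' h2' h0' hid hρ₂
  refine ⟨ρ₁, v * ρ₂, ρ₀, ε', ?_, hρ₀, ?_, hfin⟩
  · rwa [(Units.isUnit v).dvd_mul_left]
  · have h12 : IsCoprime (c ζ₁) (c ζ₂) := hcop ζ₁ hζ₁S ζ₂ hζ₂S hζ₁₂
    rw [← h1', ← h2'] at h12
    have h3 : IsCoprime (ρ₁ ^ p) (ρ₂ ^ p) := h12.of_mul_left_left.of_mul_right_left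
    have h4 : IsCoprime ρ₁ ρ₂ := (IsCoprime.pow_iff hpri.out.pos hpri.out.pos).mp h3
    exact (isCoprime_mul_unit_left_right (Units.isUnit v) _ _).mpr h4

/-- The descent step: a solution with exponent `n ≥ 1` of `ζ - 1` forces `n ≥ 2` and yields a
solution with exponent `n - 1`. -/
lemma descent (hp2 : p ≠ 2) [IsPrincipalIdealRing (𝓞 K)] (hk : KummerLemmaHolds p K)
    {n : ℕ} (hn : 1 ≤ n) {x y z : 𝓞 K} {ε : (𝓞 K)ˣ} (hy : ¬ hζ.toInteger - 1 ∣ y)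
    (hz : ¬ hζ.toInteger - 1 ∣ z) (hxy : IsCoprime x y)
    (H : x ^ p + y ^ p = ε * ((hζ.toInteger - 1) ^ n * z) ^ p) :
    2 ≤ n ∧ ∃ (x' y' z' : 𝓞 K) (ε' : (𝓞 K)ˣ), ¬ hζ.toInteger - 1 ∣ y' ∧ ¬ hζ.toInteger - 1 ∣ z' ∧
      IsCoprime x' y' ∧ x' ^ p + y' ^ p = ε' * ((hζ.toInteger - 1) ^ (n - 1) * z') ^ p := by
  have hπ : Prime (hζ.toInteger - 1) := hζ.zeta_sub_one_prime'
  have hζR := hζ.toInteger_isPrimitiveRoot
  have hp0 : p ≠ 0 := hpri.out.ne_zero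
  have h1S : (1 : 𝓞 K) ∈ nthRootsFinset p (1 : 𝓞 K) := one_mem_nthRootsFinset hpri.out.pos
  have h0 : hζ.toInteger - 1 ∣ x ^ p + y ^ p := by
    rw [H]
    exact Dvd.dvd.mul_left (dvd_pow (Dvd.dvd.mul_right (dvd_pow_self _ (by omega)) _) hp0) _
  obtain ⟨c0, hc0⟩ := zeta_sub_one_dvd_add_root_mul hζ hp2 h0 h1S
  rw [one_mul] at hc0
  obtain ⟨j, hj⟩ := exists_geom_sum_dvd hζ c0 y hy
  have hu : IsUnit (hζ.toInteger ^ j) := (hζR.isUnit hp0).pow j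
  have hy₁p : (hζ.toInteger ^ j * y) ^ p = y ^ p := by
    rw [mul_pow, ← pow_mul, mul_comm j p, pow_mul, hζR.pow_eq_one, one_pow, one_mul]
  have hy₁ : ¬ hζ.toInteger - 1 ∣ hζ.toInteger ^ j * y := by
    rwa [hu.dvd_mul_left]
  have hxy₁ : IsCoprime x (hζ.toInteger ^ j * y) :=
    (isCoprime_mul_unit_left_right hu _ _).mpr hxy
  have hsq : (hζ.toInteger - 1) ^ 2 ∣ x + hζ.toInteger ^ j * y := by
    have hgeom : (hζ.toInteger - 1) * ∑ i ∈ Finset.range j, hζ.toInteger ^ i =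
        hζ.toInteger ^ j - 1 := mul_geom_sum _ _
    have : x + hζ.toInteger ^ j * y =
        (hζ.toInteger - 1) * (c0 + (∑ i ∈ Finset.range j, hζ.toInteger ^ i) * y) := by
      linear_combination hc0 - y * hgeom
    rw [this, pow_two]
    exact mul_dvd_mul_left _ hj
  exact descent_normalized hζ hp2 hk hn hy₁ hz hxy₁ hsq (by rw [hy₁p]; exact H)

/-- There is no solution to the generalised Fermat equation in which `ζ - 1` divides `z`. -/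
theorem no_solution (hp2 : p ≠ 2) [IsPrincipalIdealRing (𝓞 K)] (hk : KummerLemmaHolds p K)
    (n : ℕ) : ∀ (x y z : 𝓞 K) (ε : (𝓞 K)ˣ), ¬ hζ.toInteger - 1 ∣ y → ¬ hζ.toInteger - 1 ∣ z →
      IsCoprime x y → x ^ p + y ^ p ≠ ε * ((hζ.toInteger - 1) ^ (n + 1) * z) ^ p := by
  induction n with
  | zero =>
    intro x y z ε hy hz hxy H
    have := (descent hζ hp2 hk (n := 1) le_rfl hy hz hxy H).1
    omega
  | succ n ih =>
    intro x y z ε hy hz hxy H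
    obtain ⟨-, x', y', z', ε', hy', hz', hxy', H'⟩ :=
      descent hζ hp2 hk (n := n + 2) (by omega) hy hz hxy H
    exact ih x' y' z' ε' hy' hz' hxy' H'

/-- The generalised Fermat equation `x ^ p + y ^ p = ε * z ^ p` has no solution in `𝓞 K` with
`z ≠ 0`, `ζ - 1 ∣ z`, `ζ - 1 ∤ y` and `x`, `y` coprime. -/
theorem no_solution' (hp2 : p ≠ 2) [IsPrincipalIdealRing (𝓞 K)] (hk : KummerLemmaHolds p K)
    (x y z : 𝓞 K) (ε : (𝓞 K)ˣ) (hy : ¬ hζ.toInteger - 1 ∣ y) (hz0 : z ≠ 0)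
    (hz : hζ.toInteger - 1 ∣ z) (hxy : IsCoprime x y) : x ^ p + y ^ p ≠ ε * z ^ p := by
  have hπ : Prime (hζ.toInteger - 1) := hζ.zeta_sub_one_prime'
  obtain ⟨n, w, hw, rfl⟩ := WfDvdMonoid.max_power_factor hz0 hπ.irreducible
  have hn : n ≠ 0 := by
    rintro rfl
    apply hw
    simpa using hz
  obtain ⟨k, rfl⟩ : ∃ k, n = k + 1 := ⟨n - 1, by omega⟩
  exact no_solution hζ hp2 hk k x y w ε hy hw hxy

/-- Case II of Fermat's Last Theorem for the exponent `p`, for rational integers, assuming that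
`𝓞 K` is principal and that Kummer's lemma holds. -/
theorem caseII_int (hp2 : p ≠ 2) [IsPrincipalIdealRing (𝓞 K)] (hk : KummerLemmaHolds p K)
    {a b c : ℤ} (hab : IsCoprime a b) (hc0 : c ≠ 0) (hpc : (p : ℤ) ∣ c) :
    a ^ p + b ^ p ≠ c ^ p := by
  intro H
  have hζ := IsCyclotomicExtension.zeta_spec p ℚ K
  have hp0 : p ≠ 0 := hpri.out.ne_zero
  have hpZ : Prime (p : ℤ) := Nat.prime_iff_prime_int.mp hpri.out
  have hb : ¬ (p : ℤ) ∣ b := by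
    intro hpb
    have hpa : (p : ℤ) ∣ a := by
      have h1 : (p : ℤ) ∣ a ^ p := by
        have : a ^ p = c ^ p - b ^ p := by rw [← H]; ring
        rw [this]
        exact dvd_sub (dvd_pow hpc hp0) (dvd_pow hpb hp0)
      exact hpZ.dvd_of_dvd_pow h1
    exact hpZ.not_isUnit (hab.isUnit_of_dvd' hpa hpb)
  refine no_solution' hζ hp2 hk (a : 𝓞 K) (b : 𝓞 K) (c : 𝓞 K) 1 ?_ ?_ ?_ ?_ ?_
  · rwa [IsCyclotomicExtension.Rat.zeta_sub_one_dvd_intCast_iff' p hζ]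
  · exact_mod_cast hc0
  · rwa [IsCyclotomicExtension.Rat.zeta_sub_one_dvd_intCast_iff' p hζ]
  · exact hab.intCast
  · rw [Units.val_one, one_mul]
    exact_mod_cast congrArg (Int.cast : ℤ → 𝓞 K) H

omit hpri in
lemma isCoprime_of_add_pow_eq {p : ℕ} (hp0 : p ≠ 0) {a b c : ℤ} (hab : IsCoprime a b)
    (H : a ^ p + b ^ p = c ^ p) : IsCoprime c b := by
  have h1 : IsCoprime (a ^ p) b := hab.pow_left
  have h2 : IsCoprime (a ^ p + b * b ^ (p - 1)) b := h1.add_mul_left_left _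
  have h3 : b * b ^ (p - 1) = b ^ p := by
    rw [← pow_succ', Nat.sub_add_cancel (Nat.one_le_iff_ne_zero.mpr hp0)]
  rw [h3, H] at h2
  exact (IsCoprime.pow_left_iff (Nat.pos_of_ne_zero hp0)).mp h2

/-- Fermat's Last Theorem for the odd prime exponent `p` (for nonzero coprime integers), assuming
case I, principality of `𝓞 K` and Kummer's lemma. -/
theorem fermat_of_caseI (hp2 : p ≠ 2) [IsPrincipalIdealRing (𝓞 K)] (hk : KummerLemmaHolds p K)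
    (hI : ∀ a b c : ℤ, IsCoprime a b → ¬ (p : ℤ) ∣ a * b * c → a ^ p + b ^ p ≠ c ^ p)
    (a b c : ℤ) (ha : a ≠ 0) (hb : b ≠ 0) (hc : c ≠ 0) (hab : IsCoprime a b) :
    a ^ p + b ^ p ≠ c ^ p := by
  intro H
  have hp0 : p ≠ 0 := hpri.out.ne_zero
  have hpZ : Prime (p : ℤ) := Nat.prime_iff_prime_int.mp hpri.out
  have hodd : Odd p := hpri.out.odd_of_ne_two hp2
  by_cases hdiv : (p : ℤ) ∣ a * b * c
  · rcases hpZ.dvd_or_dvd hdiv with h | hpc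
    · rcases hpZ.dvd_or_dvd h with hpa | hpb
      · -- `c ^ p + (-b) ^ p = a ^ p`
        have hcb : IsCoprime c (-b) := (isCoprime_of_add_pow_eq hp0 hab H).neg_right
        refine caseII_int hp2 hk hcb ha hpa ?_
        rw [hodd.neg_pow, ← H]; ring
      · -- `c ^ p + (-a) ^ p = b ^ p`
        have hca : IsCoprime c (-a) :=
          (isCoprime_of_add_pow_eq hp0 hab.symm (by rw [← H]; ring)).neg_right
        refine caseII_int hp2 hk hca hb hpb ?_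
        rw [hodd.neg_pow, ← H]; ring
    · exact caseII_int hp2 hk hab hc hpc H
  · exact hI a b c hab hdiv H

end basic

end Fermat.Agent.Lib.Kummer
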