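import Mathlib.LinearAlgebra.Dimension.Constructions
import Mathlib.LinearAlgebra.Dimension.Finite
import Mathlib.LinearAlgebra.FiniteDimensional.Lemmas
import Mathlib.Algebra.Module.ZMod
import Mathlib.Algebra.Field.ZMod
import Mathlib.GroupTheory.QuotientGroup.Basic

set_option autoImplicit false
set_option linter.unusedSectionVars false

namespace Fermat.Agent.Lib.Kummer

section

variable {E : Type*} [CommGroup E] (p : ℕ) [hp : Fact p.Prime]

/-- The quotient `E / E^p`, written additively. -/
abbrev ModPow : Type _ := Additive (E ⧸ (powMonoidHom p : E →* E).range)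

variable {p}

/-- The projection `E → E / E^p`. -/
def toModPow (u : E) : ModPow (E := E) p := Additive.ofMul (QuotientGroup.mk u)

theorem toModPow_mul (u v : E) : toModPow (p := p) (u * v) = toModPow u + toModPow v := rfl

theorem toModPow_zpow (u : E) (k : ℤ) : toModPow (p := p) (u ^ k) = k • toModPow u := rfl

theorem toModPow_prod {n : ℕ} (g : Fin n → E) (e : Fin n → ℤ) :
    toModPow (p := p) (∏ i, g i ^ e i) = ∑ i, e i • toModPow (g i) := by
  classical
  have : ∀ s : Finset (Fin n),
      toModPow (p := p) (∏ i ∈ s, g i ^ e i) = ∑ i ∈ s, e i • toModPow (g i) := by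
    intro s
    induction s using Finset.induction_on with
    | empty => rfl
    | insert a s ha ih =>
      rw [Finset.prod_insert ha, Finset.sum_insert ha, toModPow_mul, ih, toModPow_zpow]
  exact this _

theorem toModPow_eq_zero_iff (u : E) : toModPow (p := p) u = 0 ↔ ∃ v : E, u = v ^ p := by
  unfold toModPow
  rw [← ofMul_one, Additive.ofMul.injective.eq_iff, QuotientGroup.eq_one_iff]
  constructor
  · rintro ⟨v, hv⟩
    exact ⟨v, hv.symm⟩
  · rintro ⟨v, hv⟩
    exact ⟨v, hv.symm⟩

theorem toModPow_surjective : Function.Surjective (toModPow (p := p) (E := E)) := by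
  intro x
  obtain ⟨u, hu⟩ := QuotientGroup.mk_surjective (Additive.toMul x)
  exact ⟨u, by unfold toModPow; rw [hu]; rfl⟩

theorem nsmul_modPow_eq_zero (x : ModPow (E := E) p) : p • x = 0 := by
  obtain ⟨u, rfl⟩ := toModPow_surjective x
  have : p • toModPow (p := p) u = toModPow (u ^ (p : ℤ)) := by
    rw [toModPow_zpow]; simp
  rw [this, toModPow_eq_zero_iff]
  exact ⟨u, by simp⟩

noncomputable instance instModuleModPow : Module (ZMod p) (ModPow (E := E) p) :=
  AddCommGroup.zmodModule nsmul_modPow_eq_zero

end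

/-- If `E / E^p` is generated by `n` elements and `h_1, …, h_n` are independent modulo `p`-th
powers, then the `h_i` generate `E / E^p`. -/
theorem exists_eq_prod_mul_pow_of_indep {E : Type*} [CommGroup E] {p : ℕ} [hp : Fact p.Prime]
    {n : ℕ} (gen : Fin n → E)
    (hgen : ∀ u : E, ∃ (e : Fin n → ℤ) (v : E), u = (∏ i, gen i ^ e i) * v ^ p)
    (h : Fin n → E)
    (hind : ∀ e : Fin n → ℤ, (∃ v : E, ∏ i, h i ^ e i = v ^ p) → ∀ i, (p : ℤ) ∣ e i) :
    ∀ u : E, ∃ (e : Fin n → ℤ) (v : E), u = (∏ i, h i ^ e i) * v ^ p := by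
  classical
  -- the spanning family
  have hspan : Submodule.span (ZMod p) (Set.range fun i => toModPow (p := p) (gen i)) = ⊤ := by
    rw [eq_top_iff]
    rintro x -
    obtain ⟨u, rfl⟩ := toModPow_surjective x
    obtain ⟨e, v, rfl⟩ := hgen u
    rw [toModPow_mul, toModPow_prod]
    have hv : toModPow (p := p) (v ^ p) = 0 := (toModPow_eq_zero_iff _).2 ⟨v, rfl⟩
    rw [hv, add_zero]
    refine Submodule.sum_mem _ fun i _ => ?_
    rw [← Int.cast_smul_eq_zsmul (ZMod p)]
    exact Submodule.smul_mem _ _ (Submodule.subset_span ⟨i, rfl⟩)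
  have hfin : Module.Finite (ZMod p) (ModPow (E := E) p) :=
    Module.finite_def.2 ⟨(Finset.univ.image fun i => toModPow (p := p) (gen i)), by
      rw [Finset.coe_image, Finset.coe_univ, Set.image_univ]; exact hspan⟩
  have hrank : Module.finrank (ZMod p) (ModPow (E := E) p) ≤ n := by
    have := finrank_range_le_card (R := ZMod p) fun i => toModPow (p := p) (gen i)
    unfold Set.finrank at this
    rw [hspan, finrank_top] at this
    simpa using this
  -- independence
  have hli : LinearIndependent (ZMod p) fun i => toModPow (p := p) (h i) := by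
    rw [Fintype.linearIndependent_iff]
    intro c hc i
    have h1 : toModPow (p := p) (∏ i, h i ^ ((c i).val : ℤ)) = 0 := by
      rw [toModPow_prod, ← hc]
      refine Finset.sum_congr rfl fun i _ => ?_
      rw [← Int.cast_smul_eq_zsmul (ZMod p)]
      simp
    obtain ⟨v, hv⟩ := (toModPow_eq_zero_iff _).1 h1
    have := hind (fun i => ((c i).val : ℤ)) ⟨v, hv⟩ i
    have h2 : ((c i).val : ZMod p) = 0 := by
      rw [ZMod.natCast_eq_zero_iff]
      exact Int.natCast_dvd_natCast.1 this
    simpa using h2
  have hcard : Fintype.card (Fin n) = Module.finrank (ZMod p) (ModPow (E := E) p) :=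
    le_antisymm hli.fintype_card_le_finrank (by simpa using hrank)
  have htop := hli.span_eq_top_of_card_eq_finrank' hcard
  intro u
  have hu : toModPow (p := p) u ∈ Submodule.span (ZMod p)
      (Set.range fun i => toModPow (p := p) (h i)) := by rw [htop]; trivial
  obtain ⟨c, hc⟩ := (Submodule.mem_span_range_iff_exists_fun _).1 hu
  have h1 : toModPow (p := p) (u * (∏ i, h i ^ ((c i).val : ℤ))⁻¹) = 0 := by
    rw [toModPow_mul, ← zpow_neg_one, toModPow_zpow, toModPow_prod, ← hc, neg_one_smul,
      add_neg_eq_zero]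
    refine Finset.sum_congr rfl fun i _ => ?_
    rw [← Int.cast_smul_eq_zsmul (ZMod p)]
    simp
  obtain ⟨v, hv⟩ := (toModPow_eq_zero_iff _).1 h1
  refine ⟨fun i => ((c i).val : ℤ), v, ?_⟩
  rw [← hv]
  simp

end Fermat.Agent.Lib.Kummer
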