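import Mathlib

set_option autoImplicit false

open NumberField Ideal Polynomial

namespace Fermat.Agent.Lib.Kummer

section Certificate

variable {p : ℕ} [hp : Fact p.Prime] {K : Type*} [Field K] [NumberField K]
  [IsCyclotomicExtension {p} ℚ K] {ζ : K} (hζ : IsPrimitiveRoot ζ p)

omit [IsCyclotomicExtension {p} ℚ K] in
theorem minpoly_toInteger_eq_cyclotomic : minpoly ℤ hζ.toInteger = cyclotomic p ℤ := by
  rw [cyclotomic_eq_minpoly hζ hp.out.pos]
  exact (RingOfIntegers.minpoly_coe hζ.toInteger).symm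

theorem aeval_minpoly_gen_eq_zero (q : ℕ) (a : ZMod q)
    (ha : (cyclotomic p (ZMod q)).eval a = 0) :
    aeval a (minpoly ℤ hζ.integralPowerBasis.gen) = 0 := by
  rw [hζ.integralPowerBasis_gen, minpoly_toInteger_eq_cyclotomic hζ, aeval_def,
    eval₂_eq_eval_map, map_cyclotomic]
  exact ha

/-- The ring hom `𝓞 K → ZMod q` sending `ζ` to a root `a` of the `p`-th cyclotomic polynomial
mod `q`. -/
noncomputable def evalHom (q : ℕ) (a : ZMod q) (ha : (cyclotomic p (ZMod q)).eval a = 0) :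
    𝓞 K →ₐ[ℤ] ZMod q :=
  hζ.integralPowerBasis.lift a (aeval_minpoly_gen_eq_zero hζ q a ha)

@[simp]
theorem evalHom_toInteger (q : ℕ) (a : ZMod q) (ha : (cyclotomic p (ZMod q)).eval a = 0) :
    evalHom hζ q a ha hζ.toInteger = a := by
  rw [← hζ.integralPowerBasis_gen]
  exact hζ.integralPowerBasis.lift_gen a (aeval_minpoly_gen_eq_zero hζ q a ha)

theorem ker_evalHom_eq_span (q : ℕ) [Fact q.Prime] (a : ℤ)
    (ha : (cyclotomic p (ZMod q)).eval (a : ZMod q) = 0)
    (α β γ : 𝓞 K) (hα : evalHom hζ q a ha α = 0)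
    (h1 : α * β = (q : 𝓞 K)) (h2 : α * γ = hζ.toInteger - (a : 𝓞 K)) :
    RingHom.ker (evalHom hζ q (a : ZMod q) ha : 𝓞 K →+* ZMod q) = span {α} := by
  apply le_antisymm
  · intro x hx
    rw [RingHom.mem_ker] at hx
    obtain ⟨g, rfl⟩ := hζ.integralPowerBasis.exists_eq_aeval' x
    rw [hζ.integralPowerBasis_gen] at hx ⊢
    have hx' : evalHom hζ q (a : ZMod q) ha (aeval hζ.toInteger g) = 0 := hx
    have hq : (q : 𝓞 K) ∈ span {α} := by
      rw [mem_span_singleton]; exact ⟨β, h1.symm⟩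
    have hza : hζ.toInteger - (a : 𝓞 K) ∈ span {α} := by
      rw [mem_span_singleton]; exact ⟨γ, h2.symm⟩
    have hsub : aeval hζ.toInteger g - aeval (a : 𝓞 K) g ∈ span {α} := by
      have hdvd : hζ.toInteger - (a : 𝓞 K) ∣ aeval hζ.toInteger g - aeval (a : 𝓞 K) g := by
        rw [aeval_def, aeval_def, eval₂_eq_eval_map, eval₂_eq_eval_map]
        exact sub_dvd_eval_sub _ _ _
      obtain ⟨w, hw⟩ := hdvd
      rw [hw]
      exact Ideal.mul_mem_right _ _ hza
    have hga : aeval (a : 𝓞 K) g ∈ span {α} := by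
      have h0 : ((g.eval a : ℤ) : ZMod q) = 0 := by
        rw [← aeval_algHom_apply, evalHom_toInteger] at hx'
        rw [← hx', aeval_def, eval₂_eq_eval_map]
        simp [eval_intCast_map]
      rw [ZMod.intCast_zmod_eq_zero_iff_dvd] at h0
      obtain ⟨m, hm⟩ := h0
      have : aeval (a : 𝓞 K) g = ((g.eval a : ℤ) : 𝓞 K) := by
        rw [aeval_def, eval₂_eq_eval_map]
        simp [eval_intCast_map]
      rw [this, hm]
      push_cast
      exact Ideal.mul_mem_right _ _ hq
    have := Ideal.add_mem _ hsub hga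
    rwa [sub_add_cancel] at this
  · rw [span_singleton_le_iff_mem, RingHom.mem_ker]
    exact hα

theorem exists_principal_prime_of_certificate (q : ℕ) [hq : Fact q.Prime] (a : ℤ)
    (ha : (cyclotomic p (ZMod q)).eval (a : ZMod q) = 0)
    (α β γ : 𝓞 K) (hα : evalHom hζ q a ha α = 0)
    (h1 : α * β = (q : 𝓞 K)) (h2 : α * γ = hζ.toInteger - (a : 𝓞 K)) :
    ∃ P ∈ primesOver (span {(q : ℤ)}) (𝓞 K), Submodule.IsPrincipal P := by
  have hker := ker_evalHom_eq_span hζ q a ha α β γ hα h1 h2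
  have hprime : (span {α}).IsPrime := by
    rw [← hker]
    exact RingHom.ker_isPrime _
  refine ⟨span {α}, ⟨hprime, ?_⟩, ⟨α, rfl⟩⟩
  rw [liesOver_iff]
  refine IsMaximal.eq_of_le (Int.ideal_span_isMaximal_of_prime q) IsPrime.ne_top' ?_
  rw [span_singleton_le_iff_mem, mem_comap, algebraMap_int_eq, map_natCast, mem_span_singleton]
  exact ⟨β, h1.symm⟩

end Certificate

end Fermat.Agent.Lib.Kummer
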