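import Mathlib
import Fermat.Agent.Lib.Kummer.PrincipalPrime

set_option autoImplicit false

open NumberField Ideal Polynomial

namespace Fermat.Agent.Lib.Kummer

theorem le_orderOf_of_forall_pow_ne_one {G : Type*} [Monoid G] (x : G) (k : ℕ)
    (hx : IsOfFinOrder x) (h : ∀ j, 0 < j → j < k → x ^ j ≠ 1) : k ≤ orderOf x := by
  by_contra hlt
  exact h (orderOf x) hx.orderOf_pos (not_le.mp hlt) (pow_orderOf_eq_one x)

namespace Eleven

theorem pow_ten : ∀ x : ZMod 11, x ≠ 0 → x ^ 10 = 1 := by decide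

theorem two_pow_ne_one : ∀ j < 6, 0 < j → ((2 : ℕ) : ZMod 11) ^ j ≠ 1 := by decide

theorem small_pow_ne_one :
    ∀ p < 8, 3 ≤ p → p.Prime → ∀ j < 4, 0 < j → ((p : ℕ) : ZMod 11) ^ j ≠ 1 := by
  intro p hp
  interval_cases p <;> decide

theorem large_ne_one :
    ∀ p < 60, 8 ≤ p → p.Prime → p ≠ 23 → ((p : ℕ) : ZMod 11) ≠ 1 := by decide

theorem eval_cyclotomic_four :
    (cyclotomic 11 (ZMod 23)).eval (((4 : ℤ) : ZMod 23)) = 0 := by
  have h : (cyclotomic 11 (ZMod 23)) = ∑ i ∈ Finset.range 11, X ^ i :=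
    @cyclotomic_prime (ZMod 23) _ 11 ⟨by norm_num⟩
  rw [h, eval_geom_sum]
  decide

theorem alpha_eval_four : (1 + ((4 : ℤ) : ZMod 23) + ((4 : ℤ) : ZMod 23) ^ 3 = 0) := by
  decide

variable (K : Type) [Field K] [NumberField K] [IsCyclotomicExtension {11} ℚ K]

theorem minkowski :
    ⌊(4 / Real.pi) ^ InfinitePlace.nrComplexPlaces K *
      ((Module.finrank ℚ K).factorial / (Module.finrank ℚ K : ℝ) ^ Module.finrank ℚ K *
        √|(discr K : ℝ)|)⌋₊ ≤ 59 := by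
  rw [@IsCyclotomicExtension.Rat.discr_prime 11 K _ ⟨by norm_num⟩ _ _,
    IsCyclotomicExtension.Rat.finrank (k := 11) K,
    IsCyclotomicExtension.Rat.nrComplexPlaces_eq_totient_div_two 11,
    Nat.totient_prime (by norm_num : Nat.Prime 11)]
  have hfact : ((11 - 1 : ℕ).factorial : ℝ) = 3628800 := by
    norm_num [Nat.factorial]
  have habs : |(((-1 : ℤ) ^ ((11 - 1) / 2) * ((11 : ℕ) : ℤ) ^ (11 - 2) : ℤ) : ℝ)| = 11 ^ 9 := by
    norm_num
  rw [hfact, habs]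
  have hpi : (3.14 : ℝ) < Real.pi := Real.pi_gt_d2
  have h1 : (4 / Real.pi) ^ ((11 - 1) / 2) < (4 / 3.14 : ℝ) ^ ((11 - 1) / 2) := by
    have : (4 / Real.pi) < (4 / 3.14 : ℝ) :=
      div_lt_div_of_pos_left (by norm_num) (by norm_num) hpi
    exact pow_lt_pow_left₀ this (by positivity) (by norm_num)
  have h2 : √((11 : ℝ) ^ 9) < 48560 := by
    rw [Real.sqrt_lt' (by norm_num)]
    norm_num
  have hlt : (4 / Real.pi) ^ ((11 - 1) / 2) *
      (3628800 / ((11 - 1 : ℕ) : ℝ) ^ (11 - 1) * √((11 : ℝ) ^ 9)) < 60 := by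
    calc (4 / Real.pi) ^ ((11 - 1) / 2) *
          (3628800 / ((11 - 1 : ℕ) : ℝ) ^ (11 - 1) * √((11 : ℝ) ^ 9))
        < (4 / 3.14 : ℝ) ^ ((11 - 1) / 2) *
          (3628800 / ((11 - 1 : ℕ) : ℝ) ^ (11 - 1) * 48560) := by
          gcongr
      _ < 60 := by norm_num
  have hnn : 0 ≤ (4 / Real.pi) ^ ((11 - 1) / 2) *
      (3628800 / ((11 - 1 : ℕ) : ℝ) ^ (11 - 1) * √((11 : ℝ) ^ 9)) := by positivity
  have := (Nat.floor_lt hnn).mpr (by exact_mod_cast hlt : _ < ((60 : ℕ) : ℝ))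
  omega

theorem exists_principal_prime_over_23 :
    ∃ P ∈ primesOver (span {((23 : ℕ) : ℤ)}) (𝓞 K), Submodule.IsPrincipal P := by
  have hζ := IsCyclotomicExtension.zeta_spec 11 ℚ K
  set z : 𝓞 K := hζ.toInteger with hz
  have hsum : ∑ i ∈ Finset.range 11, z ^ i = 0 :=
    hζ.toInteger_isPrimitiveRoot.geom_sum_eq_zero (by norm_num)
  simp only [Finset.sum_range_succ, Finset.sum_range_zero, zero_add, pow_zero, pow_one] at hsum
  refine @exists_principal_prime_of_certificate 11 ⟨by norm_num⟩ K _ _ _ _ hζ 23 ⟨by norm_num⟩ 4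
    eval_cyclotomic_four
    (1 + z + z ^ 3)
    ((-2) + (-14) * z + (-17) * z ^ 2 + (-12) * z ^ 3 + (-5) * z ^ 4 + (-9) * z ^ 5 +
      (-10) * z ^ 6 + (-16) * z ^ 7 + (-6) * z ^ 8 + (-15) * z ^ 9)
    (1 + 3 * z + 3 * z ^ 2 + 2 * z ^ 3 + z ^ 4 + 2 * z ^ 5 + 2 * z ^ 6 + 3 * z ^ 7 + z ^ 8 +
      3 * z ^ 9) ?_ ?_ ?_
  · simp only [map_add, map_one, map_pow, hz, evalHom_toInteger]
    exact alpha_eval_four
  · push_cast
    linear_combination ((-25) + 9 * z + (-15) * z ^ 2) * hsum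
  · push_cast
    linear_combination (5 + (-2) * z + 3 * z ^ 2) * hsum

theorem pid : IsPrincipalIdealRing (𝓞 K) := by
  have : IsGalois ℚ K := IsCyclotomicExtension.isGalois {11} ℚ K
  apply RingOfIntegers.isPrincipalIdealRing_of_isPrincipal_of_lt_or_isPrincipal_of_mem_primesOver_of_mem_Icc
  intro p hpmem hpprime
  have hM := minkowski K
  have hp59 : p ≤ 59 := (Finset.mem_Icc.mp hpmem).2.trans hM
  have hp1 : 1 ≤ p := (Finset.mem_Icc.mp hpmem).1
  have : Fact p.Prime := ⟨hpprime⟩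
  by_cases h11 : p = 11
  · subst h11
    obtain ⟨⟨P, hP1, hP2⟩⟩ := (span {((11 : ℕ) : ℤ)}).nonempty_primesOver (S := 𝓞 K)
    refine ⟨P, ⟨hP1, hP2⟩, Or.inr ?_⟩
    rw [IsCyclotomicExtension.Rat.eq_span_zeta_sub_one_of_liesOver' 11 K
      (IsCyclotomicExtension.zeta_spec 11 ℚ K) P]
    exact ⟨⟨_, rfl⟩⟩
  by_cases h23 : p = 23
  · subst h23
    obtain ⟨P, hP, hprinc⟩ := exists_principal_prime_over_23 K
    exact ⟨P, hP, Or.inr hprinc⟩
  obtain ⟨⟨P, hP1, hP2⟩⟩ := (span {(p : ℤ)}).nonempty_primesOver (S := 𝓞 K)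
  refine ⟨P, ⟨hP1, hP2⟩, Or.inl ?_⟩
  have hm : ¬ p ∣ 11 := by
    intro h
    rcases (Nat.dvd_prime (by norm_num : Nat.Prime 11)).mp h with h | h
    · exact hpprime.one_lt.ne' h
    · exact h11 h
  rw [IsCyclotomicExtension.Rat.inertiaDeg_eq_of_not_dvd p K P hm]
  refine lt_of_le_of_lt hM ?_
  clear hM hpmem hP1 hP2 P
  have hne : ((p : ℕ) : ZMod 11) ≠ 0 := by
    rw [Ne, ZMod.natCast_eq_zero_iff]
    intro h
    exact h11 ((Nat.prime_dvd_prime_iff_eq (by norm_num) hpprime).mp h).symm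
  have h10 : ((p : ℕ) : ZMod 11) ^ 10 = 1 := pow_ten _ hne
  have hfin : IsOfFinOrder ((p : ℕ) : ZMod 11) :=
    isOfFinOrder_iff_pow_eq_one.mpr ⟨10, by norm_num, h10⟩
  have key : ∀ k : ℕ, (∀ j, 0 < j → j < k → ((p : ℕ) : ZMod 11) ^ j ≠ 1) →
      p ^ k ≤ p ^ orderOf ((p : ℕ) : ZMod 11) := fun k hj =>
    Nat.pow_le_pow_right hp1 (le_orderOf_of_forall_pow_ne_one _ k hfin hj)
  by_cases h2 : p = 2
  · subst h2
    exact lt_of_lt_of_le (by norm_num)
      (key 6 (fun j hj0 hj6 => two_pow_ne_one j hj6 hj0))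
  by_cases h8 : p < 8
  · have hp3 : 3 ≤ p := by
      have := hpprime.two_le
      omega
    refine lt_of_lt_of_le ?_
      (key 4 (fun j hj0 hj4 => small_pow_ne_one p h8 hp3 hpprime j hj4 hj0))
    calc 59 < 3 ^ 4 := by norm_num
      _ ≤ p ^ 4 := Nat.pow_le_pow_left hp3 4
  · have hp8 : 8 ≤ p := not_lt.mp h8
    have h1 : ∀ j, 0 < j → j < 2 → ((p : ℕ) : ZMod 11) ^ j ≠ 1 := by
      intro j hj0 hj2
      interval_cases j
      rw [pow_one]
      exact large_ne_one p (by omega) hp8 hpprime h23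
    refine lt_of_lt_of_le ?_ (key 2 h1)
    calc 59 < 8 ^ 2 := by norm_num
      _ ≤ p ^ 2 := Nat.pow_le_pow_left hp8 2

end Eleven

/-- The ring of integers of the 11-th cyclotomic field is a PID. -/
theorem pid_eleven (K : Type) [Field K] [NumberField K] [IsCyclotomicExtension {11} ℚ K] :
    IsPrincipalIdealRing (𝓞 K) :=
  Eleven.pid K

end Fermat.Agent.Lib.Kummer
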