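import Fermat.Agent.Lib.Kummer.PIDCommon
import Mathlib.Tactic.NormNum.Prime
import Mathlib.Algebra.Polynomial.SpecificDegree

set_option autoImplicit false

namespace Fermat.Agent.Lib.Kummer

open NumberField Polynomial Ideal RingOfIntegers NumberField.Ideal IsCyclotomicExtension
  InfinitePlace Nat Real Module

open PIDCommon

namespace PID13

/-- exponent bound used for the prime `q`. -/
def kf (q : ℕ) : ℕ := if q < 3 then 9 else if q < 7 then 4 else if q < 18 then 3 else 2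

set_option maxRecDepth 100000 in
theorem prime_cases : ∀ q ≤ 307, q.Prime →
    q ∈ [3, 13, 53, 79, 131, 157] ∨
    (q ≠ 13 ∧ 307 < q ^ kf q ∧ ∀ j < kf q, 0 < j → (q ^ j) % 13 ≠ 1) := by
  decide

theorem root_fiftyThree : ∑ i ∈ Finset.range 13, (((-17 : ℤ)) : ZMod 53) ^ i = 0 := by decide

theorem root_seventyNine : ∑ i ∈ Finset.range 13, (((-15 : ℤ)) : ZMod 79) ^ i = 0 := by decide

theorem root_oneThirtyOne : ∑ i ∈ Finset.range 13, (((-51 : ℤ)) : ZMod 131) ^ i = 0 := by decide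

theorem root_oneFiftySeven : ∑ i ∈ Finset.range 13, (((75 : ℤ)) : ZMod 157) ^ i = 0 := by decide

theorem no_root_three : ∀ x : ZMod 3, ¬ (x ^ 3 - x - 1 = 0) := by decide

theorem cast_three : (Int.castRingHom (ZMod 3)) 3 = 0 := by decide

theorem geom_sum_thirteen (K : Type) [Field K] [NumberField K] [IsCyclotomicExtension {13} ℚ K] :
    have : Fact (Nat.Prime 13) := ⟨by norm_num⟩
    1 + zetaInt 13 K + zetaInt 13 K ^ 2 + zetaInt 13 K ^ 3 + zetaInt 13 K ^ 4 + zetaInt 13 K ^ 5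
      + zetaInt 13 K ^ 6 + zetaInt 13 K ^ 7 + zetaInt 13 K ^ 8 + zetaInt 13 K ^ 9
      + zetaInt 13 K ^ 10 + zetaInt 13 K ^ 11 + zetaInt 13 K ^ 12 = 0 := by
  have : Fact (Nat.Prime 13) := ⟨by norm_num⟩
  have h := geom_sum_zetaInt (p := 13) (K := K)
  simpa [Finset.sum_range_succ] using h

theorem principal_fiftyThree (K : Type) [Field K] [NumberField K] [IsCyclotomicExtension {13} ℚ K] :
    ∃ P ∈ primesOver (span {(((53 : ℕ)) : ℤ)}) (𝓞 K), Submodule.IsPrincipal P := by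
  have hq : Fact (Nat.Prime 53) := ⟨by norm_num⟩
  have hp13 : Fact (Nat.Prime 13) := ⟨by norm_num⟩
  have hg := geom_sum_thirteen K
  set ζ := zetaInt 13 K with hζ
  refine exists_isPrincipal_deg_one (p := 13) (K := K) 53 (-17) root_fiftyThree
    (1 + ζ + ζ ^ 3) (1 - 24 * ζ - 35 * ζ ^ 2 - 25 * ζ ^ 3 - 10 * ζ ^ 4 - 14 * ζ ^ 5 - 20 * ζ ^ 6 - 29 * ζ ^ 7 - 16 * ζ ^ 8 - 23 * ζ ^ 9 - 7 * ζ ^ 10 - 36 * ζ ^ 11)
    (1 - 7 * ζ - 11 * ζ ^ 2 - 8 * ζ ^ 3 - 3 * ζ ^ 4 - 4 * ζ ^ 5 - 6 * ζ ^ 6 - 9 * ζ ^ 7 - 5 * ζ ^ 8 - 7 * ζ ^ 9 - 2 * ζ ^ 10 - 11 * ζ ^ 11)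
    (290 - 17 * ζ + ζ ^ 2) (-93) ?_ ?_ ?_
  · push_cast
    linear_combination (52 - 29 * ζ + 36 * ζ ^ 2) * hg
  · push_cast
    linear_combination (16 - 9 * ζ + 11 * ζ ^ 2) * hg
  · push_cast
    ring

theorem principal_seventyNine (K : Type) [Field K] [NumberField K] [IsCyclotomicExtension {13} ℚ K] :
    ∃ P ∈ primesOver (span {(((79 : ℕ)) : ℤ)}) (𝓞 K), Submodule.IsPrincipal P := by
  have hq : Fact (Nat.Prime 79) := ⟨by norm_num⟩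
  have hp13 : Fact (Nat.Prime 13) := ⟨by norm_num⟩
  have hg := geom_sum_thirteen K
  set ζ := zetaInt 13 K with hζ
  refine exists_isPrincipal_deg_one (p := 13) (K := K) 79 (-15) root_seventyNine
    (1 + ζ - ζ ^ 4) (24 - 25 * ζ - 27 * ζ ^ 2 + 10 * ζ ^ 3 - 3 * ζ ^ 4 - 39 * ζ ^ 5 - 5 * ζ ^ 6 - 2 * ζ ^ 7 - 18 * ζ ^ 8 - 38 * ζ ^ 9 + 16 * ζ ^ 10 - 35 * ζ ^ 11)
    (5 - 4 * ζ - 5 * ζ ^ 2 + 2 * ζ ^ 3 - 7 * ζ ^ 5 - ζ ^ 6 - 3 * ζ ^ 8 - 7 * ζ ^ 9 + 3 * ζ ^ 10 - 6 * ζ ^ 11)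
    (3376 - 225 * ζ + 15 * ζ ^ 2 - ζ ^ 3) (-641) ?_ ?_ ?_
  · push_cast
    linear_combination (55 - 54 * ζ + 51 * ζ ^ 2 - 35 * ζ ^ 3) * hg
  · push_cast
    linear_combination (10 - 10 * ζ + 9 * ζ ^ 2 - 6 * ζ ^ 3) * hg
  · push_cast
    ring

theorem principal_oneThirtyOne (K : Type) [Field K] [NumberField K] [IsCyclotomicExtension {13} ℚ K] :
    ∃ P ∈ primesOver (span {(((131 : ℕ)) : ℤ)}) (𝓞 K), Submodule.IsPrincipal P := by
  have hq : Fact (Nat.Prime 131) := ⟨by norm_num⟩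
  have hp13 : Fact (Nat.Prime 13) := ⟨by norm_num⟩
  have hg := geom_sum_thirteen K
  set ζ := zetaInt 13 K with hζ
  refine exists_isPrincipal_deg_one (p := 13) (K := K) 131 (-51) root_oneThirtyOne
    (1 - ζ - ζ ^ 3) (111 + 78 * ζ + 17 * ζ ^ 2 + 67 * ζ ^ 3 + 84 * ζ ^ 4 + 40 * ζ ^ 5 + 46 * ζ ^ 6 + 69 * ζ ^ 7 + 48 * ζ ^ 8 + 33 * ζ ^ 9 + 41 * ζ ^ 10 + 28 * ζ ^ 11)
    (43 + 31 * ζ + 7 * ζ ^ 2 + 26 * ζ ^ 3 + 33 * ζ ^ 4 + 16 * ζ ^ 5 + 18 * ζ ^ 6 + 27 * ζ ^ 7 + 19 * ζ ^ 8 + 13 * ζ ^ 9 + 16 * ζ ^ 10 + 11 * ζ ^ 11)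
    (-2602 + 51 * ζ - ζ ^ 2) (1013) ?_ ?_ ?_
  · push_cast
    linear_combination (20 + 13 * ζ + 28 * ζ ^ 2) * hg
  · push_cast
    linear_combination (8 + 5 * ζ + 11 * ζ ^ 2) * hg
  · push_cast
    ring

theorem principal_oneFiftySeven (K : Type) [Field K] [NumberField K] [IsCyclotomicExtension {13} ℚ K] :
    ∃ P ∈ primesOver (span {(((157 : ℕ)) : ℤ)}) (𝓞 K), Submodule.IsPrincipal P := by
  have hq : Fact (Nat.Prime 157) := ⟨by norm_num⟩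
  have hp13 : Fact (Nat.Prime 13) := ⟨by norm_num⟩
  have hg := geom_sum_thirteen K
  set ζ := zetaInt 13 K with hζ
  refine exists_isPrincipal_deg_one (p := 13) (K := K) 157 (75) root_oneFiftySeven
    (1 - ζ + ζ ^ 2 + ζ ^ 4) (89 + 86 * ζ + 42 * ζ ^ 2 + 77 * ζ ^ 3 + 67 * ζ ^ 4 + 25 * ζ ^ 5 + 37 * ζ ^ 6 + 56 * ζ ^ 7 + 73 * ζ ^ 8 + 113 * ζ ^ 9 + 124 * ζ ^ 10 + 76 * ζ ^ 11)
    (-43 - 41 * ζ - 20 * ζ ^ 2 - 37 * ζ ^ 3 - 32 * ζ ^ 4 - 12 * ζ ^ 5 - 18 * ζ ^ 6 - 27 * ζ ^ 7 - 35 * ζ ^ 8 - 54 * ζ ^ 9 - 59 * ζ ^ 10 - 36 * ζ ^ 11)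
    (421949 + 5626 * ζ + 75 * ζ ^ 2 + ζ ^ 3) (201568) ?_ ?_ ?_
  · push_cast
    linear_combination (68 - 65 * ζ - 48 * ζ ^ 2 - 76 * ζ ^ 3) * hg
  · push_cast
    linear_combination (-32 + 31 * ζ + 23 * ζ ^ 2 + 36 * ζ ^ 3) * hg
  · push_cast
    ring


theorem principal_three (K : Type) [Field K] [NumberField K] [IsCyclotomicExtension {13} ℚ K] :
    ∃ P ∈ primesOver (span {(((3 : ℕ)) : ℤ)}) (𝓞 K), Submodule.IsPrincipal P := by
  have hq : Fact (Nat.Prime 3) := ⟨by norm_num⟩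
  have hp13 : Fact (Nat.Prime 13) := ⟨by norm_num⟩
  have hg := geom_sum_thirteen K
  set ζ := zetaInt 13 K with hζ
  have hmap : (X ^ 3 - X - 1 : ℤ[X]).map (Int.castRingHom (ZMod 3)) = X ^ 3 - X - 1 := by
    simp
  have hdeg : (X ^ 3 - X - 1 : (ZMod 3)[X]).natDegree = 3 := by
    compute_degree!
  have hQ : (X ^ 3 - X - 1 : ℤ[X]).map (Int.castRingHom (ZMod 3)) ∈ monicFactorsMod ζ 3 := by
    apply mem_monicFactorsMod (p := 13) (K := K)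
    · rw [hmap]
      apply irreducible_of_degree_le_three_of_not_isRoot
      · rw [hdeg]; decide
      · intro x
        simp only [IsRoot.def, eval_sub, eval_pow, eval_X, eval_one]
        exact no_root_three x
    · rw [hmap]
      refine monic_of_natDegree_le_of_coeff_eq_one 3 (by rw [hdeg]) ?_
      simp [coeff_X, coeff_one]
    · rw [← map_cyclotomic_int, cyclotomic_prime]
      have hfac : (∑ i ∈ Finset.range 13, (X : ℤ[X]) ^ i) =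
          (X ^ 3 - X - 1) * (20 + 15 * X + 11 * X ^ 2 + 8 * X ^ 3 + 6 * X ^ 4 + 4 * X ^ 5
            + 3 * X ^ 6 + 2 * X ^ 7 + X ^ 8 + X ^ 9) + C 3 * (7 + 12 * X + 9 * X ^ 2) := by
        simp only [Finset.sum_range_succ, Finset.range_zero, Finset.sum_empty, map_ofNat]
        ring
      rw [hfac, Polynomial.map_add, Polynomial.map_mul, Polynomial.map_mul, Polynomial.map_C]
      have h3 : (Int.castRingHom (ZMod 3)) 3 = 0 := cast_three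
      rw [h3, C_0, zero_mul, add_zero]
      exact Dvd.intro _ rfl
  apply exists_isPrincipal_of_span_eq (not_dvd_exponent_zetaInt (p := 13) (K := K) 3) hQ
    (α := 1 + ζ - ζ ^ 3)
  have haeval : aeval ζ (X ^ 3 - X - 1 : ℤ[X]) = ζ ^ 3 - ζ - 1 := by simp
  rw [haeval]
  apply le_antisymm
  · rw [span_le]
    intro x hx
    rcases hx with rfl | rfl
    · refine mem_span_singleton.mpr
        ⟨-1 - ζ ^ 2 - ζ ^ 3 - 2 * ζ ^ 5 - ζ ^ 7 - 2 * ζ ^ 8 + ζ ^ 9 - 3 * ζ ^ 10, ?_⟩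
      push_cast
      linear_combination (4 - 3 * ζ) * hg
    · exact mem_span_singleton.mpr ⟨-1, by ring⟩
  · rw [span_singleton_le_iff_mem, mem_span_pair]
    exact ⟨0, -1, by ring⟩

end PID13

theorem pid_thirteen (K : Type) [Field K] [NumberField K] [IsCyclotomicExtension {13} ℚ K] :
    IsPrincipalIdealRing (𝓞 K) := by
  have hp13 : Fact (Nat.Prime 13) := ⟨by norm_num⟩
  have : IsGalois ℚ K := IsCyclotomicExtension.isGalois {13} ℚ K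
  have hM : ⌊(4 / π) ^ nrComplexPlaces K *
      ((finrank ℚ K)! / (finrank ℚ K) ^ (finrank ℚ K) * √|discr K|)⌋₊ ≤ 307 := by
    apply floor_minkowski_le 13 K 307
    apply minkowski_lt _ _ 1338717
    · positivity
    · norm_num
    · norm_num
    · norm_num [Nat.factorial]
  apply RingOfIntegers.isPrincipalIdealRing_of_isPrincipal_of_lt_or_isPrincipal_of_mem_primesOver_of_mem_Icc
  intro q hq hqprime
  have hq307 : q ≤ 307 := le_trans (Finset.mem_Icc.mp hq).2 hM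
  have : Fact q.Prime := ⟨hqprime⟩
  have hcases := PID13.prime_cases q hq307 hqprime
  simp only [List.mem_cons, List.not_mem_nil, or_false] at hcases
  rcases hcases with (rfl | rfl | rfl | rfl | rfl | rfl) | ⟨h13, h1, h2⟩
  · obtain ⟨P, hP, hprin⟩ := PID13.principal_three K
    exact ⟨P, hP, Or.inr hprin⟩
  · obtain ⟨⟨P, hP1, hP2⟩⟩ := (span {((13 : ℕ) : ℤ)}).nonempty_primesOver (S := 𝓞 K)
    refine ⟨P, ⟨hP1, hP2⟩, Or.inr ?_⟩
    rw [Rat.eq_span_zeta_sub_one_of_liesOver' 13 K (zeta_spec 13 ℚ K) P]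
    exact ⟨_, rfl⟩
  · obtain ⟨P, hP, hprin⟩ := PID13.principal_fiftyThree K
    exact ⟨P, hP, Or.inr hprin⟩
  · obtain ⟨P, hP, hprin⟩ := PID13.principal_seventyNine K
    exact ⟨P, hP, Or.inr hprin⟩
  · obtain ⟨P, hP, hprin⟩ := PID13.principal_oneThirtyOne K
    exact ⟨P, hP, Or.inr hprin⟩
  · obtain ⟨P, hP, hprin⟩ := PID13.principal_oneFiftySeven K
    exact ⟨P, hP, Or.inr hprin⟩
  · obtain ⟨⟨P, hP1, hP2⟩⟩ := (span {(q : ℤ)}).nonempty_primesOver (S := 𝓞 K)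
    refine ⟨P, ⟨hP1, hP2⟩, Or.inl (lt_of_le_of_lt hM ?_)⟩
    have hq13 : ¬ q ∣ 13 := fun h => h13 ((Nat.prime_dvd_prime_iff_eq hqprime hp13.out).mp h)
    exact lt_pow_inertiaDeg (p := 13) q hq13 P 307 (PID13.kf q) h1
      (fun j hj hj0 => pow_ne_one_of_mod (h2 j hj hj0))

end Fermat.Agent.Lib.Kummer
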