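import Fermat.Agent.Lib.Kummer.PIDCommon

set_option autoImplicit false

namespace Fermat.Agent.Lib.Kummer

open NumberField Polynomial Ideal RingOfIntegers NumberField.Ideal IsCyclotomicExtension
  InfinitePlace Nat Real Module

open PIDCommon

namespace PID7

theorem pow_two_ne_one : ∀ j < 3, 0 < j → ((2 : ℕ) : ZMod 7) ^ j ≠ 1 := by decide

theorem pow_three_ne_one : ∀ j < 2, 0 < j → ((3 : ℕ) : ZMod 7) ^ j ≠ 1 := by decide

theorem prime_cases : ∀ q ≤ 4, q.Prime → q = 2 ∨ q = 3 := by decide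

end PID7

theorem pid_seven (K : Type) [Field K] [NumberField K] [IsCyclotomicExtension {7} ℚ K] :
    IsPrincipalIdealRing (𝓞 K) := by
  have hp7 : Fact (Nat.Prime 7) := ⟨by decide⟩
  have : IsGalois ℚ K := IsCyclotomicExtension.isGalois {7} ℚ K
  have hM : ⌊(4 / π) ^ nrComplexPlaces K *
      ((finrank ℚ K)! / (finrank ℚ K) ^ (finrank ℚ K) * √|discr K|)⌋₊ ≤ 4 := by
    apply floor_minkowski_le 7 K 4
    apply minkowski_lt _ _ 129.65
    · positivity
    · norm_num
    · norm_num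
    · norm_num [Nat.factorial]
  apply RingOfIntegers.isPrincipalIdealRing_of_isPrincipal_of_lt_or_isPrincipal_of_mem_primesOver_of_mem_Icc
  intro q hq hqprime
  have hq4 : q ≤ 4 := le_trans (Finset.mem_Icc.mp hq).2 hM
  have : Fact q.Prime := ⟨hqprime⟩
  obtain ⟨⟨P, hP1, hP2⟩⟩ := (span {(q : ℤ)}).nonempty_primesOver (S := 𝓞 K)
  refine ⟨P, ⟨hP1, hP2⟩, Or.inl ?_⟩
  refine lt_of_le_of_lt hM ?_
  rcases PID7.prime_cases q hq4 hqprime with rfl | rfl
  · exact lt_pow_inertiaDeg (p := 7) 2 (by decide) P 4 3 (by norm_num) PID7.pow_two_ne_one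
  · exact lt_pow_inertiaDeg (p := 7) 3 (by decide) P 4 2 (by norm_num) PID7.pow_three_ne_one

end Fermat.Agent.Lib.Kummer
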