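import Mathlib

set_option autoImplicit false

namespace Fermat.Agent.Lib.Kummer

namespace SophieGermain

/-- the cofactor `(y^p + z^p)/(y+z)` -/
def phi (p : ℕ) (y z : ℤ) : ℤ := ∑ i ∈ Finset.range p, y ^ i * (-z) ^ (p - 1 - i)

theorem phi_mul {p : ℕ} (hp : Odd p) (y z : ℤ) : phi p y z * (y + z) = y ^ p + z ^ p := by
  have h := geom_sum₂_mul y (-z) p
  rw [sub_neg_eq_add, hp.neg_pow, sub_neg_eq_add] at h
  exact h

theorem phi_congr (p : ℕ) (y z : ℤ) : ∃ k : ℤ, phi p y z = p * y ^ (p - 1) + (y + z) * k := by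
  have hsum : (p : ℤ) * y ^ (p - 1) = ∑ i ∈ Finset.range p, y ^ i * y ^ (p - 1 - i) := by
    have : ∀ i ∈ Finset.range p, y ^ i * y ^ (p - 1 - i) = y ^ (p - 1) := by
      intro i hi
      rw [Finset.mem_range] at hi
      rw [← pow_add]
      congr 1
      omega
    rw [Finset.sum_congr rfl this, Finset.sum_const, Finset.card_range, nsmul_eq_mul]
  have hdvd : (y + z) ∣ phi p y z - p * y ^ (p - 1) := by
    rw [hsum, phi, ← Finset.sum_sub_distrib]
    apply Finset.dvd_sum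
    intro i _
    rw [← mul_sub]
    apply Dvd.dvd.mul_left
    have h1 : (-z) - y ∣ (-z) ^ (p - 1 - i) - y ^ (p - 1 - i) := sub_dvd_pow_sub_pow _ _ _
    have h2 : (y + z) ∣ (-z) - y := ⟨-1, by ring⟩
    exact h2.trans h1
  obtain ⟨k, hk⟩ := hdvd
  exact ⟨k, by linarith⟩

theorem factor {p : ℕ} (hp : p.Prime) (hp2 : p ≠ 2) {u v w : ℤ} (huv : IsCoprime u v)
    (h : u ^ p + v ^ p = w ^ p) (hpw : ¬ (p : ℤ) ∣ w) :
    ∃ A T : ℤ, u + v = A ^ p ∧ phi p u v = T ^ p := by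
  have hodd : Odd p := hp.odd_of_ne_two hp2
  have hmul : (u + v) * phi p u v = w ^ p := by rw [mul_comm, phi_mul hodd, h]
  obtain ⟨k, hk⟩ := phi_congr p u v
  have hpZ : Prime (p : ℤ) := Nat.prime_iff_prime_int.mp hp
  have hcop_p : IsCoprime (u + v) (p : ℤ) := by
    rw [isCoprime_comm, hpZ.irreducible.coprime_iff_not_dvd]
    intro hdvd
    apply hpw
    have : (p : ℤ) ∣ w ^ p := by rw [← hmul]; exact hdvd.mul_right _
    exact hpZ.dvd_of_dvd_pow this
  have hcop_u : IsCoprime (u + v) u := by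
    have : IsCoprime (v + 1 * u) u := (IsCoprime.add_mul_right_left_iff).mpr huv.symm
    simpa [add_comm] using this
  have hcop : IsCoprime (u + v) (phi p u v) := by
    rw [hk]
    have h1 : IsCoprime (u + v) ((p : ℤ) * u ^ (p - 1)) := hcop_p.mul_right (hcop_u.pow_right)
    exact (IsCoprime.add_mul_left_right_iff).mpr h1
  obtain ⟨⟨A, hA⟩, ⟨T, hT⟩⟩ := Int.eq_pow_of_mul_eq_pow_odd hcop hodd hmul
  exact ⟨A, T, hA, hT⟩

theorem core {p q : ℕ} (hp : p.Prime) (hp2 : p ≠ 2) [Fact q.Prime]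
    (h1 : ∀ x y z : ZMod q, x ^ p + y ^ p + z ^ p = 0 → x = 0 ∨ y = 0 ∨ z = 0)
    (h2 : ∀ x : ZMod q, x ^ p ≠ (p : ZMod q))
    {x y z : ℤ} (hxy : IsCoprime x y) (hyz : IsCoprime y z) (hzx : IsCoprime z x)
    (hsum : x ^ p + y ^ p + z ^ p = 0)
    (hpx : ¬ (p : ℤ) ∣ x) (hpy : ¬ (p : ℤ) ∣ y) (hpz : ¬ (p : ℤ) ∣ z)
    (hqx : (x : ZMod q) = 0) : False := by
  have hodd : Odd p := hp.odd_of_ne_two hp2
  have hnegpow : ∀ t : ℤ, (-t) ^ p = -t ^ p := fun t => hodd.neg_pow t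
  have hpnx : ¬ (p : ℤ) ∣ -x := by rwa [dvd_neg]
  have hpny : ¬ (p : ℤ) ∣ -y := by rwa [dvd_neg]
  have hpnz : ¬ (p : ℤ) ∣ -z := by rwa [dvd_neg]
  obtain ⟨A, T, hA, hT⟩ := factor hp hp2 hyz (w := -x) (by rw [hnegpow]; linarith) hpnx
  obtain ⟨B, -, hB, -⟩ := factor hp hp2 hzx (w := -y) (by rw [hnegpow]; linarith) hpny
  obtain ⟨C, S, hC, hS⟩ := factor hp hp2 hxy (w := -z) (by rw [hnegpow]; linarith) hpnz
  -- no common zero mod q
  have hq : (q : ℤ) ∣ x := (ZMod.intCast_zmod_eq_zero_iff_dvd x q).mp hqx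
  have hqZ : Prime (q : ℤ) := Nat.prime_iff_prime_int.mp (Fact.out)
  have hynz : (y : ZMod q) ≠ 0 := by
    intro hy
    have hqy : (q : ℤ) ∣ y := (ZMod.intCast_zmod_eq_zero_iff_dvd y q).mp hy
    exact hqZ.not_isUnit (hxy.isUnit_of_dvd' hq hqy)
  have hznz : (z : ZMod q) ≠ 0 := by
    intro hz
    have hqz : (q : ℤ) ∣ z := (ZMod.intCast_zmod_eq_zero_iff_dvd z q).mp hz
    exact hqZ.not_isUnit (hzx.isUnit_of_dvd' hqz hq)
  -- the relation among A, B, C mod q
  have hABC : (B : ZMod q) ^ p + (C : ZMod q) ^ p + ((-A : ℤ) : ZMod q) ^ p = 0 := by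
    have : B ^ p + C ^ p + (-A) ^ p = 2 * x := by
      rw [hnegpow, ← hA, ← hB, ← hC]; ring
    have h3 := congrArg (Int.cast : ℤ → ZMod q) this
    push_cast at h3
    rw [hqx, mul_zero] at h3
    push_cast
    exact h3
  have hAcast : ((A : ℤ) : ZMod q) ^ p = (y : ZMod q) + z := by
    have := congrArg (Int.cast : ℤ → ZMod q) hA
    push_cast at this
    exact this.symm
  have hBcast : ((B : ℤ) : ZMod q) ^ p = (z : ZMod q) + x := by
    have := congrArg (Int.cast : ℤ → ZMod q) hB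
    push_cast at this
    exact this.symm
  have hCcast : ((C : ℤ) : ZMod q) ^ p = (x : ZMod q) + y := by
    have := congrArg (Int.cast : ℤ → ZMod q) hC
    push_cast at this
    exact this.symm
  have hp0 : p ≠ 0 := hp.ne_zero
  have hA0 : (A : ZMod q) = 0 := by
    rcases h1 _ _ _ hABC with hB0 | hC0 | hA0
    · exfalso
      rw [hB0, zero_pow hp0, hqx, add_zero] at hBcast
      exact hznz hBcast.symm
    · exfalso
      rw [hC0, zero_pow hp0, hqx, zero_add] at hCcast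
      exact hynz hCcast.symm
    · simpa using hA0
  have hyz0 : (y : ZMod q) + z = 0 := by
    rw [← hAcast, hA0, zero_pow hp0]
  -- T^p = p * y^(p-1)
  obtain ⟨k, hk⟩ := phi_congr p y z
  have hTcast : ((T : ℤ) : ZMod q) ^ p = (p : ZMod q) * (y : ZMod q) ^ (p - 1) := by
    have := congrArg (Int.cast : ℤ → ZMod q) (hT.symm.trans hk)
    push_cast at this
    rw [hyz0, zero_mul, add_zero] at this
    exact this
  -- S^p = y^(p-1)
  have hScast : ((S : ℤ) : ZMod q) ^ p = (y : ZMod q) ^ (p - 1) := by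
    have hm := phi_mul hodd x y
    rw [hS] at hm
    have := congrArg (Int.cast : ℤ → ZMod q) hm
    push_cast at this
    rw [hqx, zero_add, zero_pow hp0, zero_add] at this
    have hy : (y : ZMod q) ^ p = (y : ZMod q) ^ (p - 1) * y := by
      rw [← pow_succ]
      congr 1
      have := hp.pos
      omega
    rw [hy] at this
    exact mul_right_cancel₀ hynz this
  have hSp : ((S : ℤ) : ZMod q) ^ p ≠ 0 := by
    rw [hScast]
    exact pow_ne_zero _ hynz
  apply h2 ((T : ZMod q) / (S : ZMod q))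
  rw [div_pow, hTcast, hScast]
  rw [hScast] at hSp
  field_simp

end SophieGermain

/-- Sophie Germain's theorem: the first case of Fermat for the exponent `p` follows from an
auxiliary prime `q`. -/
theorem caseI_of_auxPrime {p q : ℕ} (hp : p.Prime) (hp2 : p ≠ 2) (hq : q.Prime)
    (h1 : ∀ x y z : ZMod q, x ^ p + y ^ p + z ^ p = 0 → x = 0 ∨ y = 0 ∨ z = 0)
    (h2 : ∀ x : ZMod q, x ^ p ≠ (p : ZMod q))
    {a b c : ℤ} (h : a ^ p + b ^ p = c ^ p) (hab : IsCoprime a b) : (p : ℤ) ∣ a * b * c := by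
  have : Fact q.Prime := ⟨hq⟩
  by_contra hnot
  have hodd : Odd p := hp.odd_of_ne_two hp2
  have hpZ : Prime (p : ℤ) := Nat.prime_iff_prime_int.mp hp
  have hpa : ¬ (p : ℤ) ∣ a := fun hd => hnot ((hd.mul_right b).mul_right c)
  have hpb : ¬ (p : ℤ) ∣ b := fun hd => hnot ((hd.mul_left a).mul_right c)
  have hpc : ¬ (p : ℤ) ∣ -c := fun hd => hnot ((dvd_neg.mp hd).mul_left (a * b))
  have hsum : a ^ p + b ^ p + (-c) ^ p = 0 := by rw [hodd.neg_pow]; linarith
  have hp0 : p ≠ 0 := hp.ne_zero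
  have hpos : 0 < p := hp.pos
  -- coprimality
  have hbc : IsCoprime b (-c) := by
    have h3 : IsCoprime (a ^ p) b := hab.pow_left
    have h4 : IsCoprime (c ^ p) b := by
      have : c ^ p = a ^ p + b ^ (p - 1) * b := by
        rw [← pow_succ, Nat.sub_add_cancel hpos]; exact h.symm
      rw [this]
      exact (IsCoprime.add_mul_right_left_iff).mpr h3
    exact ((IsCoprime.pow_left_iff hpos).mp h4).symm.neg_right
  have hca : IsCoprime (-c) a := by
    have h3 : IsCoprime (b ^ p) a := hab.symm.pow_left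
    have h4 : IsCoprime (c ^ p) a := by
      have : c ^ p = b ^ p + a ^ (p - 1) * a := by
        rw [← pow_succ, Nat.sub_add_cancel hpos]; rw [← h]; ring
      rw [this]
      exact (IsCoprime.add_mul_right_left_iff).mpr h3
    exact ((IsCoprime.pow_left_iff hpos).mp h4).neg_left
  have hcast : (a : ZMod q) ^ p + (b : ZMod q) ^ p + ((-c : ℤ) : ZMod q) ^ p = 0 := by
    have := congrArg (Int.cast : ℤ → ZMod q) hsum
    push_cast at this
    push_cast
    exact this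
  rcases h1 _ _ _ hcast with ha0 | hb0 | hc0
  · exact SophieGermain.core hp hp2 h1 h2 hab hbc hca hsum hpa hpb hpc ha0
  · exact SophieGermain.core hp hp2 h1 h2 hbc hca hab (by linarith) hpb hpc hpa hb0
  · exact SophieGermain.core hp hp2 h1 h2 hca hab hbc (by linarith) hpc hpa hpb hc0

namespace SophieGermain

theorem h1_of_powerSet {p q : ℕ} [Fact q.Prime] (S : Finset (ZMod q))
    (hS : ∀ x : ZMod q, x ^ p ∈ S)
    (hsum : ∀ r ∈ S, ∀ s ∈ S, ∀ t ∈ S, r + s + t = 0 → r = 0 ∨ s = 0 ∨ t = 0) :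
    ∀ x y z : ZMod q, x ^ p + y ^ p + z ^ p = 0 → x = 0 ∨ y = 0 ∨ z = 0 := by
  intro x y z h
  rcases hsum _ (hS x) _ (hS y) _ (hS z) h with h | h | h
  · exact Or.inl (eq_zero_of_pow_eq_zero h)
  · exact Or.inr (Or.inl (eq_zero_of_pow_eq_zero h))
  · exact Or.inr (Or.inr (eq_zero_of_pow_eq_zero h))

theorem fact_prime_eleven : Fact (Nat.Prime 11) := ⟨by norm_num⟩
theorem fact_prime_twentyThree : Fact (Nat.Prime 23) := ⟨by norm_num⟩
theorem fact_prime_twentyNine : Fact (Nat.Prime 29) := ⟨by norm_num⟩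
theorem fact_prime_fiftyThree : Fact (Nat.Prime 53) := ⟨by norm_num⟩

set_option maxRecDepth 100000 in
theorem h1_five : ∀ x y z : ZMod 11, x ^ 5 + y ^ 5 + z ^ 5 = 0 → x = 0 ∨ y = 0 ∨ z = 0 :=
  @h1_of_powerSet 5 11 fact_prime_eleven ({0, 1, 10} : Finset (ZMod 11)) (by decide) (by decide)

set_option maxRecDepth 100000 in
theorem h2_five : ∀ x : ZMod 11, x ^ 5 ≠ ((5 : ℕ) : ZMod 11) := by decide

set_option maxRecDepth 100000 in
theorem h1_seven : ∀ x y z : ZMod 29, x ^ 7 + y ^ 7 + z ^ 7 = 0 → x = 0 ∨ y = 0 ∨ z = 0 :=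
  @h1_of_powerSet 7 29 fact_prime_twentyNine ({0, 1, 12, 17, 28} : Finset (ZMod 29))
    (by decide) (by decide)

set_option maxRecDepth 100000 in
theorem h2_seven : ∀ x : ZMod 29, x ^ 7 ≠ ((7 : ℕ) : ZMod 29) := by decide

set_option maxRecDepth 100000 in
theorem h1_eleven : ∀ x y z : ZMod 23, x ^ 11 + y ^ 11 + z ^ 11 = 0 → x = 0 ∨ y = 0 ∨ z = 0 :=
  @h1_of_powerSet 11 23 fact_prime_twentyThree ({0, 1, 22} : Finset (ZMod 23))
    (by decide) (by decide)

set_option maxRecDepth 100000 in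
theorem h2_eleven : ∀ x : ZMod 23, x ^ 11 ≠ ((11 : ℕ) : ZMod 23) := by decide

set_option maxRecDepth 100000 in
theorem h1_thirteen : ∀ x y z : ZMod 53, x ^ 13 + y ^ 13 + z ^ 13 = 0 → x = 0 ∨ y = 0 ∨ z = 0 :=
  @h1_of_powerSet 13 53 fact_prime_fiftyThree ({0, 1, 23, 30, 52} : Finset (ZMod 53))
    (by decide) (by decide)

set_option maxRecDepth 100000 in
theorem h2_thirteen : ∀ x : ZMod 53, x ^ 13 ≠ ((13 : ℕ) : ZMod 53) := by decide

end SophieGermain

/-- First case of Fermat for the exponent 5. -/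
theorem caseI_five {a b c : ℤ} (h : a ^ 5 + b ^ 5 = c ^ 5) (hab : IsCoprime a b) :
    ((5 : ℕ) : ℤ) ∣ a * b * c :=
  caseI_of_auxPrime (p := 5) (q := 11) (by norm_num) (by norm_num) (by norm_num)
    SophieGermain.h1_five SophieGermain.h2_five h hab

/-- First case of Fermat for the exponent 7. -/
theorem caseI_seven {a b c : ℤ} (h : a ^ 7 + b ^ 7 = c ^ 7) (hab : IsCoprime a b) :
    ((7 : ℕ) : ℤ) ∣ a * b * c :=
  caseI_of_auxPrime (p := 7) (q := 29) (by norm_num) (by norm_num) (by norm_num)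
    SophieGermain.h1_seven SophieGermain.h2_seven h hab

/-- First case of Fermat for the exponent 11. -/
theorem caseI_eleven {a b c : ℤ} (h : a ^ 11 + b ^ 11 = c ^ 11) (hab : IsCoprime a b) :
    ((11 : ℕ) : ℤ) ∣ a * b * c :=
  caseI_of_auxPrime (p := 11) (q := 23) (by norm_num) (by norm_num) (by norm_num)
    SophieGermain.h1_eleven SophieGermain.h2_eleven h hab

/-- First case of Fermat for the exponent 13. -/
theorem caseI_thirteen {a b c : ℤ} (h : a ^ 13 + b ^ 13 = c ^ 13) (hab : IsCoprime a b) :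
    ((13 : ℕ) : ℤ) ∣ a * b * c :=
  caseI_of_auxPrime (p := 13) (q := 53) (by norm_num) (by norm_num) (by norm_num)
    SophieGermain.h1_thirteen SophieGermain.h2_thirteen h hab

end Fermat.Agent.Lib.Kummer
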