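import Fermat.Agent.Lib.Kummer.KummerLemma
import Mathlib.Tactic

set_option autoImplicit false
set_option linter.unusedSimpArgs false
set_option linter.unusedSectionVars false
set_option linter.unusedVariables false

namespace Fermat.Agent.Lib.Kummer

open NumberField

/-- If `h * Pneg = Ppos` as units and `Ppos ≡ T * Pneg` modulo `a`, then `h ≡ T` modulo `a`. -/
theorem dvd_unit_sub_of_dvd {R : Type*} [CommRing R] {a T : R} {h Ppos Pneg : Rˣ}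
    (hh : h * Pneg = Ppos) (hdiv : a ∣ (Ppos : R) - T * (Pneg : R)) : a ∣ (h : R) - T := by
  have e : (h : R) - T = ((Ppos : R) - T * (Pneg : R)) * ((Pneg⁻¹ : Rˣ) : R) := by
    rw [← hh, Units.val_mul, sub_mul, mul_assoc, mul_assoc, Units.mul_inv, mul_one, mul_one]
  rw [e]
  exact Dvd.dvd.mul_right hdiv _

namespace Units11

instance fact_eleven : Fact (Nat.Prime 11) := ⟨by norm_num⟩

variable {K : Type*} [Field K] [NumberField K] [IsCyclotomicExtension {11} ℚ K] {ζ : K}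
  (hζ : IsPrimitiveRoot ζ 11)

/-- `ζ` as a unit. -/
noncomputable def zu : (𝓞 K)ˣ := (hζ.toInteger_isPrimitiveRoot.isUnit (by norm_num)).unit

/-- The cyclotomic unit `1 + ζ + ⋯ + ζ ^ (a - 1)`. -/
noncomputable def xu (a : ℕ) (ha : a.Coprime 11) : (𝓞 K)ˣ :=
  (hζ.toInteger_isPrimitiveRoot.geom_sum_isUnit (by norm_num) ha).unit

theorem coe_zu : ((zu hζ : (𝓞 K)ˣ) : 𝓞 K) = hζ.toInteger := rfl

theorem coe_xu (a : ℕ) (ha : a.Coprime 11) :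
    ((xu hζ a ha : (𝓞 K)ˣ) : 𝓞 K) = ∑ i ∈ Finset.range a, hζ.toInteger ^ i := rfl


/-- The unit number 0: level 1. -/
noncomputable def hpos0 (hζ : IsPrimitiveRoot ζ 11) : (𝓞 K)ˣ := (zu hζ)

noncomputable def hneg0 (hζ : IsPrimitiveRoot ζ 11) : (𝓞 K)ˣ := 1

theorem cong0 : (hζ.toInteger - 1) ^ (1 + 1) ∣
    ((hpos0 hζ * (hneg0 hζ)⁻¹ : (𝓞 K)ˣ) : 𝓞 K) -
      ((1 : ℤ) : 𝓞 K) * (1 + ((1 : ℤ) : 𝓞 K) * (hζ.toInteger - 1) ^ 1) := by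
  refine dvd_unit_sub_of_dvd (Ppos := hpos0 hζ) (Pneg := hneg0 hζ) (by simp) ?_
  have h11 : (hζ.toInteger - 1) ^ (1 + 1) ∣ (11 : 𝓞 K) := by
    exact_mod_cast lam_pow_dvd_p hζ (k := 1 + 1) (by norm_num)
  obtain ⟨l, hl⟩ : ∃ l, l = hζ.toInteger - 1 := ⟨_, rfl⟩
  have hz : hζ.toInteger = l + 1 := by rw [hl]; ring
  rw [← hl] at h11 ⊢
  simp only [hpos0, hneg0, Units.val_mul, Units.val_pow_eq_pow_val, Units.val_one, coe_zu, coe_xu,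
    Finset.sum_range_succ, Finset.sum_range_zero, hz]
  convert dvd_add (dvd_mul_right (l ^ (1 + 1)) (0))
    (h11.mul_right (0)) using 1
  push_cast
  ring

/-- The unit number 1: level 2. -/
noncomputable def hpos1 (hζ : IsPrimitiveRoot ζ 11) : (𝓞 K)ˣ := (xu hζ 3 (by decide))

noncomputable def hneg1 (hζ : IsPrimitiveRoot ζ 11) : (𝓞 K)ˣ := (zu hζ)

theorem cong1 : (hζ.toInteger - 1) ^ (2 + 1) ∣
    ((hpos1 hζ * (hneg1 hζ)⁻¹ : (𝓞 K)ˣ) : 𝓞 K) -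
      ((3 : ℤ) : 𝓞 K) * (1 + ((4 : ℤ) : 𝓞 K) * (hζ.toInteger - 1) ^ 2) := by
  refine dvd_unit_sub_of_dvd (Ppos := hpos1 hζ) (Pneg := hneg1 hζ) (by simp) ?_
  have h11 : (hζ.toInteger - 1) ^ (2 + 1) ∣ (11 : 𝓞 K) := by
    exact_mod_cast lam_pow_dvd_p hζ (k := 2 + 1) (by norm_num)
  obtain ⟨l, hl⟩ : ∃ l, l = hζ.toInteger - 1 := ⟨_, rfl⟩
  have hz : hζ.toInteger = l + 1 := by rw [hl]; ring
  rw [← hl] at h11 ⊢
  simp only [hpos1, hneg1, Units.val_mul, Units.val_pow_eq_pow_val, Units.val_one, coe_zu, coe_xu,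
    Finset.sum_range_succ, Finset.sum_range_zero, hz]
  convert dvd_add (dvd_mul_right (l ^ (2 + 1)) ((-12)))
    (h11.mul_right ((-1)*l^2)) using 1
  push_cast
  ring

/-- The unit number 2: level 4. -/
noncomputable def hpos2 (hζ : IsPrimitiveRoot ζ 11) : (𝓞 K)ˣ := 1

noncomputable def hneg2 (hζ : IsPrimitiveRoot ζ 11) : (𝓞 K)ˣ := (zu hζ) ^ 4 * (xu hζ 2 (by decide)) * (xu hζ 3 (by decide))

theorem cong2 : (hζ.toInteger - 1) ^ (4 + 1) ∣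
    ((hpos2 hζ * (hneg2 hζ)⁻¹ : (𝓞 K)ˣ) : 𝓞 K) -
      ((2 : ℤ) : 𝓞 K) * (1 + ((2 : ℤ) : 𝓞 K) * (hζ.toInteger - 1) ^ 4) := by
  refine dvd_unit_sub_of_dvd (Ppos := hpos2 hζ) (Pneg := hneg2 hζ) (by simp) ?_
  have h11 : (hζ.toInteger - 1) ^ (4 + 1) ∣ (11 : 𝓞 K) := by
    exact_mod_cast lam_pow_dvd_p hζ (k := 4 + 1) (by norm_num)
  obtain ⟨l, hl⟩ : ∃ l, l = hζ.toInteger - 1 := ⟨_, rfl⟩
  have hz : hζ.toInteger = l + 1 := by rw [hl]; ring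
  rw [← hl] at h11 ⊢
  simp only [hpos2, hneg2, Units.val_mul, Units.val_pow_eq_pow_val, Units.val_one, coe_zu, coe_xu,
    Finset.sum_range_succ, Finset.sum_range_zero, hz]
  convert dvd_add (dvd_mul_right (l ^ (4 + 1)) ((-202) + (-326)*l + (-398)*l^2 + (-304)*l^3 + (-140)*l^4 + (-36)*l^5 + (-4)*l^6))
    (h11.mul_right ((-1) + (-6)*l + (-14)*l^2 + (-18)*l^3 + (-16)*l^4)) using 1
  push_cast
  ring

/-- The unit number 3: level 6. -/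
noncomputable def hpos3 (hζ : IsPrimitiveRoot ζ 11) : (𝓞 K)ˣ := (xu hζ 2 (by decide)) ^ 4

noncomputable def hneg3 (hζ : IsPrimitiveRoot ζ 11) : (𝓞 K)ˣ := (zu hζ) ^ 5 * (xu hζ 3 (by decide)) * (xu hζ 4 (by decide))

theorem cong3 : (hζ.toInteger - 1) ^ (6 + 1) ∣
    ((hpos3 hζ * (hneg3 hζ)⁻¹ : (𝓞 K)ˣ) : 𝓞 K) -
      ((5 : ℤ) : 𝓞 K) * (1 + ((10 : ℤ) : 𝓞 K) * (hζ.toInteger - 1) ^ 6) := by
  refine dvd_unit_sub_of_dvd (Ppos := hpos3 hζ) (Pneg := hneg3 hζ) (by simp) ?_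
  have h11 : (hζ.toInteger - 1) ^ (6 + 1) ∣ (11 : 𝓞 K) := by
    exact_mod_cast lam_pow_dvd_p hζ (k := 6 + 1) (by norm_num)
  obtain ⟨l, hl⟩ : ∃ l, l = hζ.toInteger - 1 := ⟨_, rfl⟩
  have hz : hζ.toInteger = l + 1 := by rw [hl]; ring
  rw [← hl] at h11 ⊢
  simp only [hpos3, hneg3, Units.val_mul, Units.val_pow_eq_pow_val, Units.val_one, coe_zu, coe_xu,
    Finset.sum_range_succ, Finset.sum_range_zero, hz]
  convert dvd_add (dvd_mul_right (l ^ (6 + 1)) ((-5595) + (-15530)*l + (-30610)*l^2 + (-40605)*l^3 + (-37400)*l^4 + (-24250)*l^5 + (-10950)*l^6 + (-3300)*l^7 + (-600)*l^8 + (-50)*l^9))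
    (h11.mul_right ((-4) + (-38)*l + (-136)*l^2 + (-277)*l^3 + (-369)*l^4 + (-340)*l^5 + (-275)*l^6)) using 1
  push_cast
  ring

/-- The unit number 4: level 8. -/
noncomputable def hpos4 (hζ : IsPrimitiveRoot ζ 11) : (𝓞 K)ˣ := (xu hζ 4 (by decide)) ^ 2

noncomputable def hneg4 (hζ : IsPrimitiveRoot ζ 11) : (𝓞 K)ˣ := (zu hζ) * (xu hζ 2 (by decide)) ^ 5 * (xu hζ 3 (by decide)) ^ 3 * (xu hζ 5 (by decide))

theorem cong4 : (hζ.toInteger - 1) ^ (8 + 1) ∣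
    ((hpos4 hζ * (hneg4 hζ)⁻¹ : (𝓞 K)ˣ) : 𝓞 K) -
      ((2 : ℤ) : 𝓞 K) * (1 + ((9 : ℤ) : 𝓞 K) * (hζ.toInteger - 1) ^ 8) := by
  refine dvd_unit_sub_of_dvd (Ppos := hpos4 hζ) (Pneg := hneg4 hζ) (by simp) ?_
  have h11 : (hζ.toInteger - 1) ^ (8 + 1) ∣ (11 : 𝓞 K) := by
    exact_mod_cast lam_pow_dvd_p hζ (k := 8 + 1) (by norm_num)
  obtain ⟨l, hl⟩ : ∃ l, l = hζ.toInteger - 1 := ⟨_, rfl⟩
  have hz : hζ.toInteger = l + 1 := by rw [hl]; ring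
  rw [← hl] at h11 ⊢
  simp only [hpos4, hneg4, Units.val_mul, Units.val_pow_eq_pow_val, Units.val_one, coe_zu, coe_xu,
    Finset.sum_range_succ, Finset.sum_range_zero, hz]
  convert dvd_add (dvd_mul_right (l ^ (8 + 1)) ((-1273584) + (-2943876)*l + (-6988812)*l^2 + (-12607790)*l^3 + (-17237762)*l^4 + (-18308174)*l^5 + (-15371384)*l^6 + (-10295894)*l^7 + (-5513616)*l^8 + (-2350404)*l^9 + (-788508)*l^10 + (-203922)*l^11 + (-39276)*l^12 + (-5310)*l^13 + (-450)*l^14 + (-18)*l^15))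
    (h11.mul_right ((-784) + (-6672)*l + (-27092)*l^2 + (-69704)*l^3 + (-127120)*l^4 + (-174074)*l^5 + (-184925)*l^6 + (-155266)*l^7 + (-111068)*l^8)) using 1
  push_cast
  ring



end Units11

open Units11 in
/-- **Kummer's lemma for `p = 11`.** -/
theorem kummer_eleven (K : Type*) [Field K] [NumberField K] [IsCyclotomicExtension {11} ℚ K] :
    KummerLemmaHolds 11 K := by
  have hζ := IsCyclotomicExtension.zeta_spec 11 ℚ K
  refine kummerLemma_of_triangular' (p := 11) (by norm_num) hζ (r := 5) (by norm_num)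
    ![hpos0 hζ * (hneg0 hζ)⁻¹, hpos1 hζ * (hneg1 hζ)⁻¹, hpos2 hζ * (hneg2 hζ)⁻¹,
      hpos3 hζ * (hneg3 hζ)⁻¹, hpos4 hζ * (hneg4 hζ)⁻¹]
    ![1, 3, 2, 5, 2] ![1, 4, 2, 10, 9] ![1, 2, 4, 6, 8] ?_ ?_ ?_ ?_ ?_
  · exact Fin.strictMono_iff_lt_succ.2 (by decide)
  · decide
  · decide
  · decide
  · intro i
    fin_cases i
    · exact cong0 hζ
    · exact cong1 hζ
    · exact cong2 hζ
    · exact cong3 hζ
    · exact cong4 hζ



end Fermat.Agent.Lib.Kummer
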