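import Fermat.Agent.Lib.Kummer.UnitsCommon

set_option autoImplicit false

namespace Fermat.Agent.Lib.Kummer.Units13

open NumberField Fermat.Agent.Lib.Kummer.UnitsCert

section Generic

variable {R : Type*} [CommRing R]

/-- A unit of level 2; exponents on the real cyclotomic units: {2: 1}. -/
def h2 (z : R) : R := z ^ 6 + z ^ 7

/-- The inverse of `h2`. -/
def g2 (z : R) : R := 1 + z ^ 2 + z ^ 4 + z ^ 6 + z ^ 7 + z ^ 9 + z ^ 11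

theorem h2_mul_g2 (z : R) (hz : ∑ i ∈ Finset.range 13, z ^ i = 0) : h2 z * g2 z = 1 := by
  simp only [Finset.sum_range_succ, Finset.sum_range_zero, pow_zero, pow_one, zero_add] at hz
  unfold h2 g2
  linear_combination (-1 + z + z ^ 6) * hz

theorem h2_expand (z : R) : h2 z - ((2 : ℤ) : R) * (1 + ((5 : ℤ) : R) * (z - 1) ^ 2) = ((13 : ℕ) : R) * ((z - 1) + 2 * (z - 1) ^ 2) + (z - 1) ^ (2 + 1) * (55 + 50 * (z - 1) + 27 * (z - 1) ^ 2 + 8 * (z - 1) ^ 3 + (z - 1) ^ 4) := by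
  unfold h2
  push_cast
  ring

/-- A unit of level 4; exponents on the real cyclotomic units: {2: -1, 3: 2}. -/
def h4 (z : R) : R := 1 + z ^ 2 + z ^ 4 + z ^ 5 + 2 * z ^ 6 + 2 * z ^ 7 + z ^ 8 + z ^ 9 + z ^ 11

/-- The inverse of `h4`. -/
def g4 (z : R) : R := 2 - z ^ 2 + 2 * z ^ 3 + z ^ 4 - 2 * z ^ 5 + 2 * z ^ 6 + 2 * z ^ 7 - 2 * z ^ 8 + z ^ 9 + 2 * z ^ 10 - z ^ 11

theorem h4_mul_g4 (z : R) (hz : ∑ i ∈ Finset.range 13, z ^ i = 0) : h4 z * g4 z = 1 := by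
  simp only [Finset.sum_range_succ, Finset.sum_range_zero, pow_zero, pow_one, zero_add] at hz
  unfold h4 g4
  linear_combination (1 - z + z ^ 2 + z ^ 3 + 4 * z ^ 6 - z ^ 7 - 2 * z ^ 8 + 3 * z ^ 9 - z ^ 10) * hz

theorem h4_expand (z : R) : h4 z - ((-2 : ℤ) : R) * (1 + ((-4 : ℤ) : R) * (z - 1) ^ 4) = ((13 : ℕ) : R) * (1 + 5 * (z - 1) + 16 * (z - 1) ^ 2 + 33 * (z - 1) ^ 3 + 48 * (z - 1) ^ 4) + (z - 1) ^ (4 + 1) * (699 + 590 * (z - 1) + 376 * (z - 1) ^ 2 + 175 * (z - 1) ^ 3 + 56 * (z - 1) ^ 4 + 11 * (z - 1) ^ 5 + (z - 1) ^ 6) := by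
  unfold h4
  push_cast
  ring

/-- A unit of level 6; exponents on the real cyclotomic units: {2: 1, 3: 4, 4: 2}. -/
def h6 (z : R) : R := -14 + 45 * z ^ 2 + 124 * z ^ 3 + 228 * z ^ 4 + 330 * z ^ 5 + 394 * z ^ 6 + 394 * z ^ 7 + 330 * z ^ 8 + 228 * z ^ 9 + 124 * z ^ 10 + 45 * z ^ 11

/-- The inverse of `h6`. -/
def g6 (z : R) : R := 41 - 7 * z ^ 2 + 33 * z ^ 3 + 20 * z ^ 4 - 21 * z ^ 5 + 30 * z ^ 6 + 30 * z ^ 7 - 21 * z ^ 8 + 20 * z ^ 9 + 33 * z ^ 10 - 7 * z ^ 11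

theorem h6_mul_g6 (z : R) (hz : ∑ i ∈ Finset.range 13, z ^ i = 0) : h6 z * g6 z = 1 := by
  simp only [Finset.sum_range_succ, Finset.sum_range_zero, pow_zero, pow_one, zero_add] at hz
  unfold h6 g6
  linear_combination (-575 + 575 * z + 1943 * z ^ 2 + 2679 * z ^ 3 + 4131 * z ^ 4 + 5688 * z ^ 5 + 4689 * z ^ 6 + 3353 * z ^ 7 + 2779 * z ^ 8 + 932 * z ^ 9 - 315 * z ^ 10) * hz

theorem h6_expand (z : R) : h6 z - ((5 : ℤ) : R) * (1 + ((2 : ℤ) : R) * (z - 1) ^ 6) = ((13 : ℕ) : R) * (171 + 1121 * (z - 1) + 3444 * (z - 1) ^ 2 + 6611 * (z - 1) ^ 3 + 8792 * (z - 1) ^ 4 + 8478 * (z - 1) ^ 5 + 6028 * (z - 1) ^ 6) + (z - 1) ^ (6 + 1) * (40972 + 15387 * (z - 1) + 3943 * (z - 1) ^ 2 + 619 * (z - 1) ^ 3 + 45 * (z - 1) ^ 4) := by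
  unfold h6
  push_cast
  ring

/-- A unit of level 8; exponents on the real cyclotomic units: {2: -1, 3: -2, 4: 4, 5: 1}. -/
def h8 (z : R) : R := -1 + 2 * z ^ 2 + 3 * z ^ 3 + 6 * z ^ 4 + 10 * z ^ 5 + 10 * z ^ 6 + 10 * z ^ 7 + 10 * z ^ 8 + 6 * z ^ 9 + 3 * z ^ 10 + 2 * z ^ 11

/-- The inverse of `h8`. -/
def g8 (z : R) : R := 28 - 31 * z ^ 2 - 14 * z ^ 3 + 24 * z ^ 4 + 14 * z ^ 5 - 25 * z ^ 6 - 25 * z ^ 7 + 14 * z ^ 8 + 24 * z ^ 9 - 14 * z ^ 10 - 31 * z ^ 11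

theorem h8_mul_g8 (z : R) (hz : ∑ i ∈ Finset.range 13, z ^ i = 0) : h8 z * g8 z = 1 := by
  simp only [Finset.sum_range_succ, Finset.sum_range_zero, pow_zero, pow_one, zero_add] at hz
  unfold h8 g8
  linear_combination (-29 + 29 * z + 87 * z ^ 2 + 11 * z ^ 3 - 16 * z ^ 4 + 63 * z ^ 5 - 20 * z ^ 6 - 114 * z ^ 7 - 59 * z ^ 8 - 59 * z ^ 9 - 62 * z ^ 10) * hz

theorem h8_expand (z : R) : h8 z - ((-4 : ℤ) : R) * (1 + ((1 : ℤ) : R) * (z - 1) ^ 8) = ((13 : ℕ) : R) * (5 + 31 * (z - 1) + 96 * (z - 1) ^ 2 + 187 * (z - 1) ^ 3 + 254 * (z - 1) ^ 4 + 252 * (z - 1) ^ 5 + 186 * (z - 1) ^ 6 + 102 * (z - 1) ^ 7 + 41 * (z - 1) ^ 8) + (z - 1) ^ (8 + 1) * (146 + 25 * (z - 1) + 2 * (z - 1) ^ 2) := by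
  unfold h8
  push_cast
  ring

/-- A unit of level 10; exponents on the real cyclotomic units: {2: -3, 3: 3, 4: 1, 5: 4, 6: -1}. -/
def h10 (z : R) : R := -2 + 29 * z ^ 2 + 60 * z ^ 3 + 106 * z ^ 4 + 141 * z ^ 5 + 165 * z ^ 6 + 165 * z ^ 7 + 141 * z ^ 8 + 106 * z ^ 9 + 60 * z ^ 10 + 29 * z ^ 11

/-- The inverse of `h10`. -/
def g10 (z : R) : R := -143 - 81 * z ^ 2 - 112 * z ^ 3 + 24 * z ^ 4 - 141 * z ^ 5 - 35 * z ^ 6 - 35 * z ^ 7 - 141 * z ^ 8 + 24 * z ^ 9 - 112 * z ^ 10 - 81 * z ^ 11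

theorem h10_mul_g10 (z : R) (hz : ∑ i ∈ Finset.range 13, z ^ i = 0) : h10 z * g10 z = 1 := by
  simp only [Finset.sum_range_succ, Finset.sum_range_zero, pow_zero, pow_one, zero_add] at hz
  unfold h10 g10
  linear_combination (285 - 285 * z - 3985 * z ^ 2 - 4371 * z ^ 3 - 9199 * z ^ 4 - 10434 * z ^ 5 - 10146 * z ^ 6 - 11332 * z ^ 7 - 6502 * z ^ 8 - 5759 * z ^ 9 - 2349 * z ^ 10) * hz

theorem h10_expand (z : R) : h10 z - ((-1 : ℤ) : R) * (1 + ((-2 : ℤ) : R) * (z - 1) ^ 10) = ((13 : ℕ) : R) * (77 + 501 * (z - 1) + 1558 * (z - 1) ^ 2 + 3058 * (z - 1) ^ 3 + 4189 * (z - 1) ^ 4 + 4182 * (z - 1) ^ 5 + 3090 * (z - 1) ^ 6 + 1683 * (z - 1) ^ 7 + 660 * (z - 1) ^ 8 + 177 * (z - 1) ^ 9 + 29 * (z - 1) ^ 10) + (z - 1) ^ (10 + 1) * (29) := by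
  unfold h10
  push_cast
  ring

end Generic

section Cyclo

variable {K : Type*} [Field K] {ζ : K} (hζ : IsPrimitiveRoot ζ 13)

theorem exists_triangularSystem :
    ∃ h : Fin 6 → (𝓞 K)ˣ, IsTriangularSystem 13 (hζ.toInteger - 1) h := by
  have : Fact (Nat.Prime 13) := ⟨by norm_num⟩
  have hz := geom_sum_toInteger_eq_zero hζ
  have hu : IsUnit hζ.toInteger := hζ.toInteger_isPrimitiveRoot.isUnit (by norm_num)
  refine ⟨![hu.unit, Units.mkOfMulEqOne _ _ (h2_mul_g2 hζ.toInteger hz), Units.mkOfMulEqOne _ _ (h4_mul_g4 hζ.toInteger hz), Units.mkOfMulEqOne _ _ (h6_mul_g6 hζ.toInteger hz), Units.mkOfMulEqOne _ _ (h8_mul_g8 hζ.toInteger hz), Units.mkOfMulEqOne _ _ (h10_mul_g10 hζ.toInteger hz)],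
    ![1, 2, -2, 5, -4, -1], ![1, 5, -4, 2, 1, -2], ![1, 2, 4, 6, 8, 10], ?_, ?_, ?_, ?_, ?_⟩
  · intro a b hab
    fin_cases a <;> fin_cases b <;> simp_all
  · intro j
    fin_cases j <;> simp
  · intro j
    fin_cases j <;> norm_num
  · intro j
    fin_cases j <;> norm_num
  · intro j
    fin_cases j
    · unfold HasLevel
      simp
    · exact hasLevel_of_expand (lam_pow_dvd_natCast hζ (by norm_num)) (h2_expand hζ.toInteger)
    · exact hasLevel_of_expand (lam_pow_dvd_natCast hζ (by norm_num)) (h4_expand hζ.toInteger)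
    · exact hasLevel_of_expand (lam_pow_dvd_natCast hζ (by norm_num)) (h6_expand hζ.toInteger)
    · exact hasLevel_of_expand (lam_pow_dvd_natCast hζ (by norm_num)) (h8_expand hζ.toInteger)
    · exact hasLevel_of_expand (lam_pow_dvd_natCast hζ (by norm_num)) (h10_expand hζ.toInteger)

end Cyclo

/-- Kummer's lemma for the exponent 13: a unit of the 13-th cyclotomic field congruent to a
rational integer modulo 13 is a 13-th power. -/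
theorem kummerLemmaHolds (K : Type*) [Field K] [NumberField K] [IsCyclotomicExtension {13} ℚ K] :
    KummerLemmaHolds 13 K := by
  have : Fact (Nat.Prime 13) := ⟨by norm_num⟩
  have hζ := IsCyclotomicExtension.zeta_spec 13 ℚ K
  obtain ⟨h, H⟩ := exists_triangularSystem hζ
  exact kummerLemmaHolds_of_isTriangularSystem (by norm_num) hζ (by norm_num) h H

end Fermat.Agent.Lib.Kummer.Units13
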