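import Fermat.Agent.Lib.Kummer.UnitsCommon

set_option autoImplicit false

namespace Fermat.Agent.Lib.Kummer.Units5

open NumberField Fermat.Agent.Lib.Kummer.UnitsCert

section Generic

variable {R : Type*} [CommRing R]

/-- A unit of level 2; exponents on the real cyclotomic units: {2: 1}. -/
def h2 (z : R) : R := z ^ 2 + z ^ 3

/-- The inverse of `h2`. -/
def g2 (z : R) : R := 1 + z ^ 2 + z ^ 3

theorem h2_mul_g2 (z : R) (hz : ∑ i ∈ Finset.range 5, z ^ i = 0) : h2 z * g2 z = 1 := by
  simp only [Finset.sum_range_succ, Finset.sum_range_zero, pow_zero, pow_one, zero_add] at hz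
  unfold h2 g2
  linear_combination (-1 + z + z ^ 2) * hz

theorem h2_expand (z : R) : h2 z - ((2 : ℤ) : R) * (1 + ((2 : ℤ) : R) * (z - 1) ^ 2) = ((5 : ℕ) : R) * ((z - 1)) + (z - 1) ^ (2 + 1) * (1) := by
  unfold h2
  push_cast
  ring

end Generic

section Cyclo

variable {K : Type*} [Field K] {ζ : K} (hζ : IsPrimitiveRoot ζ 5)

theorem exists_triangularSystem :
    ∃ h : Fin 2 → (𝓞 K)ˣ, IsTriangularSystem 5 (hζ.toInteger - 1) h := by
  have : Fact (Nat.Prime 5) := ⟨by norm_num⟩
  have hz := geom_sum_toInteger_eq_zero hζ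
  have hu : IsUnit hζ.toInteger := hζ.toInteger_isPrimitiveRoot.isUnit (by norm_num)
  refine ⟨![hu.unit, Units.mkOfMulEqOne _ _ (h2_mul_g2 hζ.toInteger hz)],
    ![1, 2], ![1, 2], ![1, 2], ?_, ?_, ?_, ?_, ?_⟩
  · intro a b hab
    fin_cases a <;> fin_cases b <;> simp_all
  · intro j
    fin_cases j <;> simp
  · intro j
    fin_cases j <;> norm_num
  · intro j
    fin_cases j <;> norm_num
  · intro j
    fin_cases j
    · unfold HasLevel
      simp
    · exact hasLevel_of_expand (lam_pow_dvd_natCast hζ (by norm_num)) (h2_expand hζ.toInteger)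

end Cyclo

/-- Kummer's lemma for the exponent 5: a unit of the 5-th cyclotomic field congruent to a
rational integer modulo 5 is a 5-th power. -/
theorem kummerLemmaHolds (K : Type*) [Field K] [NumberField K] [IsCyclotomicExtension {5} ℚ K] :
    KummerLemmaHolds 5 K := by
  have : Fact (Nat.Prime 5) := ⟨by norm_num⟩
  have hζ := IsCyclotomicExtension.zeta_spec 5 ℚ K
  obtain ⟨h, H⟩ := exists_triangularSystem hζ
  exact kummerLemmaHolds_of_isTriangularSystem (by norm_num) hζ (by norm_num) h H

end Fermat.Agent.Lib.Kummer.Units5
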