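import Fermat.Agent.Lib.Kummer.UnitsCommon

set_option autoImplicit false

namespace Fermat.Agent.Lib.Kummer.Units7

open NumberField Fermat.Agent.Lib.Kummer.UnitsCert

section Generic

variable {R : Type*} [CommRing R]

/-- A unit of level 2; exponents on the real cyclotomic units: {2: 1}. -/
def h2 (z : R) : R := z ^ 3 + z ^ 4

/-- The inverse of `h2`. -/
def g2 (z : R) : R := -1 - z ^ 2 - z ^ 5

theorem h2_mul_g2 (z : R) (hz : ∑ i ∈ Finset.range 7, z ^ i = 0) : h2 z * g2 z = 1 := by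
  simp only [Finset.sum_range_succ, Finset.sum_range_zero, pow_zero, pow_one, zero_add] at hz
  unfold h2 g2
  linear_combination (-1 + z - z ^ 3) * hz

theorem h2_expand (z : R) : h2 z - ((2 : ℤ) : R) * (1 + ((1 : ℤ) : R) * (z - 1) ^ 2) = ((7 : ℕ) : R) * ((z - 1) + (z - 1) ^ 2) + (z - 1) ^ (2 + 1) * (5 + (z - 1)) := by
  unfold h2
  push_cast
  ring

/-- A unit of level 4; exponents on the real cyclotomic units: {2: 2, 3: 1}. -/
def h4 (z : R) : R := 1 - 2 * z ^ 2 - 3 * z ^ 3 - 3 * z ^ 4 - 2 * z ^ 5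

/-- The inverse of `h4`. -/
def g4 (z : R) : R := -3 - 3 * z ^ 2 - z ^ 3 - z ^ 4 - 3 * z ^ 5

theorem h4_mul_g4 (z : R) (hz : ∑ i ∈ Finset.range 7, z ^ i = 0) : h4 z * g4 z = 1 := by
  simp only [Finset.sum_range_succ, Finset.sum_range_zero, pow_zero, pow_one, zero_add] at hz
  unfold h4 g4
  linear_combination (-4 + 4 * z + 3 * z ^ 2 + 5 * z ^ 3 + 6 * z ^ 4) * hz

theorem h4_expand (z : R) : h4 z - ((-2 : ℤ) : R) * (1 + ((3 : ℤ) : R) * (z - 1) ^ 4) = ((7 : ℕ) : R) * (-1 - 5 * (z - 1) - 7 * (z - 1) ^ 2 - 5 * (z - 1) ^ 3 - (z - 1) ^ 4) + (z - 1) ^ (4 + 1) * (-2) := by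
  unfold h4
  push_cast
  ring

end Generic

section Cyclo

variable {K : Type*} [Field K] {ζ : K} (hζ : IsPrimitiveRoot ζ 7)

theorem exists_triangularSystem :
    ∃ h : Fin 3 → (𝓞 K)ˣ, IsTriangularSystem 7 (hζ.toInteger - 1) h := by
  have : Fact (Nat.Prime 7) := ⟨by norm_num⟩
  have hz := geom_sum_toInteger_eq_zero hζ
  have hu : IsUnit hζ.toInteger := hζ.toInteger_isPrimitiveRoot.isUnit (by norm_num)
  refine ⟨![hu.unit, Units.mkOfMulEqOne _ _ (h2_mul_g2 hζ.toInteger hz), Units.mkOfMulEqOne _ _ (h4_mul_g4 hζ.toInteger hz)],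
    ![1, 2, -2], ![1, 1, 3], ![1, 2, 4], ?_, ?_, ?_, ?_, ?_⟩
  · intro a b hab
    fin_cases a <;> fin_cases b <;> simp_all
  · intro j
    fin_cases j <;> simp
  · intro j
    fin_cases j <;> norm_num
  · intro j
    fin_cases j <;> norm_num
  · intro j
    fin_cases j
    · unfold HasLevel
      simp
    · exact hasLevel_of_expand (lam_pow_dvd_natCast hζ (by norm_num)) (h2_expand hζ.toInteger)
    · exact hasLevel_of_expand (lam_pow_dvd_natCast hζ (by norm_num)) (h4_expand hζ.toInteger)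

end Cyclo

/-- Kummer's lemma for the exponent 7: a unit of the 7-th cyclotomic field congruent to a
rational integer modulo 7 is a 7-th power. -/
theorem kummerLemmaHolds (K : Type*) [Field K] [NumberField K] [IsCyclotomicExtension {7} ℚ K] :
    KummerLemmaHolds 7 K := by
  have : Fact (Nat.Prime 7) := ⟨by norm_num⟩
  have hζ := IsCyclotomicExtension.zeta_spec 7 ℚ K
  obtain ⟨h, H⟩ := exists_triangularSystem hζ
  exact kummerLemmaHolds_of_isTriangularSystem (by norm_num) hζ (by norm_num) h H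

end Fermat.Agent.Lib.Kummer.Units7
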