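import Fermat.Agent.Lib.Kummer.CaseII
import Fermat.Agent.Lib.Kummer.SophieGermain
import Fermat.Agent.Lib.Kummer.PID7
import Fermat.Agent.Lib.Kummer.PID11
import Fermat.Agent.Lib.Kummer.PID13
import Fermat.Agent.Lib.Kummer.Units5
import Fermat.Agent.Lib.Kummer.Units7
import Fermat.Agent.Lib.Kummer.Units11
import Fermat.Agent.Lib.Kummer.Units13

/-!
# Fermat's Last Theorem for the exponents 5, 7, 11, 13

Assembly of the pieces of the regular-prime (Kummer) proof:
case I (Sophie Germain), case II (Kummer descent, needs the class number one statement and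
Kummer's lemma on units), for each of the four primes.
-/

set_option autoImplicit false

namespace Fermat.Agent.Lib.Kummer.FLTRegular

open NumberField

theorem fact_prime_five : Fact (Nat.Prime 5) := ⟨by norm_num⟩
theorem fact_prime_seven : Fact (Nat.Prime 7) := ⟨by norm_num⟩
theorem fact_prime_eleven : Fact (Nat.Prime 11) := ⟨by norm_num⟩
theorem fact_prime_thirteen : Fact (Nat.Prime 13) := ⟨by norm_num⟩

/-- `CyclotomicField n ℚ` is a cyclotomic extension of `ℚ` for the `ℚ`-algebra structure that
every division ring of characteristic zero carries. -/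
theorem isCyclotomicExtension_cyclotomicField (n : ℕ) [NeZero n] :
    IsCyclotomicExtension {n} ℚ (CyclotomicField n ℚ) :=
  CyclotomicField.isCyclotomicExtension n ℚ

/-- Fermat's Last Theorem for exponent `5`, coprime version over `ℤ`. -/
theorem flt_five (a b c : ℤ) (ha : a ≠ 0) (hb : b ≠ 0) (hc : c ≠ 0) (hab : IsCoprime a b) :
    a ^ 5 + b ^ 5 ≠ c ^ 5 := by
  have := fact_prime_five
  have := isCyclotomicExtension_cyclotomicField 5
  have : IsPrincipalIdealRing (𝓞 (CyclotomicField 5 ℚ)) :=
    IsCyclotomicExtension.Rat.five_pid (CyclotomicField 5 ℚ)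
  exact fermat_of_caseI (p := 5) (K := CyclotomicField 5 ℚ) (by norm_num)
    (Units5.kummerLemmaHolds (CyclotomicField 5 ℚ))
    (fun a b c hab hndvd h => hndvd (by exact_mod_cast caseI_five h hab)) a b c ha hb hc hab

/-- Fermat's Last Theorem for exponent `7`, coprime version over `ℤ`. -/
theorem flt_seven (a b c : ℤ) (ha : a ≠ 0) (hb : b ≠ 0) (hc : c ≠ 0) (hab : IsCoprime a b) :
    a ^ 7 + b ^ 7 ≠ c ^ 7 := by
  have := fact_prime_seven
  have := isCyclotomicExtension_cyclotomicField 7
  have : IsPrincipalIdealRing (𝓞 (CyclotomicField 7 ℚ)) := pid_seven (CyclotomicField 7 ℚ)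
  exact fermat_of_caseI (p := 7) (K := CyclotomicField 7 ℚ) (by norm_num)
    (Units7.kummerLemmaHolds (CyclotomicField 7 ℚ))
    (fun a b c hab hndvd h => hndvd (by exact_mod_cast caseI_seven h hab)) a b c ha hb hc hab

/-- Fermat's Last Theorem for exponent `11`, coprime version over `ℤ`. -/
theorem flt_eleven (a b c : ℤ) (ha : a ≠ 0) (hb : b ≠ 0) (hc : c ≠ 0) (hab : IsCoprime a b) :
    a ^ 11 + b ^ 11 ≠ c ^ 11 := by
  have := fact_prime_eleven
  have := isCyclotomicExtension_cyclotomicField 11
  have : IsPrincipalIdealRing (𝓞 (CyclotomicField 11 ℚ)) := pid_eleven (CyclotomicField 11 ℚ)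
  exact fermat_of_caseI (p := 11) (K := CyclotomicField 11 ℚ) (by norm_num)
    (kummer_eleven (CyclotomicField 11 ℚ))
    (fun a b c hab hndvd h => hndvd (by exact_mod_cast caseI_eleven h hab)) a b c ha hb hc hab

/-- Fermat's Last Theorem for exponent `13`, coprime version over `ℤ`. -/
theorem flt_thirteen (a b c : ℤ) (ha : a ≠ 0) (hb : b ≠ 0) (hc : c ≠ 0) (hab : IsCoprime a b) :
    a ^ 13 + b ^ 13 ≠ c ^ 13 := by
  have := fact_prime_thirteen
  have := isCyclotomicExtension_cyclotomicField 13
  have : IsPrincipalIdealRing (𝓞 (CyclotomicField 13 ℚ)) :=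
    pid_thirteen (CyclotomicField 13 ℚ)
  exact fermat_of_caseI (p := 13) (K := CyclotomicField 13 ℚ) (by norm_num)
    (Units13.kummerLemmaHolds (CyclotomicField 13 ℚ))
    (fun a b c hab hndvd h => hndvd (by exact_mod_cast caseI_thirteen h hab)) a b c ha hb hc hab

end Fermat.Agent.Lib.Kummer.FLTRegular
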