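import Fermat.Agent.Lib.Kummer.PowCongr

set_option autoImplicit false
set_option linter.unusedSectionVars false

namespace Fermat.Agent.Lib.Kummer

open NumberField IsCyclotomicExtension.Rat

theorem one_add_pow_of_sq_eq_zero {R : Type*} [CommRing R] {x : R} (hx : x ^ 2 = 0) (f : ℕ) :
    (1 + x) ^ f = 1 + f * x := by
  induction f with
  | zero => simp
  | succ k ih =>
    rw [pow_succ, ih]
    push_cast
    linear_combination (k : R) * hx

variable {p : ℕ} [hp : Fact p.Prime] {K : Type*} [Field K] [NumberField K]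
  [IsCyclotomicExtension {p} ℚ K] {ζ : K} (hζ : IsPrimitiveRoot ζ p)

include hζ in
theorem lam_pow_dvd_p {k : ℕ} (hk : k ≤ p - 1) : (hζ.toInteger - 1) ^ k ∣ (p : 𝓞 K) :=
  (pow_dvd_pow _ hk).trans (associated_zeta_sub_one_pow_prime p hζ).dvd

include hζ in
theorem lam_not_isUnit : ¬ IsUnit (hζ.toInteger - 1) := hζ.zeta_sub_one_prime'.not_isUnit

include hζ in
theorem lam_ne_zero : hζ.toInteger - 1 ≠ 0 := hζ.zeta_sub_one_prime'.ne_zero

end Fermat.Agent.Lib.Kummer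

namespace Fermat.Agent.Lib.Kummer

open NumberField IsCyclotomicExtension.Rat

variable {p : ℕ} [hp : Fact p.Prime] {K : Type*} [Field K] [NumberField K]
  [IsCyclotomicExtension {p} ℚ K] {ζ : K} (hζ : IsPrimitiveRoot ζ p)

include hζ in
/-- Triangular independence, natural exponents. -/
theorem triangular_indep_nat {r : ℕ} (h : Fin r → (𝓞 K)ˣ) (n c : Fin r → ℤ) (d : Fin r → ℕ)
    (hd : StrictMono d) (hd1 : ∀ i, 1 ≤ d i) (hdp : ∀ i, d i + 1 ≤ p - 1)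
    (hc : ∀ i, ¬ (p : ℤ) ∣ c i)
    (hcong : ∀ i, (hζ.toInteger - 1) ^ (d i + 1) ∣
      (h i : 𝓞 K) - (n i : 𝓞 K) * (1 + (c i : 𝓞 K) * (hζ.toInteger - 1) ^ (d i)))
    (f : Fin r → ℕ) (m : ℤ) (hm : (p : 𝓞 K) ∣ (∏ i, (h i : 𝓞 K) ^ (f i)) - m) :
    ∀ i, p ∣ f i := by
  classical
  intro j
  induction j using WellFoundedLT.induction with
  | _ j ih =>
  set lam : 𝓞 K := hζ.toInteger - 1 with hlam
  set I : Ideal (𝓞 K) := Ideal.span {lam ^ (d j + 1)} with hI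
  have hpI : (p : 𝓞 K) ∈ I := Ideal.mem_span_singleton.2 (lam_pow_dvd_p hζ (hdp j))
  have hother : ∀ i, i ≠ j → ∃ N : ℤ, (h i : 𝓞 K) ^ (f i) - N ∈ I := by
    intro i hij
    rcases lt_or_gt_of_ne hij with hlt | hgt
    · obtain ⟨g, hg⟩ := ih i hlt
      obtain ⟨N, hN⟩ := exists_int_dvd_pow_sub hζ ((h i : 𝓞 K) ^ g)
      refine ⟨N, ?_⟩
      rw [hg, mul_comm, pow_mul]
      exact I.mem_of_dvd hN hpI
    · refine ⟨n i ^ f i, ?_⟩
      have hdij : d j + 1 ≤ d i := hd hgt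
      have h1 : (h i : 𝓞 K) - n i ∈ I := by
        have e1 : (h i : 𝓞 K) - n i = ((h i : 𝓞 K) - (n i : 𝓞 K) * (1 + (c i : 𝓞 K) * lam ^ (d i)))
            + (n i : 𝓞 K) * (c i : 𝓞 K) * lam ^ (d i) := by ring
        rw [e1]
        refine I.add_mem ?_ ?_
        · exact I.mem_of_dvd ((pow_dvd_pow lam (by omega)).trans (hcong i))
            (Ideal.mem_span_singleton_self _)
        · exact I.mul_mem_left _ (I.mem_of_dvd (pow_dvd_pow lam hdij)
            (Ideal.mem_span_singleton_self _))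
      push_cast
      exact I.mem_of_dvd (sub_dvd_pow_sub_pow _ _ _) h1
  choose N hN using hother
  -- the `j`-th factor
  have hdj : d j + 1 ≤ 2 * d j := by have := hd1 j; omega
  have hx : (Ideal.Quotient.mk I ((c j : 𝓞 K) * lam ^ d j)) ^ 2 = 0 := by
    rw [← map_pow, Ideal.Quotient.eq_zero_iff_mem, mul_pow, ← pow_mul, mul_comm (d j) 2]
    exact I.mul_mem_left _ (I.mem_of_dvd (pow_dvd_pow lam hdj) (Ideal.mem_span_singleton_self _))
  have h1 : Ideal.Quotient.mk I (h j : 𝓞 K) =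
      Ideal.Quotient.mk I ((n j : 𝓞 K) * (1 + (c j : 𝓞 K) * lam ^ d j)) :=
    Ideal.Quotient.eq.2 (Ideal.mem_span_singleton.2 (hcong j))
  have hj : Ideal.Quotient.mk I ((h j : 𝓞 K) ^ f j) = Ideal.Quotient.mk I
      (((n j ^ f j : ℤ) : 𝓞 K) * (1 + (f j : 𝓞 K) * ((c j : 𝓞 K) * lam ^ d j))) := by
    rw [map_pow, h1, map_mul, mul_pow, map_add, map_one, one_add_pow_of_sq_eq_zero hx]
    simp only [map_mul, map_add, map_one, map_pow, map_natCast, Int.cast_pow]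
  -- the other factors
  set N' : Fin r → ℤ := fun i => if hi : i = j then 1 else N i hi with hN'
  have hN'mem : ∀ i ∈ Finset.univ.erase j, Ideal.Quotient.mk I ((h i : 𝓞 K) ^ f i) =
      Ideal.Quotient.mk I ((N' i : ℤ) : 𝓞 K) := by
    intro i hi
    have hij : i ≠ j := Finset.ne_of_mem_erase hi
    have e0 : N' i = N i hij := by simp only [hN']; rw [dif_neg hij]
    rw [Ideal.Quotient.eq, e0]
    exact hN i hij
  set Nn : ℤ := n j ^ f j * ∏ i ∈ Finset.univ.erase j, N' i with hNn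
  set P : 𝓞 K := ∏ i, (h i : 𝓞 K) ^ f i with hP
  have hPq : Ideal.Quotient.mk I P = Ideal.Quotient.mk I
      ((Nn : 𝓞 K) * (1 + (f j : 𝓞 K) * ((c j : 𝓞 K) * lam ^ d j))) := by
    rw [hP, map_prod, ← Finset.mul_prod_erase Finset.univ _ (Finset.mem_univ j), hj,
      Finset.prod_congr rfl hN'mem, hNn]
    simp only [map_mul, map_add, map_one, map_pow, map_natCast, Int.cast_pow, Int.cast_mul,
      Int.cast_prod, map_prod]
    ring
  have hPm : Ideal.Quotient.mk I P = Ideal.Quotient.mk I (m : 𝓞 K) :=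
    Ideal.Quotient.eq.2 (I.mem_of_dvd hm hpI)
  have hPunit : IsUnit P := by
    rw [hP]
    have : P = ((∏ i, (h i) ^ f i : (𝓞 K)ˣ) : 𝓞 K) := by
      rw [hP]; push_cast; rfl
    rw [← hP, this]
    exact Units.isUnit _
  have hlamI : ∀ x ∈ I, lam ∣ x := fun x hx =>
    (dvd_pow_self lam (by omega)).trans (Ideal.mem_span_singleton.1 hx)
  -- first consequence
  have hX : ((Nn - m : ℤ) : 𝓞 K) + (Nn : 𝓞 K) * ((f j : 𝓞 K) * ((c j : 𝓞 K) * lam ^ d j)) ∈ I := by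
    rw [hPq] at hPm
    have := Ideal.Quotient.eq.1 hPm
    convert this using 1
    push_cast
    ring
  have hlamd : lam ∣ lam ^ d j := dvd_pow_self lam (by have := hd1 j; omega)
  have hstep1 : (p : ℤ) ∣ Nn - m := by
    rw [← zeta_sub_one_dvd_intCast_iff' p hζ]
    have h2 : lam ∣ (Nn : 𝓞 K) * ((f j : 𝓞 K) * ((c j : 𝓞 K) * lam ^ d j)) :=
      Dvd.dvd.mul_left (Dvd.dvd.mul_left (Dvd.dvd.mul_left hlamd _) _) _
    exact (dvd_add_left h2).1 (hlamI _ hX)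
  have hstep2 : (Nn : 𝓞 K) * ((f j : 𝓞 K) * ((c j : 𝓞 K) * lam ^ d j)) ∈ I := by
    have h3 : ((Nn - m : ℤ) : 𝓞 K) ∈ I := by
      obtain ⟨t, ht⟩ := hstep1
      rw [ht]
      push_cast
      exact I.mul_mem_right _ hpI
    exact (I.add_mem_iff_right h3).1 hX
  have hstep3 : (p : ℤ) ∣ Nn * f j * c j := by
    rw [← zeta_sub_one_dvd_intCast_iff' p hζ]
    have h4 := Ideal.mem_span_singleton.1 hstep2
    have e2 : (Nn : 𝓞 K) * ((f j : 𝓞 K) * ((c j : 𝓞 K) * lam ^ d j)) =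
        lam ^ d j * ((Nn * f j * c j : ℤ) : 𝓞 K) := by push_cast; ring
    rw [e2, pow_succ] at h4
    exact (mul_dvd_mul_iff_left (pow_ne_zero _ (lam_ne_zero hζ))).1 h4
  have hpprime : Prime (p : ℤ) := Nat.prime_iff_prime_int.1 hp.out
  rcases hpprime.dvd_or_dvd hstep3 with h5 | h5
  · rcases hpprime.dvd_or_dvd h5 with h6 | h6
    · -- `p ∣ Nn` is impossible
      exfalso
      have h7 : (Nn : 𝓞 K) ∈ I := by
        obtain ⟨t, ht⟩ := h6
        rw [ht]; push_cast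
        exact I.mul_mem_right _ hpI
      have h8 : P ∈ I := by
        have := Ideal.Quotient.eq.1 hPq
        exact (I.sub_mem_iff_left (I.mul_mem_right _ h7)).1 this
      exact lam_not_isUnit hζ (isUnit_of_dvd_unit (hlamI _ h8) hPunit)
    · exact Int.natCast_dvd_natCast.1 h6
  · exact absurd h5 (hc j)

include hζ in
/-- Triangular independence, integer exponents. -/
theorem triangular_indep_int {r : ℕ} (h : Fin r → (𝓞 K)ˣ) (n c : Fin r → ℤ) (d : Fin r → ℕ)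
    (hd : StrictMono d) (hd1 : ∀ i, 1 ≤ d i) (hdp : ∀ i, d i + 1 ≤ p - 1)
    (hc : ∀ i, ¬ (p : ℤ) ∣ c i)
    (hcong : ∀ i, (hζ.toInteger - 1) ^ (d i + 1) ∣
      (h i : 𝓞 K) - (n i : 𝓞 K) * (1 + (c i : 𝓞 K) * (hζ.toInteger - 1) ^ (d i)))
    (e : Fin r → ℤ) (m : ℤ)
    (hm : (p : 𝓞 K) ∣ ((∏ i, (h i) ^ (e i) : (𝓞 K)ˣ) : 𝓞 K) - m) :
    ∀ i, (p : ℤ) ∣ e i := by
  have hp1 : (1 : ℤ) ≤ p := by exact_mod_cast hp.out.one_le
  set f : Fin r → ℕ := fun i => (e i + p * (e i).natAbs).toNat with hfdef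
  have hf : ∀ i, (f i : ℤ) = e i + p * (e i).natAbs := fun i => by
    apply Int.toNat_of_nonneg
    have h1 : -(e i) ≤ |e i| := neg_le_abs (e i)
    have h2 : (0 : ℤ) ≤ |e i| := abs_nonneg _
    rw [Int.natCast_natAbs]
    nlinarith
  set W : (𝓞 K)ˣ := ∏ i, (h i) ^ (e i).natAbs with hW
  have hunits : (∏ i, (h i) ^ (f i) : (𝓞 K)ˣ) = (∏ i, (h i) ^ (e i)) * W ^ p := by
    rw [hW, ← Finset.prod_pow, ← Finset.prod_mul_distrib]
    refine Finset.prod_congr rfl fun i _ => ?_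
    rw [← zpow_natCast (h i) (f i), hf, zpow_add, zpow_mul, zpow_natCast, zpow_natCast, ← pow_mul,
      ← pow_mul, Nat.mul_comm]
  obtain ⟨w, hw⟩ := exists_int_dvd_pow_sub hζ (W : 𝓞 K)
  have hm' : (p : 𝓞 K) ∣ (∏ i, (h i : 𝓞 K) ^ (f i)) - ((m * w : ℤ) : 𝓞 K) := by
    have e1 : (∏ i, (h i : 𝓞 K) ^ (f i)) = ((∏ i, (h i) ^ (f i) : (𝓞 K)ˣ) : 𝓞 K) := by
      push_cast; rfl
    rw [e1, hunits, Units.val_mul, Units.val_pow_eq_pow_val, Int.cast_mul]
    have e2 : ((∏ i, (h i) ^ (e i) : (𝓞 K)ˣ) : 𝓞 K) * (W : 𝓞 K) ^ p - (m : 𝓞 K) * (w : 𝓞 K) =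
        (((∏ i, (h i) ^ (e i) : (𝓞 K)ˣ) : 𝓞 K) - m) * (W : 𝓞 K) ^ p +
          (m : 𝓞 K) * ((W : 𝓞 K) ^ p - w) := by ring
    rw [e2]
    exact dvd_add (Dvd.dvd.mul_right hm _) (Dvd.dvd.mul_left hw _)
  intro i
  have h1 := triangular_indep_nat hζ h n c d hd hd1 hdp hc hcong f (m * w) hm' i
  have h2 : (p : ℤ) ∣ (f i : ℤ) := Int.natCast_dvd_natCast.2 h1
  rw [hf] at h2
  exact (dvd_add_left (Dvd.intro _ rfl)).1 h2

end Fermat.Agent.Lib.Kummer
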