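import Fermat.Agent.Lib.Kummer.Defs
import Fermat.Agent.Lib.Kummer.Triangular
import Fermat.Agent.Lib.Kummer.Counting
import Mathlib.NumberTheory.NumberField.Units.DirichletTheorem
import Mathlib.NumberTheory.NumberField.Cyclotomic.Embeddings

set_option autoImplicit false

namespace Fermat.Agent.Lib.Kummer

open NumberField IsCyclotomicExtension.Rat

/-- The unit group of a number field is generated modulo `p`-th powers by `rank + 1` elements. -/
theorem exists_gen_units (K : Type*) [Field K] [NumberField K] (p : ℕ) :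
    ∃ gen : Fin (Units.rank K + 1) → (𝓞 K)ˣ,
      ∀ u : (𝓞 K)ˣ, ∃ (e : Fin (Units.rank K + 1) → ℤ) (v : (𝓞 K)ˣ),
        u = (∏ i, gen i ^ e i) * v ^ p := by
  obtain ⟨g, hg⟩ := IsCyclic.exists_generator (α := Units.torsion K)
  refine ⟨Fin.cons (g : (𝓞 K)ˣ) (Units.fundSystem K), fun u => ?_⟩
  obtain ⟨⟨t, e⟩, hte, -⟩ := Units.exist_unique_eq_mul_prod K u
  obtain ⟨k, hk⟩ := Subgroup.mem_zpowers_iff.1 (hg t)
  refine ⟨Fin.cons k e, 1, ?_⟩
  rw [one_pow, mul_one, Fin.prod_univ_succ]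
  simp only [Fin.cons_zero, Fin.cons_succ]
  rw [hte]
  congr 1
  rw [← hk]
  simp

/-- **Kummer's lemma from a triangular system of units.** Let `lam = ζ - 1`. Suppose given
`rank + 1` units `h i` with `h i ≡ n i * (1 + c i * lam ^ d i)` modulo `lam ^ (d i + 1)`, where
`p ∤ c i` and `1 ≤ d 0 < d 1 < … ≤ p - 2`. Then every unit congruent to a rational integer
modulo `p` is a `p`-th power. -/
theorem kummerLemma_of_triangular {p : ℕ} [hp : Fact p.Prime] {K : Type*} [Field K]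
    [NumberField K] [IsCyclotomicExtension {p} ℚ K] {ζ : K} (hζ : IsPrimitiveRoot ζ p)
    (h : Fin (Units.rank K + 1) → (𝓞 K)ˣ) (n c : Fin (Units.rank K + 1) → ℤ)
    (d : Fin (Units.rank K + 1) → ℕ) (hd : StrictMono d) (hd1 : ∀ i, 1 ≤ d i)
    (hdp : ∀ i, d i + 1 ≤ p - 1) (hc : ∀ i, ¬ (p : ℤ) ∣ c i)
    (hcong : ∀ i, (hζ.toInteger - 1) ^ (d i + 1) ∣
      (h i : 𝓞 K) - (n i : 𝓞 K) * (1 + (c i : 𝓞 K) * (hζ.toInteger - 1) ^ (d i))) :
    KummerLemmaHolds p K := by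
  have hindep : ∀ (e : Fin (Units.rank K + 1) → ℤ) (m : ℤ),
      (p : 𝓞 K) ∣ ((∏ i, (h i) ^ (e i) : (𝓞 K)ˣ) : 𝓞 K) - m → ∀ i, (p : ℤ) ∣ e i :=
    fun e m hm => triangular_indep_int hζ h n c d hd hd1 hdp hc hcong e m hm
  obtain ⟨gen, hgen⟩ := exists_gen_units K p
  have hall := exists_eq_prod_mul_pow_of_indep (p := p) gen hgen h (by
    rintro e ⟨v, hv⟩
    obtain ⟨m, hm⟩ := exists_int_dvd_pow_sub hζ (v : 𝓞 K)
    refine hindep e m ?_
    rw [hv, Units.val_pow_eq_pow_val]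
    exact hm)
  intro u ⟨m, hm⟩
  obtain ⟨e, v, huv⟩ := hall u
  obtain ⟨w, hw⟩ := exists_int_dvd_pow_sub hζ (v : 𝓞 K)
  -- `w` is invertible modulo `p`
  have hpw : ¬ (p : ℤ) ∣ w := by
    intro hpw
    rw [← zeta_sub_one_dvd_intCast_iff' p hζ] at hpw
    have h0 : hζ.toInteger - 1 ∣ (p : 𝓞 K) := by
      have := lam_pow_dvd_p hζ (k := 1) (by have := hp.out.two_le; omega)
      rwa [pow_one] at this
    have h1 : hζ.toInteger - 1 ∣ (v : 𝓞 K) ^ p - w := h0.trans hw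
    have h2 : hζ.toInteger - 1 ∣ (v : 𝓞 K) ^ p := (dvd_sub_left hpw).1 h1
    exact lam_not_isUnit hζ (isUnit_of_dvd_unit h2 ((Units.isUnit v).pow p))
  obtain ⟨w', hw'⟩ : ∃ w' : ℤ, (p : ℤ) ∣ w * w' - 1 := by
    have hcop : IsCoprime w (p : ℤ) :=
      ((Nat.prime_iff_prime_int.1 hp.out).coprime_iff_not_dvd.2 hpw).symm
    obtain ⟨a, b, hab⟩ := hcop
    exact ⟨a, -b, by linear_combination hab⟩
  set H : (𝓞 K)ˣ := ∏ i, (h i) ^ (e i) with hH
  have hHm : (p : 𝓞 K) ∣ (H : 𝓞 K) - ((m * w' : ℤ) : 𝓞 K) := by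
    obtain ⟨t, ht⟩ := hw'
    have ht' : (w : 𝓞 K) * (w' : 𝓞 K) - 1 = (p : 𝓞 K) * (t : 𝓞 K) := by exact_mod_cast ht
    obtain ⟨a, ha⟩ := hm
    obtain ⟨b, hb⟩ := hw
    have hu : (u : 𝓞 K) = (H : 𝓞 K) * (v : 𝓞 K) ^ p := by
      rw [huv, Units.val_mul, Units.val_pow_eq_pow_val]
    refine ⟨(w' : 𝓞 K) * a - (H : 𝓞 K) * (w' : 𝓞 K) * b - (H : 𝓞 K) * t, ?_⟩
    push_cast
    linear_combination (w' : 𝓞 K) * ha - (H : 𝓞 K) * (w' : 𝓞 K) * hb - (H : 𝓞 K) * ht'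
      - (w' : 𝓞 K) * hu
  have hdiv := hindep e (m * w') hHm
  choose e' he' using hdiv
  refine ⟨(∏ i, (h i) ^ (e' i)) * v, ?_⟩
  rw [mul_pow, ← Finset.prod_pow, huv]
  congr 1
  refine Finset.prod_congr rfl fun i _ => ?_
  rw [he' i, mul_comm, zpow_mul, zpow_natCast]

/-- The unit rank of the `p`-th cyclotomic field, `p` an odd prime. -/
theorem rank_add_one_eq {p : ℕ} [hp : Fact p.Prime] (hp2 : p ≠ 2) (K : Type*) [Field K]
    [NumberField K] [IsCyclotomicExtension {p} ℚ K] : Units.rank K + 1 = (p - 1) / 2 := by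
  have h2 : 2 < p := lt_of_le_of_ne hp.out.two_le (Ne.symm hp2)
  have hcard : Fintype.card (InfinitePlace K) = (p - 1) / 2 := by
    rw [InfinitePlace.card_eq_nrRealPlaces_add_nrComplexPlaces,
      IsCyclotomicExtension.Rat.nrRealPlaces_eq_zero (n := p) K h2, zero_add,
      IsCyclotomicExtension.Rat.nrComplexPlaces_eq_totient_div_two (n := p),
      Nat.totient_prime hp.out]
  have hpos : 0 < (p - 1) / 2 := by omega
  dsimp only [Units.rank]
  omega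

/-- Variant of `kummerLemma_of_triangular` where the number of units is a numeral `r`. -/
theorem kummerLemma_of_triangular' {p : ℕ} [hp : Fact p.Prime] (hp2 : p ≠ 2) {K : Type*} [Field K]
    [NumberField K] [IsCyclotomicExtension {p} ℚ K] {ζ : K} (hζ : IsPrimitiveRoot ζ p)
    {r : ℕ} (hr : (p - 1) / 2 = r)
    (h : Fin r → (𝓞 K)ˣ) (n c : Fin r → ℤ)
    (d : Fin r → ℕ) (hd : StrictMono d) (hd1 : ∀ i, 1 ≤ d i)
    (hdp : ∀ i, d i + 1 ≤ p - 1) (hc : ∀ i, ¬ (p : ℤ) ∣ c i)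
    (hcong : ∀ i, (hζ.toInteger - 1) ^ (d i + 1) ∣
      (h i : 𝓞 K) - (n i : 𝓞 K) * (1 + (c i : 𝓞 K) * (hζ.toInteger - 1) ^ (d i))) :
    KummerLemmaHolds p K := by
  have hr' : Units.rank K + 1 = r := (rank_add_one_eq hp2 K).trans hr
  subst hr'
  exact kummerLemma_of_triangular hζ h n c d hd hd1 hdp hc hcong

end Fermat.Agent.Lib.Kummer
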