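import Mathlib.NumberTheory.NumberField.Cyclotomic.PID
import Mathlib.NumberTheory.NumberField.Cyclotomic.Ideal

set_option autoImplicit false

namespace Fermat.Agent.Lib.Kummer.PIDCommon

open NumberField Polynomial Ideal RingOfIntegers NumberField.Ideal IsCyclotomicExtension

/-- If a lift `Q` of a monic irreducible factor of `minpoly θ` mod `q` satisfies
`(q, Q(θ)) = (α)`, then some prime above `q` is principal. -/
theorem exists_isPrincipal_of_span_eq {K : Type*} [Field K] [NumberField K] {θ : 𝓞 K} {q : ℕ}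
    [Fact q.Prime] (hq : ¬ q ∣ exponent θ) {Q : ℤ[X]}
    (hQ : Q.map (Int.castRingHom (ZMod q)) ∈ monicFactorsMod θ q) {α : 𝓞 K}
    (h : span {(q : 𝓞 K), aeval θ Q} = span {α}) :
    ∃ P ∈ primesOver (span {(q : ℤ)}) (𝓞 K), Submodule.IsPrincipal P := by
  refine ⟨((primesOverSpanEquivMonicFactorsMod hq).symm ⟨_, hQ⟩ : Ideal (𝓞 K)),
    ((primesOverSpanEquivMonicFactorsMod hq).symm ⟨_, hQ⟩).2, ?_⟩
  rw [primesOverSpanEquivMonicFactorsMod_symm_apply_eq_span hq hQ, h]
  exact ⟨α, rfl⟩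

section Cyclo

variable {p : ℕ} [hp : Fact p.Prime] {K : Type*} [Field K] [NumberField K]
  [hK : IsCyclotomicExtension {p} ℚ K]

/-- The chosen generator of the ring of integers. -/
noncomputable abbrev zetaInt (p : ℕ) [Fact p.Prime] (K : Type*) [Field K] [NumberField K]
    [IsCyclotomicExtension {p} ℚ K] : 𝓞 K := (zeta_spec p ℚ K).toInteger

theorem not_dvd_exponent_zetaInt (q : ℕ) [Fact q.Prime] : ¬ q ∣ exponent (zetaInt p K) := by
  rw [exponent_eq_one_iff.mpr <| Rat.adjoin_singleton_eq_top (zeta_spec p ℚ K)]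
  exact (Fact.out : q.Prime).not_dvd_one

theorem minpoly_zetaInt : minpoly ℤ (zetaInt p K) = cyclotomic p ℤ := by
  rw [cyclotomic_eq_minpoly (zeta_spec p ℚ K) hp.out.pos, ← RingOfIntegers.minpoly_coe]
  rfl

theorem geom_sum_zetaInt : ∑ i ∈ Finset.range p, (zetaInt p K) ^ i = 0 := by
  have h := minpoly.aeval ℤ (zetaInt p K)
  rw [minpoly_zetaInt, cyclotomic_prime, map_sum] at h
  simpa using h

/-- Membership in `monicFactorsMod` from an explicit factorisation datum. -/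
theorem mem_monicFactorsMod {q : ℕ} [Fact q.Prime] {Q : ℤ[X]}
    (hirr : Irreducible (Q.map (Int.castRingHom (ZMod q))))
    (hmon : (Q.map (Int.castRingHom (ZMod q))).Monic)
    (hdvd : Q.map (Int.castRingHom (ZMod q)) ∣ cyclotomic p (ZMod q)) :
    Q.map (Int.castRingHom (ZMod q)) ∈ monicFactorsMod (zetaInt p K) q := by
  classical
  rw [Multiset.mem_toFinset, Polynomial.mem_normalizedFactors_iff
    (map_monic_ne_zero (minpoly.monic (zetaInt p K).isIntegral)), minpoly_zetaInt,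
    map_cyclotomic_int]
  exact ⟨hirr, hmon, hdvd⟩

/-- Degree one case: `r` is a root of the cyclotomic polynomial mod `q`. -/
theorem mem_monicFactorsMod_X_sub_C {q : ℕ} [Fact q.Prime] (r : ℤ)
    (hr : ∑ i ∈ Finset.range p, (r : ZMod q) ^ i = 0) :
    (X - C r : ℤ[X]).map (Int.castRingHom (ZMod q)) ∈ monicFactorsMod (zetaInt p K) q := by
  have hmap : (X - C r : ℤ[X]).map (Int.castRingHom (ZMod q)) = X - C (r : ZMod q) := by
    simp
  apply mem_monicFactorsMod
  · rw [hmap]; exact irreducible_X_sub_C _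
  · rw [hmap]; exact monic_X_sub_C _
  · rw [hmap, dvd_iff_isRoot, IsRoot.def, cyclotomic_prime, eval_finsetSum]
    simpa using hr

/-- Degree one case with an explicit generator and cofactor certificates. -/
theorem exists_isPrincipal_deg_one (q : ℕ) [Fact q.Prime] (r : ℤ)
    (hr : ∑ i ∈ Finset.range p, (r : ZMod q) ^ i = 0) (α β γ t : 𝓞 K) (s : ℤ)
    (h1 : ((q : ℕ) : 𝓞 K) = α * β) (h2 : zetaInt p K - (r : 𝓞 K) = α * γ)
    (h3 : α = ((q : ℕ) : 𝓞 K) * (s : 𝓞 K) + (zetaInt p K - (r : 𝓞 K)) * t) :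
    ∃ P ∈ primesOver (span {(q : ℤ)}) (𝓞 K), Submodule.IsPrincipal P := by
  apply exists_isPrincipal_of_span_eq (not_dvd_exponent_zetaInt (p := p) (K := K) q)
    (mem_monicFactorsMod_X_sub_C (p := p) (K := K) r hr) (α := α)
  have haeval : aeval (zetaInt p K) (X - C r : ℤ[X]) = zetaInt p K - (r : 𝓞 K) := by
    simp
  rw [haeval]
  apply le_antisymm
  · rw [span_le]
    intro x hx
    rcases hx with rfl | rfl
    · exact mem_span_singleton.mpr ⟨β, h1⟩
    · exact mem_span_singleton.mpr ⟨γ, h2⟩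
  · rw [span_singleton_le_iff_mem, mem_span_pair]
    exact ⟨(s : 𝓞 K), t, by rw [h3]; ring⟩

/-- From a congruence of natural numbers to `ZMod`. -/
theorem pow_ne_one_of_mod {q j : ℕ} (h : q ^ j % p ≠ 1) : ((q : ℕ) : ZMod p) ^ j ≠ 1 := by
  intro h1
  have h2 : ((q ^ j : ℕ) : ZMod p) = ((1 : ℕ) : ZMod p) := by push_cast; exact h1
  rw [ZMod.natCast_eq_natCast_iff', Nat.mod_eq_of_lt hp.out.one_lt] at h2
  exact h h2

/-- Lower bound for `q ^ f` from non-triviality of small powers of `q` mod `p`. -/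
theorem lt_pow_inertiaDeg (q : ℕ) [Fact q.Prime] (hqp : ¬ q ∣ p) (P : Ideal (𝓞 K)) [P.IsPrime]
    [P.LiesOver (span {(q : ℤ)})] (B k : ℕ) (hk : B < q ^ k)
    (h : ∀ j < k, 0 < j → (q : ZMod p) ^ j ≠ 1) : B < q ^ P.inertiaDeg ℤ := by
  have hf : P.inertiaDeg ℤ = orderOf (q : ZMod p) := Rat.inertiaDeg_eq_of_not_dvd q K P hqp
  have hcop : q.Coprime p := (Fact.out : q.Prime).coprime_iff_not_dvd.mpr hqp
  have hpos : 0 < orderOf (q : ZMod p) := by
    have h1 : orderOf (ZMod.unitOfCoprime q hcop) = orderOf (q : ZMod p) :=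
      (orderOf_injective _ Units.coeHom_injective (ZMod.unitOfCoprime q hcop)).symm
    rw [← h1]
    exact orderOf_pos _
  have hle : k ≤ orderOf (q : ZMod p) := by
    by_contra hlt
    exact h _ (not_le.mp hlt) hpos (pow_orderOf_eq_one _)
  rw [hf]
  exact lt_of_lt_of_le hk (Nat.pow_le_pow_right (Fact.out : q.Prime).pos hle)

open InfinitePlace Nat Real Module in
/-- The Minkowski bound of a cyclotomic field of prime conductor. -/
theorem minkowski_eq (p : ℕ) [hp : Fact p.Prime] (K : Type*) [Field K] [NumberField K]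
    [IsCyclotomicExtension {p} ℚ K] :
    (4 / π) ^ nrComplexPlaces K *
      ((finrank ℚ K)! / (finrank ℚ K) ^ (finrank ℚ K) * √|discr K|) =
    (4 / π) ^ ((p - 1) / 2) *
      (((p - 1)! : ℝ) / ((p - 1 : ℕ) : ℝ) ^ (p - 1) * √((p : ℝ) ^ (p - 2))) := by
  rw [IsCyclotomicExtension.Rat.discr_prime p K, IsCyclotomicExtension.Rat.finrank p K,
    IsCyclotomicExtension.Rat.nrComplexPlaces_eq_totient_div_two p, totient_prime hp.out]
  congr 3
  push_cast
  rw [abs_mul, abs_pow, abs_pow, abs_neg, abs_one, one_pow, one_mul]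
  simp

open Real in
/-- Generic numeric estimate using `3.14 < π`. -/
theorem minkowski_lt (k : ℕ) (c s B : ℝ) (hc : 0 ≤ c) (hs : 0 ≤ s) (x : ℝ)
    (hxs : x ≤ s ^ 2) (h : (4 / 3.14) ^ k * (c * s) < B) : (4 / π) ^ k * (c * √x) < B := by
  have hpi : (4 / π) ≤ 4 / 3.14 :=
    (div_le_div_of_nonneg_left (by norm_num) (by norm_num) Real.pi_gt_d2.le)
  have hpi0 : (0:ℝ) ≤ 4 / π := by positivity
  have hsq : √x ≤ s := Real.sqrt_le_iff.mpr ⟨hs, hxs⟩
  calc (4 / π) ^ k * (c * √x) ≤ (4 / 3.14) ^ k * (c * s) := by gcongr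
    _ < B := h

open InfinitePlace Nat Real Module in
/-- Floor of the Minkowski bound from a strict numeric bound. -/
theorem floor_minkowski_le (p : ℕ) [hp : Fact p.Prime] (K : Type*) [Field K] [NumberField K]
    [IsCyclotomicExtension {p} ℚ K] (B : ℕ)
    (h : (4 / π) ^ ((p - 1) / 2) *
      (((p - 1)! : ℝ) / ((p - 1 : ℕ) : ℝ) ^ (p - 1) * √((p : ℝ) ^ (p - 2))) < (B + 1 : ℕ)) :
    ⌊(4 / π) ^ nrComplexPlaces K *
      ((finrank ℚ K)! / (finrank ℚ K) ^ (finrank ℚ K) * √|discr K|)⌋₊ ≤ B := by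
  rw [minkowski_eq p K]
  exact Nat.lt_succ_iff.mp ((Nat.floor_lt (by positivity)).mpr h)

end Cyclo

end Fermat.Agent.Lib.Kummer.PIDCommon
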