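import Mathlib.NumberTheory.NumberField.Cyclotomic.Ideal
import Mathlib.Algebra.CharP.Lemmas

set_option autoImplicit false

namespace Fermat.Agent.Lib.Kummer

open NumberField

/-- In a commutative ring, the `p`-th power of a finite sum is the sum of `p`-th powers up to a
multiple of `p`. -/
theorem exists_sum_pow_prime_eq {R ι : Type*} [CommRing R] {p : ℕ} (hp : p.Prime)
    (s : Finset ι) (f : ι → R) :
    ∃ r : R, (∑ i ∈ s, f i) ^ p = ∑ i ∈ s, f i ^ p + (p : R) * r := by
  classical
  induction s using Finset.induction_on with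
  | empty => exact ⟨0, by simp [hp.ne_zero]⟩
  | insert a s ha ih =>
    obtain ⟨r, hr⟩ := ih
    obtain ⟨t, ht⟩ := exists_add_pow_prime_eq hp (f a) (∑ i ∈ s, f i)
    refine ⟨r + f a * (∑ i ∈ s, f i) * t, ?_⟩
    rw [Finset.sum_insert ha, Finset.sum_insert ha, ht, hr]
    ring

variable {p : ℕ} [hp : Fact p.Prime] {K : Type*} [Field K] [NumberField K]
  [IsCyclotomicExtension {p} ℚ K] {ζ : K} (hζ : IsPrimitiveRoot ζ p)

include hζ in
/-- Every `p`-th power in the ring of integers of the `p`-th cyclotomic field is congruent to a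
rational integer modulo `p`. -/
theorem exists_int_dvd_pow_sub (x : 𝓞 K) : ∃ n : ℤ, (p : 𝓞 K) ∣ x ^ p - n := by
  have hgen : hζ.integralPowerBasis.gen = hζ.toInteger := hζ.integralPowerBasis_gen
  have hx := hζ.integralPowerBasis.basis.sum_repr x
  obtain ⟨r, hr⟩ := exists_sum_pow_prime_eq hp.out Finset.univ
    (fun i => hζ.integralPowerBasis.basis.repr x i • hζ.integralPowerBasis.basis i)
  refine ⟨∑ i, (hζ.integralPowerBasis.basis.repr x i) ^ p, r, ?_⟩
  rw [hx] at hr
  have hsum : ∑ i, (hζ.integralPowerBasis.basis.repr x i • hζ.integralPowerBasis.basis i) ^ p =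
      ((∑ i, (hζ.integralPowerBasis.basis.repr x i) ^ p : ℤ) : 𝓞 K) := by
    rw [Int.cast_sum]
    refine Finset.sum_congr rfl fun i _ => ?_
    rw [PowerBasis.coe_basis, hgen, zsmul_eq_mul, mul_pow, ← pow_mul, mul_comm (i : ℕ) p, pow_mul,
      hζ.toInteger_isPrimitiveRoot.pow_eq_one, one_pow, mul_one, Int.cast_pow]
  rw [hr, hsum]
  ring

end Fermat.Agent.Lib.Kummer
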