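import Mathlib.NumberTheory.NumberField.Cyclotomic.Ideal
import Mathlib.RingTheory.RootsOfUnity.CyclotomicUnits
import Mathlib.Tactic.NormNum.Prime

set_option autoImplicit false
set_option linter.unusedSectionVars false

namespace Fermat.Agent.Lib.Kummer.TriUnits11

open NumberField Finset

section calculus

variable {A : Type*} [CommRing A]

theorem step {l a b P F P' R Q : A} {m : ℕ} (ha : l ^ m ∣ a - P) (hb : l ^ m ∣ b - F)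
    (hp : l ^ m ∣ (11 : A)) (hid : P * F = P' + 11 * R + l ^ m * Q) : l ^ m ∣ a * b - P' := by
  obtain ⟨u, hu⟩ := ha
  obtain ⟨v, hv⟩ := hb
  obtain ⟨w, hw⟩ := hp
  refine ⟨u * b + P * v + w * R + Q, ?_⟩
  have e1 : a = P + l ^ m * u := by rw [← hu]; ring
  have e2 : F = b - l ^ m * v := by rw [← hv]; ring
  have e3 : P' = P * F - 11 * R - l ^ m * Q := by rw [hid]; ring
  rw [e3, e2, e1, hw]; ring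

theorem inv_cong {l x x' X X' R Q : A} {m : ℕ} (hx : x * x' = 1) (hX : x = X)
    (hp : l ^ m ∣ (11 : A)) (hid : X * X' = 1 + 11 * R + l ^ m * Q) : l ^ m ∣ x' - X' := by
  obtain ⟨w, hw⟩ := hp
  refine ⟨-(x' * (w * R + Q)), ?_⟩
  have e1 : x' - X' = x' * (1 - x * X') := by
    have : x' * (x * X') = (x * x') * X' := by ring
    rw [mul_sub, this, hx]; ring
  rw [e1, hX, hid, hw]; ring

theorem exact_cong {l x X : A} {m : ℕ} (hX : x = X) : l ^ m ∣ x - X := by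
  rw [hX, sub_self]; exact dvd_zero _

theorem trunc_cong {l x X T R Q : A} {m : ℕ} (hX : x = X)
    (hp : l ^ m ∣ (11 : A)) (hid : X = T + 11 * R + l ^ m * Q) : l ^ m ∣ x - T := by
  obtain ⟨w, hw⟩ := hp
  refine ⟨w * R + Q, ?_⟩
  rw [hX, hid, hw]; ring

end calculus

section units

variable {K : Type*} [Field K] [NumberField K] [IsCyclotomicExtension {11} ℚ K]
  {ζ : K} (hζ : IsPrimitiveRoot ζ 11)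

local notation "ll" => (IsPrimitiveRoot.toInteger hζ - 1)


theorem lam_pow_dvd {m : ℕ} (hm : m ≤ 10) : (hζ.toInteger - 1) ^ m ∣ (11 : 𝓞 K) := by
  have : Fact (Nat.Prime 11) := ⟨by norm_num⟩
  have h := (IsCyclotomicExtension.Rat.associated_zeta_sub_one_pow_prime 11 hζ).dvd
  have h2 : (hζ.toInteger - 1) ^ m ∣ (hζ.toInteger - 1) ^ (11 - 1) := pow_dvd_pow _ (by omega)
  exact_mod_cast h2.trans h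

theorem z_eq : hζ.toInteger = (hζ.toInteger - 1) + 1 := by ring

theorem z_pow : hζ.toInteger ^ 11 = 1 := hζ.toInteger_isPrimitiveRoot.pow_eq_one

theorem z_isUnit : IsUnit hζ.toInteger := IsUnit.of_pow_eq_one (z_pow hζ) (by norm_num)

/-- the cyclotomic unit `1 + z + ... + z^(a-1)` -/
noncomputable def xi (a : ℕ) : 𝓞 K := ∑ i ∈ range a, hζ.toInteger ^ i

theorem xi_isUnit {a : ℕ} (ha : a.Coprime 11) : IsUnit (xi hζ a) :=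
  hζ.toInteger_isPrimitiveRoot.geom_sum_isUnit (by norm_num) ha

/-- the inverse of `xi a` -/
noncomputable def xi' (a : ℕ) (ha : a.Coprime 11) : 𝓞 K := ((xi_isUnit hζ ha).unit⁻¹ : (𝓞 K)ˣ)

theorem xi_mul_xi' {a : ℕ} (ha : a.Coprime 11) : xi hζ a * xi' hζ a ha = 1 := by
  unfold xi'
  exact (xi_isUnit hζ ha).mul_val_inv

theorem xi'_isUnit {a : ℕ} (ha : a.Coprime 11) : IsUnit (xi' hζ a ha) :=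
  ((xi_isUnit hζ ha).unit⁻¹).isUnit

theorem xi2_eq : xi hζ 2 = (2 + ll) := by
  have hz := z_eq hζ
  simp only [xi, sum_range_succ, range_zero, sum_empty]
  rw [hz]; ring

theorem xi3_eq : xi hζ 3 = (3 + 3 * ll + ll ^ 2) := by
  have hz := z_eq hζ
  simp only [xi, sum_range_succ, range_zero, sum_empty]
  rw [hz]; ring

theorem xi4_eq : xi hζ 4 = (4 + 6 * ll + 4 * ll ^ 2 + ll ^ 3) := by
  have hz := z_eq hζ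
  simp only [xi, sum_range_succ, range_zero, sum_empty]
  rw [hz]; ring

theorem xi5_eq : xi hζ 5 = (5 + 10 * ll + 10 * ll ^ 2 + 5 * ll ^ 3 + ll ^ 4) := by
  have hz := z_eq hζ
  simp only [xi, sum_range_succ, range_zero, sum_empty]
  rw [hz]; ring

-- ===================== level d = 2 (modulus l^3) : exponents {2: 0, 3: 0, 4: 0, 5: 1}, zeta^9 =====================
theorem zpow_d2 : (hζ.toInteger - 1) ^ 3 ∣ hζ.toInteger ^ 9 - (1 + 9 * ll + 3 * ll ^ 2) := by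
  have hz := z_eq hζ
  refine trunc_cong (X := (1 + 9 * ll + 36 * ll ^ 2 + 84 * ll ^ 3 + 126 * ll ^ 4 + 126 * ll ^ 5 + 84 * ll ^ 6 + 36 * ll ^ 7 + 9 * ll ^ 8 + ll ^ 9)) (R := (3 * ll ^ 2)) (Q := (84 + 126 * ll + 126 * ll ^ 2 + 84 * ll ^ 3 + 36 * ll ^ 4 + 9 * ll ^ 5 + ll ^ 6)) ?_ (lam_pow_dvd hζ (by norm_num)) ?_
  · rw [hz]; ring
  · ring

theorem xi5_d2 : (hζ.toInteger - 1) ^ 3 ∣ xi hζ 5 - (5 + 10 * ll + 10 * ll ^ 2) := by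
  refine trunc_cong (X := (5 + 10 * ll + 10 * ll ^ 2 + 5 * ll ^ 3 + ll ^ 4)) (R := (0)) (Q := (5 + ll)) (xi5_eq hζ) (lam_pow_dvd hζ (by norm_num)) ?_
  ring

theorem chain_d2_1 : (hζ.toInteger - 1) ^ 3 ∣ (hζ.toInteger ^ 9) * (xi hζ 5) - (5 + 5 * ll ^ 2) := by
  refine step (P := (1 + 9 * ll + 3 * ll ^ 2)) (F := (5 + 10 * ll + 10 * ll ^ 2)) (R := (5 * ll + 10 * ll ^ 2)) (Q := (120 + 30 * ll)) (zpow_d2 hζ) (xi5_d2 hζ) (lam_pow_dvd hζ (by norm_num)) ?_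
  ring

/-- level 2 unit -/
noncomputable def h2 : 𝓞 K := (hζ.toInteger ^ 9) * (xi hζ 5)

theorem h2_isUnit : IsUnit (h2 hζ) := ((z_isUnit hζ).pow 9).mul (xi_isUnit hζ (by norm_num : Nat.Coprime 5 11))

theorem h2_cong : (hζ.toInteger - 1) ^ 3 ∣ h2 hζ - (5 + 5 * (hζ.toInteger - 1) ^ 2) := by
  have h := chain_d2_1 hζ
  have e1 : ((5 : 𝓞 K) + 5 * (hζ.toInteger - 1) ^ 2) = (5 + 5 * ll ^ 2) := by ring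
  rw [e1, h2]; exact h

-- ===================== level d = 4 (modulus l^5) : exponents {2: 1, 3: 1, 4: 0, 5: 0}, zeta^4 =====================
theorem zpow_d4 : (hζ.toInteger - 1) ^ 5 ∣ hζ.toInteger ^ 4 - (1 + 4 * ll + 6 * ll ^ 2 + 4 * ll ^ 3 + ll ^ 4) := by
  have hz := z_eq hζ
  refine trunc_cong (X := (1 + 4 * ll + 6 * ll ^ 2 + 4 * ll ^ 3 + ll ^ 4)) (R := (0)) (Q := (0)) ?_ (lam_pow_dvd hζ (by norm_num)) ?_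
  · rw [hz]; ring
  · ring

theorem xi2_d4 : (hζ.toInteger - 1) ^ 5 ∣ xi hζ 2 - (2 + ll) := by
  refine trunc_cong (X := (2 + ll)) (R := (0)) (Q := (0)) (xi2_eq hζ) (lam_pow_dvd hζ (by norm_num)) ?_
  ring

theorem xi3_d4 : (hζ.toInteger - 1) ^ 5 ∣ xi hζ 3 - (3 + 3 * ll + ll ^ 2) := by
  refine trunc_cong (X := (3 + 3 * ll + ll ^ 2)) (R := (0)) (Q := (0)) (xi3_eq hζ) (lam_pow_dvd hζ (by norm_num)) ?_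
  ring

theorem chain_d4_1 : (hζ.toInteger - 1) ^ 5 ∣ (hζ.toInteger ^ 4) * (xi hζ 2) - (2 + 9 * ll + 5 * ll ^ 2 + 3 * ll ^ 3 + 6 * ll ^ 4) := by
  refine step (P := (1 + 4 * ll + 6 * ll ^ 2 + 4 * ll ^ 3 + ll ^ 4)) (F := (2 + ll)) (R := (ll ^ 2 + ll ^ 3)) (Q := (1)) (zpow_d4 hζ) (xi2_d4 hζ) (lam_pow_dvd hζ (by norm_num)) ?_
  ring

theorem chain_d4_2 : (hζ.toInteger - 1) ^ 5 ∣ ((hζ.toInteger ^ 4) * (xi hζ 2)) * (xi hζ 3) - (6 + 10 * ll ^ 4) := by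
  refine step (P := (2 + 9 * ll + 5 * ll ^ 2 + 3 * ll ^ 3 + 6 * ll ^ 4)) (F := (3 + 3 * ll + ll ^ 2)) (R := (3 * ll + 4 * ll ^ 2 + 3 * ll ^ 3 + 2 * ll ^ 4)) (Q := (21 + 6 * ll)) (chain_d4_1 hζ) (xi3_d4 hζ) (lam_pow_dvd hζ (by norm_num)) ?_
  ring

/-- level 4 unit -/
noncomputable def h4 : 𝓞 K := ((hζ.toInteger ^ 4) * (xi hζ 2)) * (xi hζ 3)

theorem h4_isUnit : IsUnit (h4 hζ) := (((z_isUnit hζ).pow 4).mul (xi_isUnit hζ (by norm_num : Nat.Coprime 2 11))).mul (xi_isUnit hζ (by norm_num : Nat.Coprime 3 11))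

theorem h4_cong : (hζ.toInteger - 1) ^ 5 ∣ h4 hζ - (6 + 10 * (hζ.toInteger - 1) ^ 4) := by
  have h := chain_d4_2 hζ
  have e1 : ((6 : 𝓞 K) + 10 * (hζ.toInteger - 1) ^ 4) = (6 + 10 * ll ^ 4) := by ring
  rw [e1, h4]; exact h

-- ===================== level d = 6 (modulus l^7) : exponents {2: 1, 3: 0, 4: 1, 5: 2}, zeta^5 =====================
theorem zpow_d6 : (hζ.toInteger - 1) ^ 7 ∣ hζ.toInteger ^ 5 - (1 + 5 * ll + 10 * ll ^ 2 + 10 * ll ^ 3 + 5 * ll ^ 4 + ll ^ 5) := by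
  have hz := z_eq hζ
  refine trunc_cong (X := (1 + 5 * ll + 10 * ll ^ 2 + 10 * ll ^ 3 + 5 * ll ^ 4 + ll ^ 5)) (R := (0)) (Q := (0)) ?_ (lam_pow_dvd hζ (by norm_num)) ?_
  · rw [hz]; ring
  · ring

theorem xi2_d6 : (hζ.toInteger - 1) ^ 7 ∣ xi hζ 2 - (2 + ll) := by
  refine trunc_cong (X := (2 + ll)) (R := (0)) (Q := (0)) (xi2_eq hζ) (lam_pow_dvd hζ (by norm_num)) ?_
  ring

theorem xi4_d6 : (hζ.toInteger - 1) ^ 7 ∣ xi hζ 4 - (4 + 6 * ll + 4 * ll ^ 2 + ll ^ 3) := by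
  refine trunc_cong (X := (4 + 6 * ll + 4 * ll ^ 2 + ll ^ 3)) (R := (0)) (Q := (0)) (xi4_eq hζ) (lam_pow_dvd hζ (by norm_num)) ?_
  ring

theorem xi5_d6 : (hζ.toInteger - 1) ^ 7 ∣ xi hζ 5 - (5 + 10 * ll + 10 * ll ^ 2 + 5 * ll ^ 3 + ll ^ 4) := by
  refine trunc_cong (X := (5 + 10 * ll + 10 * ll ^ 2 + 5 * ll ^ 3 + ll ^ 4)) (R := (0)) (Q := (0)) (xi5_eq hζ) (lam_pow_dvd hζ (by norm_num)) ?_
  ring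

theorem chain_d6_1 : (hζ.toInteger - 1) ^ 7 ∣ (hζ.toInteger ^ 5) * (xi hζ 2) - (2 + 3 * ll ^ 2 + 8 * ll ^ 3 + 9 * ll ^ 4 + 7 * ll ^ 5 + ll ^ 6) := by
  refine step (P := (1 + 5 * ll + 10 * ll ^ 2 + 10 * ll ^ 3 + 5 * ll ^ 4 + ll ^ 5)) (F := (2 + ll)) (R := (ll + 2 * ll ^ 2 + 2 * ll ^ 3 + ll ^ 4)) (Q := (0)) (zpow_d6 hζ) (xi2_d6 hζ) (lam_pow_dvd hζ (by norm_num)) ?_
  ring

theorem chain_d6_2 : (hζ.toInteger - 1) ^ 7 ∣ ((hζ.toInteger ^ 5) * (xi hζ 2)) * (xi hζ 4) - (8 + ll + 9 * ll ^ 2 + 8 * ll ^ 3 + 8 * ll ^ 4 + 7 * ll ^ 5 + 2 * ll ^ 6) := by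
  refine step (P := (2 + 3 * ll ^ 2 + 8 * ll ^ 3 + 9 * ll ^ 4 + 7 * ll ^ 5 + ll ^ 6)) (F := (4 + 6 * ll + 4 * ll ^ 2 + ll ^ 3)) (R := (ll + ll ^ 2 + 4 * ll ^ 3 + 8 * ll ^ 4 + 10 * ll ^ 5 + 8 * ll ^ 6)) (Q := (43 + 11 * ll + ll ^ 2)) (chain_d6_1 hζ) (xi4_d6 hζ) (lam_pow_dvd hζ (by norm_num)) ?_
  ring

theorem chain_d6_3 : (hζ.toInteger - 1) ^ 7 ∣ (((hζ.toInteger ^ 5) * (xi hζ 2)) * (xi hζ 4)) * (xi hζ 5) - (7 + 8 * ll + 3 * ll ^ 2 + 4 * ll ^ 3 + 3 * ll ^ 4 + 10 * ll ^ 5) := by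
  refine step (P := (8 + ll + 9 * ll ^ 2 + 8 * ll ^ 3 + 8 * ll ^ 4 + 7 * ll ^ 5 + 2 * ll ^ 6)) (F := (5 + 10 * ll + 10 * ll ^ 2 + 5 * ll ^ 3 + ll ^ 4)) (R := (3 + 7 * ll + 12 * ll ^ 2 + 16 * ll ^ 3 + 20 * ll ^ 4 + 21 * ll ^ 5 + 19 * ll ^ 6)) (Q := (138 + 63 * ll + 17 * ll ^ 2 + 2 * ll ^ 3)) (chain_d6_2 hζ) (xi5_d6 hζ) (lam_pow_dvd hζ (by norm_num)) ?_
  ring

theorem chain_d6_4 : (hζ.toInteger - 1) ^ 7 ∣ ((((hζ.toInteger ^ 5) * (xi hζ 2)) * (xi hζ 4)) * (xi hζ 5)) * (xi hζ 5) - (2 + 10 * ll ^ 6) := by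
  refine step (P := (7 + 8 * ll + 3 * ll ^ 2 + 4 * ll ^ 3 + 3 * ll ^ 4 + 10 * ll ^ 5)) (F := (5 + 10 * ll + 10 * ll ^ 2 + 5 * ll ^ 3 + ll ^ 4)) (R := (3 + 10 * ll + 15 * ll ^ 2 + 15 * ll ^ 3 + 12 * ll ^ 4 + 13 * ll ^ 5 + 13 * ll ^ 6)) (Q := (119 + 53 * ll + 10 * ll ^ 2)) (chain_d6_3 hζ) (xi5_d6 hζ) (lam_pow_dvd hζ (by norm_num)) ?_
  ring

/-- level 6 unit -/
noncomputable def h6 : 𝓞 K := ((((hζ.toInteger ^ 5) * (xi hζ 2)) * (xi hζ 4)) * (xi hζ 5)) * (xi hζ 5)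

theorem h6_isUnit : IsUnit (h6 hζ) := (((((z_isUnit hζ).pow 5).mul (xi_isUnit hζ (by norm_num : Nat.Coprime 2 11))).mul (xi_isUnit hζ (by norm_num : Nat.Coprime 4 11))).mul (xi_isUnit hζ (by norm_num : Nat.Coprime 5 11))).mul (xi_isUnit hζ (by norm_num : Nat.Coprime 5 11))

theorem h6_cong : (hζ.toInteger - 1) ^ 7 ∣ h6 hζ - (2 + 10 * (hζ.toInteger - 1) ^ 6) := by
  have h := chain_d6_4 hζ
  have e1 : ((2 : 𝓞 K) + 10 * (hζ.toInteger - 1) ^ 6) = (2 + 10 * ll ^ 6) := by ring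
  rw [e1, h6]; exact h

-- ===================== level d = 8 (modulus l^9) : exponents {2: 2, 3: -1, 4: -3, 5: -4}, zeta^7 =====================
theorem zpow_d8 : (hζ.toInteger - 1) ^ 9 ∣ hζ.toInteger ^ 7 - (1 + 7 * ll + 10 * ll ^ 2 + 2 * ll ^ 3 + 2 * ll ^ 4 + 10 * ll ^ 5 + 7 * ll ^ 6 + ll ^ 7) := by
  have hz := z_eq hζ
  refine trunc_cong (X := (1 + 7 * ll + 21 * ll ^ 2 + 35 * ll ^ 3 + 35 * ll ^ 4 + 21 * ll ^ 5 + 7 * ll ^ 6 + ll ^ 7)) (R := (ll ^ 2 + 3 * ll ^ 3 + 3 * ll ^ 4 + ll ^ 5)) (Q := (0)) ?_ (lam_pow_dvd hζ (by norm_num)) ?_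
  · rw [hz]; ring
  · ring

theorem xi2_d8 : (hζ.toInteger - 1) ^ 9 ∣ xi hζ 2 - (2 + ll) := by
  refine trunc_cong (X := (2 + ll)) (R := (0)) (Q := (0)) (xi2_eq hζ) (lam_pow_dvd hζ (by norm_num)) ?_
  ring

theorem xi3inv_d8 : (hζ.toInteger - 1) ^ 9 ∣ xi' hζ 3 (by norm_num) - (4 + 7 * ll + 10 * ll ^ 2 + 6 * ll ^ 3 + 9 * ll ^ 4 + 8 * ll ^ 6 + 3 * ll ^ 7 + 9 * ll ^ 8) := by
  refine inv_cong (X := (3 + 3 * ll + ll ^ 2)) (R := (1 + 3 * ll + 5 * ll ^ 2 + 5 * ll ^ 3 + 5 * ll ^ 4 + 3 * ll ^ 5 + 3 * ll ^ 6 + 3 * ll ^ 7 + 4 * ll ^ 8)) (Q := (30 + 9 * ll)) (xi_mul_xi' hζ _) (xi3_eq hζ) (lam_pow_dvd hζ (by norm_num)) ?_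
  ring

theorem xi4inv_d8 : (hζ.toInteger - 1) ^ 9 ∣ xi' hζ 4 (by norm_num) - (3 + ll + ll ^ 2 + 5 * ll ^ 3 + 5 * ll ^ 4 + ll ^ 5 + 6 * ll ^ 6 + 8 * ll ^ 7 + ll ^ 8) := by
  refine inv_cong (X := (4 + 6 * ll + 4 * ll ^ 2 + ll ^ 3)) (R := (1 + 2 * ll + 2 * ll ^ 2 + 3 * ll ^ 3 + 5 * ll ^ 4 + 5 * ll ^ 5 + 5 * ll ^ 6 + 7 * ll ^ 7 + 7 * ll ^ 8)) (Q := (44 + 12 * ll + ll ^ 2)) (xi_mul_xi' hζ _) (xi4_eq hζ) (lam_pow_dvd hζ (by norm_num)) ?_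
  ring

theorem xi5inv_d8 : (hζ.toInteger - 1) ^ 9 ∣ xi' hζ 5 (by norm_num) - (9 + 4 * ll + 7 * ll ^ 2 + 2 * ll ^ 3 + 7 * ll ^ 4 + 5 * ll ^ 5 + 10 * ll ^ 6) := by
  refine inv_cong (X := (5 + 10 * ll + 10 * ll ^ 2 + 5 * ll ^ 3 + ll ^ 4)) (R := (4 + 10 * ll + 15 * ll ^ 2 + 15 * ll ^ 3 + 14 * ll ^ 4 + 14 * ll ^ 5 + 17 * ll ^ 6 + 17 * ll ^ 7 + 12 * ll ^ 8)) (Q := (55 + 10 * ll)) (xi_mul_xi' hζ _) (xi5_eq hζ) (lam_pow_dvd hζ (by norm_num)) ?_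
  ring

theorem chain_d8_1 : (hζ.toInteger - 1) ^ 9 ∣ (hζ.toInteger ^ 7) * (xi hζ 2) - (2 + 4 * ll + 5 * ll ^ 2 + 3 * ll ^ 3 + 6 * ll ^ 4 + 2 * ll ^ 6 + 9 * ll ^ 7 + ll ^ 8) := by
  refine step (P := (1 + 7 * ll + 10 * ll ^ 2 + 2 * ll ^ 3 + 2 * ll ^ 4 + 10 * ll ^ 5 + 7 * ll ^ 6 + ll ^ 7)) (F := (2 + ll)) (R := (ll + 2 * ll ^ 2 + ll ^ 3 + 2 * ll ^ 5 + 2 * ll ^ 6)) (Q := (0)) (zpow_d8 hζ) (xi2_d8 hζ) (lam_pow_dvd hζ (by norm_num)) ?_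
  ring

theorem chain_d8_2 : (hζ.toInteger - 1) ^ 9 ∣ ((hζ.toInteger ^ 7) * (xi hζ 2)) * (xi hζ 2) - (4 + 10 * ll + 3 * ll ^ 2 + 4 * ll ^ 4 + 6 * ll ^ 5 + 4 * ll ^ 6 + 9 * ll ^ 7) := by
  refine step (P := (2 + 4 * ll + 5 * ll ^ 2 + 3 * ll ^ 3 + 6 * ll ^ 4 + 2 * ll ^ 6 + 9 * ll ^ 7 + ll ^ 8)) (F := (2 + ll)) (R := (ll ^ 2 + ll ^ 3 + ll ^ 4 + ll ^ 7 + ll ^ 8)) (Q := (1)) (chain_d8_1 hζ) (xi2_d8 hζ) (lam_pow_dvd hζ (by norm_num)) ?_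
  ring

theorem chain_d8_3 : (hζ.toInteger - 1) ^ 9 ∣ (((hζ.toInteger ^ 7) * (xi hζ 2)) * (xi hζ 2)) * (xi' hζ 3 (by norm_num)) - (5 + 2 * ll + ll ^ 2 + 2 * ll ^ 3 + 10 * ll ^ 4 + 6 * ll ^ 5 + 3 * ll ^ 6 + 9 * ll ^ 7 + ll ^ 8) := by
  refine step (P := (4 + 10 * ll + 3 * ll ^ 2 + 4 * ll ^ 4 + 6 * ll ^ 5 + 4 * ll ^ 6 + 9 * ll ^ 7)) (F := (4 + 7 * ll + 10 * ll ^ 2 + 6 * ll ^ 3 + 9 * ll ^ 4 + 8 * ll ^ 6 + 3 * ll ^ 7 + 9 * ll ^ 8)) (R := (1 + 6 * ll + 11 * ll ^ 2 + 13 * ll ^ 3 + 12 * ll ^ 4 + 14 * ll ^ 5 + 14 * ll ^ 6 + 21 * ll ^ 7 + 24 * ll ^ 8)) (Q := (267 + 149 * ll + 141 * ll ^ 2 + 86 * ll ^ 3 + 138 * ll ^ 4 + 63 * ll ^ 5 + 81 * ll ^ 6)) (chain_d8_2 hζ) (xi3inv_d8 hζ) (lam_pow_dvd hζ (by norm_num)) ?_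
  ring

theorem chain_d8_4 : (hζ.toInteger - 1) ^ 9 ∣ ((((hζ.toInteger ^ 7) * (xi hζ 2)) * (xi hζ 2)) * (xi' hζ 3 (by norm_num))) * (xi' hζ 4 (by norm_num)) - (4 + 10 * ll ^ 2 + ll ^ 3 + 2 * ll ^ 4 + 6 * ll ^ 5 + 6 * ll ^ 6 + 6 * ll ^ 7 + 3 * ll ^ 8) := by
  refine step (P := (5 + 2 * ll + ll ^ 2 + 2 * ll ^ 3 + 10 * ll ^ 4 + 6 * ll ^ 5 + 3 * ll ^ 6 + 9 * ll ^ 7 + ll ^ 8)) (F := (3 + ll + ll ^ 2 + 5 * ll ^ 3 + 5 * ll ^ 4 + ll ^ 5 + 6 * ll ^ 6 + 8 * ll ^ 7 + ll ^ 8)) (R := (1 + ll + 3 * ll ^ 3 + 6 * ll ^ 4 + 4 * ll ^ 5 + 6 * ll ^ 6 + 13 * ll ^ 7 + 11 * ll ^ 8)) (Q := (87 + 144 * ll + 171 * ll ^ 2 + 90 * ll ^ 3 + 85 * ll ^ 4 + 81 * ll ^ 5 + 17 * ll ^ 6 + ll ^ 7)) (chain_d8_3 hζ) (xi4inv_d8 hζ) (lam_pow_dvd hζ (by norm_num)) ?_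
  ring

theorem chain_d8_5 : (hζ.toInteger - 1) ^ 9 ∣ (((((hζ.toInteger ^ 7) * (xi hζ 2)) * (xi hζ 2)) * (xi' hζ 3 (by norm_num))) * (xi' hζ 4 (by norm_num))) * (xi' hζ 4 (by norm_num)) - (1 + 4 * ll + ll ^ 2 + 4 * ll ^ 4 + 9 * ll ^ 5 + 6 * ll ^ 6 + 10 * ll ^ 7 + 5 * ll ^ 8) := by
  refine step (P := (4 + 10 * ll ^ 2 + ll ^ 3 + 2 * ll ^ 4 + 6 * ll ^ 5 + 6 * ll ^ 6 + 6 * ll ^ 7 + 3 * ll ^ 8)) (F := (3 + ll + ll ^ 2 + 5 * ll ^ 3 + 5 * ll ^ 4 + ll ^ 5 + 6 * ll ^ 6 + 8 * ll ^ 7 + ll ^ 8)) (R := (1 + 3 * ll ^ 2 + 3 * ll ^ 3 + 3 * ll ^ 4 + 6 * ll ^ 5 + 9 * ll ^ 6 + 7 * ll ^ 7 + 11 * ll ^ 8)) (Q := (157 + 99 * ll + 104 * ll ^ 2 + 107 * ll ^ 3 + 93 * ll ^ 4 + 72 * ll ^ 5 + 30 * ll ^ 6 + 3 * ll ^ 7)) (chain_d8_4 hζ) (xi4inv_d8 hζ) (lam_pow_dvd hζ (by norm_num)) ?_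
  ring

theorem chain_d8_6 : (hζ.toInteger - 1) ^ 9 ∣ ((((((hζ.toInteger ^ 7) * (xi hζ 2)) * (xi hζ 2)) * (xi' hζ 3 (by norm_num))) * (xi' hζ 4 (by norm_num))) * (xi' hζ 4 (by norm_num))) * (xi' hζ 4 (by norm_num)) - (3 + 2 * ll + 8 * ll ^ 2 + 10 * ll ^ 3 + 5 * ll ^ 4 + 2 * ll ^ 5 + 2 * ll ^ 6 + 10 * ll ^ 7 + 3 * ll ^ 8) := by
  refine step (P := (1 + 4 * ll + ll ^ 2 + 4 * ll ^ 4 + 9 * ll ^ 5 + 6 * ll ^ 6 + 10 * ll ^ 7 + 5 * ll ^ 8)) (F := (3 + ll + ll ^ 2 + 5 * ll ^ 3 + 5 * ll ^ 4 + ll ^ 5 + 6 * ll ^ 6 + 8 * ll ^ 7 + ll ^ 8)) (R := (ll + 3 * ll ^ 4 + 5 * ll ^ 5 + 4 * ll ^ 6 + 8 * ll ^ 7 + 12 * ll ^ 8)) (Q := (106 + 119 * ll + 167 * ll ^ 2 + 147 * ll ^ 3 + 122 * ll ^ 4 + 116 * ll ^ 5 + 50 * ll ^ 6 + 5 * ll ^ 7)) (chain_d8_5 hζ) (xi4inv_d8 hζ) (lam_pow_dvd hζ (by norm_num)) ?_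
  ring

theorem chain_d8_7 : (hζ.toInteger - 1) ^ 9 ∣ (((((((hζ.toInteger ^ 7) * (xi hζ 2)) * (xi hζ 2)) * (xi' hζ 3 (by norm_num))) * (xi' hζ 4 (by norm_num))) * (xi' hζ 4 (by norm_num))) * (xi' hζ 4 (by norm_num))) * (xi' hζ 5 (by norm_num)) - (5 + 8 * ll + 2 * ll ^ 2 + 10 * ll ^ 3 + ll ^ 4 + 10 * ll ^ 5 + ll ^ 6 + 10 * ll ^ 7 + 8 * ll ^ 8) := by
  refine step (P := (3 + 2 * ll + 8 * ll ^ 2 + 10 * ll ^ 3 + 5 * ll ^ 4 + 2 * ll ^ 5 + 2 * ll ^ 6 + 10 * ll ^ 7 + 3 * ll ^ 8)) (F := (9 + 4 * ll + 7 * ll ^ 2 + 2 * ll ^ 3 + 7 * ll ^ 4 + 5 * ll ^ 5 + 10 * ll ^ 6)) (R := (2 + 2 * ll + 9 * ll ^ 2 + 12 * ll ^ 3 + 15 * ll ^ 4 + 13 * ll ^ 5 + 16 * ll ^ 6 + 22 * ll ^ 7 + 22 * ll ^ 8)) (Q := (225 + 115 * ll + 106 * ll ^ 2 + 91 * ll ^ 3 + 115 * ll ^ 4 + 30 * ll ^ 5)) (chain_d8_6 hζ) (xi5inv_d8 hζ)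 (lam_pow_dvd hζ (by norm_num)) ?_
  ring

theorem chain_d8_8 : (hζ.toInteger - 1) ^ 9 ∣ ((((((((hζ.toInteger ^ 7) * (xi hζ 2)) * (xi hζ 2)) * (xi' hζ 3 (by norm_num))) * (xi' hζ 4 (by norm_num))) * (xi' hζ 4 (by norm_num))) * (xi' hζ 4 (by norm_num))) * (xi' hζ 5 (by norm_num))) * (xi' hζ 5 (by norm_num)) - (1 + 4 * ll + 8 * ll ^ 2 + 10 * ll ^ 3 + 4 * ll ^ 4 + 7 * ll ^ 5 + 4 * ll ^ 6 + 7 * ll ^ 7 + 7 * ll ^ 8) := by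
  refine step (P := (5 + 8 * ll + 2 * ll ^ 2 + 10 * ll ^ 3 + ll ^ 4 + 10 * ll ^ 5 + ll ^ 6 + 10 * ll ^ 7 + 8 * ll ^ 8)) (F := (9 + 4 * ll + 7 * ll ^ 2 + 2 * ll ^ 3 + 7 * ll ^ 4 + 5 * ll ^ 5 + 10 * ll ^ 6)) (R := (4 + 8 * ll + 7 * ll ^ 2 + 14 * ll ^ 3 + 10 * ll ^ 4 + 22 * ll ^ 5 + 16 * ll ^ 6 + 29 * ll ^ 7 + 19 * ll ^ 8)) (Q := (279 + 143 * ll + 191 * ll ^ 2 + 116 * ll ^ 3 + 140 * ll ^ 4 + 80 * ll ^ 5)) (chain_d8_7 hζ) (xi5inv_d8 hζ) (lam_pow_dvd hζ (by norm_num)) ?_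
  ring

theorem chain_d8_9 : (hζ.toInteger - 1) ^ 9 ∣ (((((((((hζ.toInteger ^ 7) * (xi hζ 2)) * (xi hζ 2)) * (xi' hζ 3 (by norm_num))) * (xi' hζ 4 (by norm_num))) * (xi' hζ 4 (by norm_num))) * (xi' hζ 4 (by norm_num))) * (xi' hζ 5 (by norm_num))) * (xi' hζ 5 (by norm_num))) * (xi' hζ 5 (by norm_num)) - (9 + 7 * ll + 7 * ll ^ 2 + 9 * ll ^ 3 + 4 * ll ^ 4 + 5 * ll ^ 8) := by
  refine step (P := (1 + 4 * ll + 8 * ll ^ 2 + 10 * ll ^ 3 + 4 * ll ^ 4 + 7 * ll ^ 5 + 4 * ll ^ 6 + 7 * ll ^ 7 + 7 * ll ^ 8)) (F := (9 + 4 * ll + 7 * ll ^ 2 + 2 * ll ^ 3 + 7 * ll ^ 4 + 5 * ll ^ 5 + 10 * ll ^ 6)) (R := (3 * ll + 8 * ll ^ 2 + 13 * ll ^ 3 + 13 * ll ^ 4 + 18 * ll ^ 5 + 18 * ll ^ 6 + 26 * ll ^ 7 + 26 * ll ^ 8)) (Q := (254 + 166 * ll + 153 * ll ^ 2 + 124 * ll ^ 3 + 105 * ll ^ 4 + 70 * ll ^ 5)) (chain_d8_8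 hζ) (xi5inv_d8 hζ) (lam_pow_dvd hζ (by norm_num)) ?_
  ring

theorem chain_d8_10 : (hζ.toInteger - 1) ^ 9 ∣ ((((((((((hζ.toInteger ^ 7) * (xi hζ 2)) * (xi hζ 2)) * (xi' hζ 3 (by norm_num))) * (xi' hζ 4 (by norm_num))) * (xi' hζ 4 (by norm_num))) * (xi' hζ 4 (by norm_num))) * (xi' hζ 5 (by norm_num))) * (xi' hζ 5 (by norm_num))) * (xi' hζ 5 (by norm_num))) * (xi' hζ 5 (by norm_num)) - (4 + ll ^ 8) := by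
  refine step (P := (9 + 7 * ll + 7 * ll ^ 2 + 9 * ll ^ 3 + 4 * ll ^ 4 + 5 * ll ^ 8)) (F := (9 + 4 * ll + 7 * ll ^ 2 + 2 * ll ^ 3 + 7 * ll ^ 4 + 5 * ll ^ 5 + 10 * ll ^ 6)) (R := (7 + 9 * ll + 14 * ll ^ 2 + 16 * ll ^ 3 + 18 * ll ^ 4 + 17 * ll ^ 5 + 20 * ll ^ 6 + 16 * ll ^ 7 + 17 * ll ^ 8)) (Q := (130 + 75 * ll + 10 * ll ^ 2 + 35 * ll ^ 3 + 25 * ll ^ 4 + 50 * ll ^ 5)) (chain_d8_9 hζ) (xi5inv_d8 hζ) (lam_pow_dvd hζ (by norm_num)) ?_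
  ring

/-- level 8 unit -/
noncomputable def h8 : 𝓞 K := ((((((((((hζ.toInteger ^ 7) * (xi hζ 2)) * (xi hζ 2)) * (xi' hζ 3 (by norm_num))) * (xi' hζ 4 (by norm_num))) * (xi' hζ 4 (by norm_num))) * (xi' hζ 4 (by norm_num))) * (xi' hζ 5 (by norm_num))) * (xi' hζ 5 (by norm_num))) * (xi' hζ 5 (by norm_num))) * (xi' hζ 5 (by norm_num))

theorem h8_isUnit : IsUnit (h8 hζ) := (((((((((((z_isUnit hζ).pow 7).mul (xi_isUnit hζ (by norm_num : Nat.Coprime 2 11))).mul (xi_isUnit hζ (by norm_num : Nat.Coprime 2 11))).mul (xi'_isUnit hζ (by norm_num : Nat.Coprime 3 11))).mul (xi'_isUnit hζ (by norm_num : Nat.Coprime 4 11))).mul (xi'_isUnit hζ (by norm_num : Nat.Coprime 4 11))).mul (xi'_isUnit hζ (by norm_num : Nat.Coprime 4 11))).mul (xi'_isUnit hζ (by norm_num : Nat.Coprime 5 11))).mul (xi'_isUnit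 hζ (by norm_num : Nat.Coprime 5 11))).mul (xi'_isUnit hζ (by norm_num : Nat.Coprime 5 11))).mul (xi'_isUnit hζ (by norm_num : Nat.Coprime 5 11))

theorem h8_cong : (hζ.toInteger - 1) ^ 9 ∣ h8 hζ - (4 + 1 * (hζ.toInteger - 1) ^ 8) := by
  have h := chain_d8_10 hζ
  have e1 : ((4 : 𝓞 K) + 1 * (hζ.toInteger - 1) ^ 8) = (4 + ll ^ 8) := by ring
  rw [e1, h8]; exact h

theorem h1_cong : (hζ.toInteger - 1) ^ 2 ∣ hζ.toInteger - (1 + 1 * (hζ.toInteger - 1) ^ 1) := by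
  have : hζ.toInteger - (1 + 1 * (hζ.toInteger - 1) ^ 1) = 0 := by ring
  rw [this]; exact dvd_zero _

/-- Triangular system of units for `p = 11`: units `h j` with
`h j ≡ n j + e j * λ ^ (d j)  mod λ ^ (d j + 1)`, where `λ = ζ - 1`, the levels `d j` are strictly
increasing in `[1, p - 2]` and `p ∤ n j`, `p ∤ e j`. -/
theorem triangular_units :
    ∃ (h : Fin 5 → (𝓞 K)ˣ) (d : Fin 5 → ℕ) (n e : Fin 5 → ℤ),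
      StrictMono d ∧ (∀ j, 1 ≤ d j) ∧ (∀ j, d j ≤ 9) ∧
      (∀ j, ¬ (11 : ℤ) ∣ n j) ∧ (∀ j, ¬ (11 : ℤ) ∣ e j) ∧
      ∀ j, (hζ.toInteger - 1) ^ (d j + 1) ∣
        ((h j : (𝓞 K)ˣ) : 𝓞 K) - ((n j : 𝓞 K) + (e j : 𝓞 K) * (hζ.toInteger - 1) ^ (d j)) := by
  refine ⟨![(z_isUnit hζ).unit, (h2_isUnit hζ).unit, (h4_isUnit hζ).unit, (h6_isUnit hζ).unit, (h8_isUnit hζ).unit],
    ![1, 2, 4, 6, 8], ![1, 5, 6, 2, 4], ![1, 5, 10, 10, 1], ?_, ?_, ?_, ?_, ?_, ?_⟩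
  · intro i j hij
    fin_cases i <;> fin_cases j <;> simp at hij ⊢
  · intro j; fin_cases j <;> simp
  · intro j; fin_cases j <;> simp
  · intro j; fin_cases j <;> simp
  · intro j; fin_cases j <;> simp
  · intro j
    fin_cases j
    · simp

    · simpa using h2_cong hζ
    · simpa using h4_cong hζ
    · simpa using h6_cong hζ
    · simpa using h8_cong hζ

end units

end Fermat.Agent.Lib.Kummer.TriUnits11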