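import Mathlib.NumberTheory.NumberField.Cyclotomic.Ideal
import Mathlib.RingTheory.RootsOfUnity.CyclotomicUnits
import Mathlib.Tactic.NormNum.Prime

set_option autoImplicit false
set_option linter.unusedSectionVars false

namespace Fermat.Agent.Lib.Kummer.TriUnits13

open NumberField Finset

section calculus

variable {A : Type*} [CommRing A]

theorem step {l a b P F P' R Q : A} {m : ℕ} (ha : l ^ m ∣ a - P) (hb : l ^ m ∣ b - F)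
    (hp : l ^ m ∣ (13 : A)) (hid : P * F = P' + 13 * R + l ^ m * Q) : l ^ m ∣ a * b - P' := by
  obtain ⟨u, hu⟩ := ha
  obtain ⟨v, hv⟩ := hb
  obtain ⟨w, hw⟩ := hp
  refine ⟨u * b + P * v + w * R + Q, ?_⟩
  have e1 : a = P + l ^ m * u := by rw [← hu]; ring
  have e2 : F = b - l ^ m * v := by rw [← hv]; ring
  have e3 : P' = P * F - 13 * R - l ^ m * Q := by rw [hid]; ring
  rw [e3, e2, e1, hw]; ring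

theorem inv_cong {l x x' X X' R Q : A} {m : ℕ} (hx : x * x' = 1) (hX : x = X)
    (hp : l ^ m ∣ (13 : A)) (hid : X * X' = 1 + 13 * R + l ^ m * Q) : l ^ m ∣ x' - X' := by
  obtain ⟨w, hw⟩ := hp
  refine ⟨-(x' * (w * R + Q)), ?_⟩
  have e1 : x' - X' = x' * (1 - x * X') := by
    have : x' * (x * X') = (x * x') * X' := by ring
    rw [mul_sub, this, hx]; ring
  rw [e1, hX, hid, hw]; ring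

theorem exact_cong {l x X : A} {m : ℕ} (hX : x = X) : l ^ m ∣ x - X := by
  rw [hX, sub_self]; exact dvd_zero _

theorem trunc_cong {l x X T R Q : A} {m : ℕ} (hX : x = X)
    (hp : l ^ m ∣ (13 : A)) (hid : X = T + 13 * R + l ^ m * Q) : l ^ m ∣ x - T := by
  obtain ⟨w, hw⟩ := hp
  refine ⟨w * R + Q, ?_⟩
  rw [hX, hid, hw]; ring

end calculus

section units

variable {K : Type*} [Field K] [NumberField K] [IsCyclotomicExtension {13} ℚ K]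
  {ζ : K} (hζ : IsPrimitiveRoot ζ 13)

local notation "ll" => (IsPrimitiveRoot.toInteger hζ - 1)


theorem lam_pow_dvd {m : ℕ} (hm : m ≤ 12) : (hζ.toInteger - 1) ^ m ∣ (13 : 𝓞 K) := by
  have : Fact (Nat.Prime 13) := ⟨by norm_num⟩
  have h := (IsCyclotomicExtension.Rat.associated_zeta_sub_one_pow_prime 13 hζ).dvd
  have h2 : (hζ.toInteger - 1) ^ m ∣ (hζ.toInteger - 1) ^ (13 - 1) := pow_dvd_pow _ (by omega)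
  exact_mod_cast h2.trans h

theorem z_eq : hζ.toInteger = (hζ.toInteger - 1) + 1 := by ring

theorem z_pow : hζ.toInteger ^ 13 = 1 := hζ.toInteger_isPrimitiveRoot.pow_eq_one

theorem z_isUnit : IsUnit hζ.toInteger := IsUnit.of_pow_eq_one (z_pow hζ) (by norm_num)

/-- the cyclotomic unit `1 + z + ... + z^(a-1)` -/
noncomputable def xi (a : ℕ) : 𝓞 K := ∑ i ∈ range a, hζ.toInteger ^ i

theorem xi_isUnit {a : ℕ} (ha : a.Coprime 13) : IsUnit (xi hζ a) :=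
  hζ.toInteger_isPrimitiveRoot.geom_sum_isUnit (by norm_num) ha

/-- the inverse of `xi a` -/
noncomputable def xi' (a : ℕ) (ha : a.Coprime 13) : 𝓞 K := ((xi_isUnit hζ ha).unit⁻¹ : (𝓞 K)ˣ)

theorem xi_mul_xi' {a : ℕ} (ha : a.Coprime 13) : xi hζ a * xi' hζ a ha = 1 := by
  unfold xi'
  exact (xi_isUnit hζ ha).mul_val_inv

theorem xi'_isUnit {a : ℕ} (ha : a.Coprime 13) : IsUnit (xi' hζ a ha) :=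
  ((xi_isUnit hζ ha).unit⁻¹).isUnit

theorem xi2_eq : xi hζ 2 = (2 + ll) := by
  have hz := z_eq hζ
  simp only [xi, sum_range_succ, range_zero, sum_empty]
  rw [hz]; ring

theorem xi3_eq : xi hζ 3 = (3 + 3 * ll + ll ^ 2) := by
  have hz := z_eq hζ
  simp only [xi, sum_range_succ, range_zero, sum_empty]
  rw [hz]; ring

theorem xi4_eq : xi hζ 4 = (4 + 6 * ll + 4 * ll ^ 2 + ll ^ 3) := by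
  have hz := z_eq hζ
  simp only [xi, sum_range_succ, range_zero, sum_empty]
  rw [hz]; ring

theorem xi5_eq : xi hζ 5 = (5 + 10 * ll + 10 * ll ^ 2 + 5 * ll ^ 3 + ll ^ 4) := by
  have hz := z_eq hζ
  simp only [xi, sum_range_succ, range_zero, sum_empty]
  rw [hz]; ring

theorem xi6_eq : xi hζ 6 = (6 + 15 * ll + 20 * ll ^ 2 + 15 * ll ^ 3 + 6 * ll ^ 4 + ll ^ 5) := by
  have hz := z_eq hζ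
  simp only [xi, sum_range_succ, range_zero, sum_empty]
  rw [hz]; ring

-- ===================== level d = 2 (modulus l^3) : exponents {2: 0, 3: 0, 4: 0, 5: 0, 6: 1}, zeta^4 =====================
theorem zpow_d2 : (hζ.toInteger - 1) ^ 3 ∣ hζ.toInteger ^ 4 - (1 + 4 * ll + 6 * ll ^ 2) := by
  have hz := z_eq hζ
  refine trunc_cong (X := (1 + 4 * ll + 6 * ll ^ 2 + 4 * ll ^ 3 + ll ^ 4)) (R := (0)) (Q := (4 + ll)) ?_ (lam_pow_dvd hζ (by norm_num)) ?_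
  · rw [hz]; ring
  · ring

theorem xi6_d2 : (hζ.toInteger - 1) ^ 3 ∣ xi hζ 6 - (6 + 2 * ll + 7 * ll ^ 2) := by
  refine trunc_cong (X := (6 + 15 * ll + 20 * ll ^ 2 + 15 * ll ^ 3 + 6 * ll ^ 4 + ll ^ 5)) (R := (ll + ll ^ 2)) (Q := (15 + 6 * ll + ll ^ 2)) (xi6_eq hζ) (lam_pow_dvd hζ (by norm_num)) ?_
  ring

theorem chain_d2_1 : (hζ.toInteger - 1) ^ 3 ∣ (hζ.toInteger ^ 4) * (xi hζ 6) - (6 + 12 * ll ^ 2) := by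
  refine step (P := (1 + 4 * ll + 6 * ll ^ 2)) (F := (6 + 2 * ll + 7 * ll ^ 2)) (R := (2 * ll + 3 * ll ^ 2)) (Q := (40 + 42 * ll)) (zpow_d2 hζ) (xi6_d2 hζ) (lam_pow_dvd hζ (by norm_num)) ?_
  ring

/-- level 2 unit -/
noncomputable def h2 : 𝓞 K := (hζ.toInteger ^ 4) * (xi hζ 6)

theorem h2_isUnit : IsUnit (h2 hζ) := ((z_isUnit hζ).pow 4).mul (xi_isUnit hζ (by norm_num : Nat.Coprime 6 13))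

theorem h2_cong : (hζ.toInteger - 1) ^ 3 ∣ h2 hζ - (6 + 12 * (hζ.toInteger - 1) ^ 2) := by
  have h := chain_d2_1 hζ
  have e1 : ((6 : 𝓞 K) + 12 * (hζ.toInteger - 1) ^ 2) = (6 + 12 * ll ^ 2) := by ring
  rw [e1, h2]; exact h

-- ===================== level d = 4 (modulus l^5) : exponents {2: 0, 3: 0, 4: 1, 5: 1, 6: 0}, zeta^3 =====================
theorem zpow_d4 : (hζ.toInteger - 1) ^ 5 ∣ hζ.toInteger ^ 3 - (1 + 3 * ll + 3 * ll ^ 2 + ll ^ 3) := by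
  have hz := z_eq hζ
  refine trunc_cong (X := (1 + 3 * ll + 3 * ll ^ 2 + ll ^ 3)) (R := (0)) (Q := (0)) ?_ (lam_pow_dvd hζ (by norm_num)) ?_
  · rw [hz]; ring
  · ring

theorem xi4_d4 : (hζ.toInteger - 1) ^ 5 ∣ xi hζ 4 - (4 + 6 * ll + 4 * ll ^ 2 + ll ^ 3) := by
  refine trunc_cong (X := (4 + 6 * ll + 4 * ll ^ 2 + ll ^ 3)) (R := (0)) (Q := (0)) (xi4_eq hζ) (lam_pow_dvd hζ (by norm_num)) ?_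
  ring

theorem xi5_d4 : (hζ.toInteger - 1) ^ 5 ∣ xi hζ 5 - (5 + 10 * ll + 10 * ll ^ 2 + 5 * ll ^ 3 + ll ^ 4) := by
  refine trunc_cong (X := (5 + 10 * ll + 10 * ll ^ 2 + 5 * ll ^ 3 + ll ^ 4)) (R := (0)) (Q := (0)) (xi5_eq hζ) (lam_pow_dvd hζ (by norm_num)) ?_
  ring

theorem chain_d4_1 : (hζ.toInteger - 1) ^ 5 ∣ (hζ.toInteger ^ 3) * (xi hζ 4) - (4 + 5 * ll + 8 * ll ^ 2 + 9 * ll ^ 3 + 8 * ll ^ 4) := by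
  refine step (P := (1 + 3 * ll + 3 * ll ^ 2 + ll ^ 3)) (F := (4 + 6 * ll + 4 * ll ^ 2 + ll ^ 3)) (R := (ll + 2 * ll ^ 2 + 2 * ll ^ 3 + ll ^ 4)) (Q := (7 + ll)) (zpow_d4 hζ) (xi4_d4 hζ) (lam_pow_dvd hζ (by norm_num)) ?_
  ring

theorem chain_d4_2 : (hζ.toInteger - 1) ^ 5 ∣ ((hζ.toInteger ^ 3) * (xi hζ 4)) * (xi hζ 5) - (7 + 5 * ll ^ 4) := by
  refine step (P := (4 + 5 * ll + 8 * ll ^ 2 + 9 * ll ^ 3 + 8 * ll ^ 4)) (F := (5 + 10 * ll + 10 * ll ^ 2 + 5 * ll ^ 3 + ll ^ 4)) (R := (1 + 5 * ll + 10 * ll ^ 2 + 15 * ll ^ 3 + 18 * ll ^ 4)) (Q := (215 + 133 * ll + 49 * ll ^ 2 + 8 * ll ^ 3)) (chain_d4_1 hζ) (xi5_d4 hζ) (lam_pow_dvd hζ (by norm_num)) ?_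
  ring

/-- level 4 unit -/
noncomputable def h4 : 𝓞 K := ((hζ.toInteger ^ 3) * (xi hζ 4)) * (xi hζ 5)

theorem h4_isUnit : IsUnit (h4 hζ) := (((z_isUnit hζ).pow 3).mul (xi_isUnit hζ (by norm_num : Nat.Coprime 4 13))).mul (xi_isUnit hζ (by norm_num : Nat.Coprime 5 13))

theorem h4_cong : (hζ.toInteger - 1) ^ 5 ∣ h4 hζ - (7 + 5 * (hζ.toInteger - 1) ^ 4) := by
  have h := chain_d4_2 hζ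
  have e1 : ((7 : 𝓞 K) + 5 * (hζ.toInteger - 1) ^ 4) = (7 + 5 * ll ^ 4) := by ring
  rw [e1, h4]; exact h

-- ===================== level d = 6 (modulus l^7) : exponents {2: 0, 3: 0, 4: 1, 5: 3, 6: -1}, zeta^8 =====================
theorem zpow_d6 : (hζ.toInteger - 1) ^ 7 ∣ hζ.toInteger ^ 8 - (1 + 8 * ll + 2 * ll ^ 2 + 4 * ll ^ 3 + 5 * ll ^ 4 + 4 * ll ^ 5 + 2 * ll ^ 6) := by
  have hz := z_eq hζ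
  refine trunc_cong (X := (1 + 8 * ll + 28 * ll ^ 2 + 56 * ll ^ 3 + 70 * ll ^ 4 + 56 * ll ^ 5 + 28 * ll ^ 6 + 8 * ll ^ 7 + ll ^ 8)) (R := (2 * ll ^ 2 + 4 * ll ^ 3 + 5 * ll ^ 4 + 4 * ll ^ 5 + 2 * ll ^ 6)) (Q := (8 + ll)) ?_ (lam_pow_dvd hζ (by norm_num)) ?_
  · rw [hz]; ring
  · ring

theorem xi4_d6 : (hζ.toInteger - 1) ^ 7 ∣ xi hζ 4 - (4 + 6 * ll + 4 * ll ^ 2 + ll ^ 3) := by
  refine trunc_cong (X := (4 + 6 * ll + 4 * ll ^ 2 + ll ^ 3)) (R := (0)) (Q := (0)) (xi4_eq hζ) (lam_pow_dvd hζ (by norm_num)) ?_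
  ring

theorem xi5_d6 : (hζ.toInteger - 1) ^ 7 ∣ xi hζ 5 - (5 + 10 * ll + 10 * ll ^ 2 + 5 * ll ^ 3 + ll ^ 4) := by
  refine trunc_cong (X := (5 + 10 * ll + 10 * ll ^ 2 + 5 * ll ^ 3 + ll ^ 4)) (R := (0)) (Q := (0)) (xi5_eq hζ) (lam_pow_dvd hζ (by norm_num)) ?_
  ring

theorem xi6inv_d6 : (hζ.toInteger - 1) ^ 7 ∣ xi' hζ 6 (by norm_num) - (11 + 5 * ll + 5 * ll ^ 2 + 4 * ll ^ 3 + 4 * ll ^ 4 + 5 * ll ^ 5 + 6 * ll ^ 6) := by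
  refine inv_cong (X := (6 + 15 * ll + 20 * ll ^ 2 + 15 * ll ^ 3 + 6 * ll ^ 4 + ll ^ 5)) (R := (5 + 15 * ll + 25 * ll ^ 2 + 28 * ll ^ 3 + 25 * ll ^ 4 + 22 * ll ^ 5 + 22 * ll ^ 6)) (Q := (279 + 223 * ll + 124 * ll ^ 2 + 41 * ll ^ 3 + 6 * ll ^ 4)) (xi_mul_xi' hζ _) (xi6_eq hζ) (lam_pow_dvd hζ (by norm_num)) ?_
  ring

theorem chain_d6_1 : (hζ.toInteger - 1) ^ 7 ∣ (hζ.toInteger ^ 8) * (xi hζ 4) - (4 + 12 * ll + 8 * ll ^ 2 + 9 * ll ^ 3 + 8 * ll ^ 4 + 12 * ll ^ 5 + 4 * ll ^ 6) := by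
  refine step (P := (1 + 8 * ll + 2 * ll ^ 2 + 4 * ll ^ 3 + 5 * ll ^ 4 + 4 * ll ^ 5 + 2 * ll ^ 6)) (F := (4 + 6 * ll + 4 * ll ^ 2 + ll ^ 3)) (R := (2 * ll + 4 * ll ^ 2 + 4 * ll ^ 3 + 4 * ll ^ 4 + 4 * ll ^ 5 + 4 * ll ^ 6)) (Q := (33 + 12 * ll + 2 * ll ^ 2)) (zpow_d6 hζ) (xi4_d6 hζ) (lam_pow_dvd hζ (by norm_num)) ?_
  ring

theorem chain_d6_2 : (hζ.toInteger - 1) ^ 7 ∣ ((hζ.toInteger ^ 8) * (xi hζ 4)) * (xi hζ 5) - (7 + 9 * ll + 5 * ll ^ 2 + 5 * ll ^ 3 + ll ^ 4 + 9 * ll ^ 5) := by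
  refine step (P := (4 + 12 * ll + 8 * ll ^ 2 + 9 * ll ^ 3 + 8 * ll ^ 4 + 12 * ll ^ 5 + 4 * ll ^ 6)) (F := (5 + 10 * ll + 10 * ll ^ 2 + 5 * ll ^ 3 + ll ^ 4)) (R := (1 + 7 * ll + 15 * ll ^ 2 + 20 * ll ^ 3 + 21 * ll ^ 4 + 21 * ll ^ 5 + 21 * ll ^ 6)) (Q := (209 + 108 * ll + 32 * ll ^ 2 + 4 * ll ^ 3)) (chain_d6_1 hζ) (xi5_d6 hζ) (lam_pow_dvd hζ (by norm_num)) ?_
  ring

theorem chain_d6_3 : (hζ.toInteger - 1) ^ 7 ∣ (((hζ.toInteger ^ 8) * (xi hζ 4)) * (xi hζ 5)) * (xi hζ 5) - (9 + 11 * ll + 3 * ll ^ 2 + 5 * ll ^ 3 + ll ^ 4 + 9 * ll ^ 5) := by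
  refine step (P := (7 + 9 * ll + 5 * ll ^ 2 + 5 * ll ^ 3 + ll ^ 4 + 9 * ll ^ 5)) (F := (5 + 10 * ll + 10 * ll ^ 2 + 5 * ll ^ 3 + ll ^ 4)) (R := (2 + 8 * ll + 14 * ll ^ 2 + 15 * ll ^ 3 + 12 * ll ^ 4 + 10 * ll ^ 5 + 10 * ll ^ 6)) (Q := (100 + 46 * ll + 9 * ll ^ 2)) (chain_d6_2 hζ) (xi5_d6 hζ) (lam_pow_dvd hζ (by norm_num)) ?_
  ring

theorem chain_d6_4 : (hζ.toInteger - 1) ^ 7 ∣ ((((hζ.toInteger ^ 8) * (xi hζ 4)) * (xi hζ 5)) * (xi hζ 5)) * (xi hζ 5) - (6 + 2 * ll + 7 * ll ^ 2 + 2 * ll ^ 3 + 6 * ll ^ 4 + ll ^ 5 + 11 * ll ^ 6) := by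
  refine step (P := (9 + 11 * ll + 3 * ll ^ 2 + 5 * ll ^ 3 + ll ^ 4 + 9 * ll ^ 5)) (F := (5 + 10 * ll + 10 * ll ^ 2 + 5 * ll ^ 3 + ll ^ 4)) (R := (3 + 11 * ll + 16 * ll ^ 2 + 16 * ll ^ 3 + 11 * ll ^ 4 + 10 * ll ^ 5 + 9 * ll ^ 6)) (Q := (100 + 46 * ll + 9 * ll ^ 2)) (chain_d6_3 hζ) (xi5_d6 hζ) (lam_pow_dvd hζ (by norm_num)) ?_
  ring

theorem chain_d6_5 : (hζ.toInteger - 1) ^ 7 ∣ (((((hζ.toInteger ^ 8) * (xi hζ 4)) * (xi hζ 5)) * (xi hζ 5)) * (xi hζ 5)) * (xi' hζ 6 (by norm_num)) - (1 + 4 * ll ^ 6) := by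
  refine step (P := (6 + 2 * ll + 7 * ll ^ 2 + 2 * ll ^ 3 + 6 * ll ^ 4 + ll ^ 5 + 11 * ll ^ 6)) (F := (11 + 5 * ll + 5 * ll ^ 2 + 4 * ll ^ 3 + 4 * ll ^ 4 + 5 * ll ^ 5 + 6 * ll ^ 6)) (R := (5 + 4 * ll + 9 * ll ^ 2 + 7 * ll ^ 3 + 11 * ll ^ 4 + 9 * ll ^ 5 + 18 * ll ^ 6)) (Q := (139 + 135 * ll + 90 * ll ^ 2 + 85 * ll ^ 3 + 61 * ll ^ 4 + 66 * ll ^ 5)) (chain_d6_4 hζ) (xi6inv_d6 hζ) (lam_pow_dvd hζ (by norm_num)) ?_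
  ring

/-- level 6 unit -/
noncomputable def h6 : 𝓞 K := (((((hζ.toInteger ^ 8) * (xi hζ 4)) * (xi hζ 5)) * (xi hζ 5)) * (xi hζ 5)) * (xi' hζ 6 (by norm_num))

theorem h6_isUnit : IsUnit (h6 hζ) := ((((((z_isUnit hζ).pow 8).mul (xi_isUnit hζ (by norm_num : Nat.Coprime 4 13))).mul (xi_isUnit hζ (by norm_num : Nat.Coprime 5 13))).mul (xi_isUnit hζ (by norm_num : Nat.Coprime 5 13))).mul (xi_isUnit hζ (by norm_num : Nat.Coprime 5 13))).mul (xi'_isUnit hζ (by norm_num : Nat.Coprime 6 13))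

theorem h6_cong : (hζ.toInteger - 1) ^ 7 ∣ h6 hζ - (1 + 4 * (hζ.toInteger - 1) ^ 6) := by
  have h := chain_d6_5 hζ
  have e1 : ((1 : 𝓞 K) + 4 * (hζ.toInteger - 1) ^ 6) = (1 + 4 * ll ^ 6) := by ring
  rw [e1, h6]; exact h

-- ===================== level d = 8 (modulus l^9) : exponents {2: 1, 3: -2, 4: -2, 5: 0, 6: -1}, zeta^7 =====================
theorem zpow_d8 : (hζ.toInteger - 1) ^ 9 ∣ hζ.toInteger ^ 7 - (1 + 7 * ll + 8 * ll ^ 2 + 9 * ll ^ 3 + 9 * ll ^ 4 + 8 * ll ^ 5 + 7 * ll ^ 6 + ll ^ 7) := by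
  have hz := z_eq hζ
  refine trunc_cong (X := (1 + 7 * ll + 21 * ll ^ 2 + 35 * ll ^ 3 + 35 * ll ^ 4 + 21 * ll ^ 5 + 7 * ll ^ 6 + ll ^ 7)) (R := (ll ^ 2 + 2 * ll ^ 3 + 2 * ll ^ 4 + ll ^ 5)) (Q := (0)) ?_ (lam_pow_dvd hζ (by norm_num)) ?_
  · rw [hz]; ring
  · ring

theorem xi2_d8 : (hζ.toInteger - 1) ^ 9 ∣ xi hζ 2 - (2 + ll) := by
  refine trunc_cong (X := (2 + ll)) (R := (0)) (Q := (0)) (xi2_eq hζ) (lam_pow_dvd hζ (by norm_num)) ?_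
  ring

theorem xi3inv_d8 : (hζ.toInteger - 1) ^ 9 ∣ xi' hζ 3 (by norm_num) - (9 + 4 * ll + 6 * ll ^ 2 + 10 * ll ^ 3 + ll ^ 4 + 4 * ll ^ 6 + 9 * ll ^ 7 + 7 * ll ^ 8) := by
  refine inv_cong (X := (3 + 3 * ll + ll ^ 2)) (R := (2 + 3 * ll + 3 * ll ^ 2 + 4 * ll ^ 3 + 3 * ll ^ 4 + ll ^ 5 + ll ^ 6 + 3 * ll ^ 7 + 4 * ll ^ 8)) (Q := (30 + 7 * ll)) (xi_mul_xi' hζ _) (xi3_eq hζ) (lam_pow_dvd hζ (by norm_num)) ?_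
  ring

theorem xi4inv_d8 : (hζ.toInteger - 1) ^ 9 ∣ xi' hζ 4 (by norm_num) - (10 + 11 * ll + 6 * ll ^ 2 + 10 * ll ^ 3 + 12 * ll ^ 4 + 3 * ll ^ 5 + 7 * ll ^ 6 + 3 * ll ^ 7 + 4 * ll ^ 8) := by
  refine inv_cong (X := (4 + 6 * ll + 4 * ll ^ 2 + ll ^ 3)) (R := (3 + 8 * ll + 10 * ll ^ 2 + 10 * ll ^ 3 + 11 * ll ^ 4 + 10 * ll ^ 5 + 8 * ll ^ 6 + 6 * ll ^ 7 + 5 * ll ^ 8)) (Q := (43 + 19 * ll + 4 * ll ^ 2)) (xi_mul_xi' hζ _) (xi4_eq hζ) (lam_pow_dvd hζ (by norm_num)) ?_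
  ring

theorem xi6inv_d8 : (hζ.toInteger - 1) ^ 9 ∣ xi' hζ 6 (by norm_num) - (11 + 5 * ll + 5 * ll ^ 2 + 4 * ll ^ 3 + 4 * ll ^ 4 + 5 * ll ^ 5 + 6 * ll ^ 6 + 12 * ll ^ 7) := by
  refine inv_cong (X := (6 + 15 * ll + 20 * ll ^ 2 + 15 * ll ^ 3 + 6 * ll ^ 4 + ll ^ 5)) (R := (5 + 15 * ll + 25 * ll ^ 2 + 28 * ll ^ 3 + 25 * ll ^ 4 + 22 * ll ^ 5 + 22 * ll ^ 6 + 27 * ll ^ 7 + 31 * ll ^ 8)) (Q := (364 + 221 * ll + 78 * ll ^ 2 + 12 * ll ^ 3)) (xi_mul_xi' hζ _) (xi6_eq hζ) (lam_pow_dvd hζ (by norm_num)) ?_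
  ring

theorem chain_d8_1 : (hζ.toInteger - 1) ^ 9 ∣ (hζ.toInteger ^ 7) * (xi hζ 2) - (2 + 2 * ll + 10 * ll ^ 2 + ll ^ 4 + 12 * ll ^ 5 + 9 * ll ^ 6 + 9 * ll ^ 7 + ll ^ 8) := by
  refine step (P := (1 + 7 * ll + 8 * ll ^ 2 + 9 * ll ^ 3 + 9 * ll ^ 4 + 8 * ll ^ 5 + 7 * ll ^ 6 + ll ^ 7)) (F := (2 + ll)) (R := (ll + ll ^ 2 + 2 * ll ^ 3 + 2 * ll ^ 4 + ll ^ 5 + ll ^ 6)) (Q := (0)) (zpow_d8 hζ) (xi2_d8 hζ) (lam_pow_dvd hζ (by norm_num)) ?_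
  ring

theorem chain_d8_2 : (hζ.toInteger - 1) ^ 9 ∣ ((hζ.toInteger ^ 7) * (xi hζ 2)) * (xi' hζ 3 (by norm_num)) - (5 + 6 * ll ^ 2 + 7 * ll ^ 3 + 6 * ll ^ 5 + 10 * ll ^ 6 + 4 * ll ^ 7 + 6 * ll ^ 8) := by
  refine step (P := (2 + 2 * ll + 10 * ll ^ 2 + ll ^ 4 + 12 * ll ^ 5 + 9 * ll ^ 6 + 9 * ll ^ 7 + ll ^ 8)) (F := (9 + 4 * ll + 6 * ll ^ 2 + 10 * ll ^ 3 + ll ^ 4 + 4 * ll ^ 6 + 9 * ll ^ 7 + 7 * ll ^ 8)) (R := (1 + 2 * ll + 8 * ll ^ 2 + 5 * ll ^ 3 + 7 * ll ^ 4 + 16 * ll ^ 5 + 11 * ll ^ 6 + 17 * ll ^ 7 + 22 * ll ^ 8)) (Q := (264 + 179 * ll + 76 * ll ^ 2 + 152 * ll ^ 3 + 201 * ll ^ 4 + 148 * ll ^ 5 + 72 * ll ^ 6 + 7 * ll ^ 7)) (chain_d8_1 hζ) (xi3inv_d8 hζ) (lam_pow_dvd hζ (by norm_num)) ?_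
  ring

theorem chain_d8_3 : (hζ.toInteger - 1) ^ 9 ∣ (((hζ.toInteger ^ 7) * (xi hζ 2)) * (xi' hζ 3 (by norm_num))) * (xi' hζ 3 (by norm_num)) - (6 + 7 * ll + 6 * ll ^ 2 + 7 * ll ^ 3 + 4 * ll ^ 4 + 2 * ll ^ 6 + 8 * ll ^ 7 + 2 * ll ^ 8) := by
  refine step (P := (5 + 6 * ll ^ 2 + 7 * ll ^ 3 + 6 * ll ^ 5 + 10 * ll ^ 6 + 4 * ll ^ 7 + 6 * ll ^ 8)) (F := (9 + 4 * ll + 6 * ll ^ 2 + 10 * ll ^ 3 + ll ^ 4 + 4 * ll ^ 6 + 9 * ll ^ 7 + 7 * ll ^ 8)) (R := (3 + ll + 6 * ll ^ 2 + 10 * ll ^ 3 + 5 * ll ^ 4 + 12 * ll ^ 5 + 16 * ll ^ 6 + 12 * ll ^ 7 + 19 * ll ^ 8)) (Q := (236 + 191 * ll + 137 * ll ^ 2 + 100 * ll ^ 3 + 148 * ll ^ 4 + 130 * ll ^ 5 + 82 * ll ^ 6 + 42 * ll ^ 7)) (chain_d8_2 hζ) (xi3inv_d8 hζ) (lam_pow_dvd hζ (by norm_num)) ?_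
  ring

theorem chain_d8_4 : (hζ.toInteger - 1) ^ 9 ∣ ((((hζ.toInteger ^ 7) * (xi hζ 2)) * (xi' hζ 3 (by norm_num))) * (xi' hζ 3 (by norm_num))) * (xi' hζ 4 (by norm_num)) - (8 + 6 * ll + 4 * ll ^ 2 + 4 * ll ^ 3 + 9 * ll ^ 4 + ll ^ 5 + 2 * ll ^ 6 + 12 * ll ^ 7 + 3 * ll ^ 8) := by
  refine step (P := (6 + 7 * ll + 6 * ll ^ 2 + 7 * ll ^ 3 + 4 * ll ^ 4 + 2 * ll ^ 6 + 8 * ll ^ 7 + 2 * ll ^ 8)) (F := (10 + 11 * ll + 6 * ll ^ 2 + 10 * ll ^ 3 + 12 * ll ^ 4 + 3 * ll ^ 5 + 7 * ll ^ 6 + 3 * ll ^ 7 + 4 * ll ^ 8)) (R := (4 + 10 * ll + 13 * ll ^ 2 + 18 * ll ^ 3 + 22 * ll ^ 4 + 19 * ll ^ 5 + 19 * ll ^ 6 + 23 * ll ^ 7 + 21 * ll ^ 8)) (Q := (197 + 189 * ll + 162 * ll ^ 2 + 78 * ll ^ 3 + 68 * ll ^ 4 + 46 * ll ^ 5 + 38 * ll ^ 6 + 8 * ll ^ 7)) (chain_d8_3 hζ) (xi4inv_d8 hζ) (lam_pow_dvd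 hζ (by norm_num)) ?_
  ring

theorem chain_d8_5 : (hζ.toInteger - 1) ^ 9 ∣ (((((hζ.toInteger ^ 7) * (xi hζ 2)) * (xi' hζ 3 (by norm_num))) * (xi' hζ 3 (by norm_num))) * (xi' hζ 4 (by norm_num))) * (xi' hζ 4 (by norm_num)) - (2 + 5 * ll + 11 * ll ^ 2 + 5 * ll ^ 3 + 2 * ll ^ 4 + 9 * ll ^ 5 + 5 * ll ^ 8) := by
  refine step (P := (8 + 6 * ll + 4 * ll ^ 2 + 4 * ll ^ 3 + 9 * ll ^ 4 + ll ^ 5 + 2 * ll ^ 6 + 12 * ll ^ 7 + 3 * ll ^ 8)) (F := (10 + 11 * ll + 6 * ll ^ 2 + 10 * ll ^ 3 + 12 * ll ^ 4 + 3 * ll ^ 5 + 7 * ll ^ 6 + 3 * ll ^ 7 + 4 * ll ^ 8)) (R := (6 + 11 * ll + 11 * ll ^ 2 + 15 * ll ^ 3 + 24 * ll ^ 4 + 20 * ll ^ 5 + 19 * ll ^ 6 + 28 * ll ^ 7 + 29 * ll ^ 8)) (Q := (228 + 256 * ll + 230 * ll ^ 2 + 125 * ll ^ 3 + 103 * ll ^ 4 + 65 * ll ^ 5 + 57 * ll ^ 6 + 12 * ll ^ 7))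 (chain_d8_4 hζ) (xi4inv_d8 hζ) (lam_pow_dvd hζ (by norm_num)) ?_
  ring

theorem chain_d8_6 : (hζ.toInteger - 1) ^ 9 ∣ ((((((hζ.toInteger ^ 7) * (xi hζ 2)) * (xi' hζ 3 (by norm_num))) * (xi' hζ 3 (by norm_num))) * (xi' hζ 4 (by norm_num))) * (xi' hζ 4 (by norm_num))) * (xi' hζ 6 (by norm_num)) - (9 + 3 * ll ^ 8) := by
  refine step (P := (2 + 5 * ll + 11 * ll ^ 2 + 5 * ll ^ 3 + 2 * ll ^ 4 + 9 * ll ^ 5 + 5 * ll ^ 8)) (F := (11 + 5 * ll + 5 * ll ^ 2 + 4 * ll ^ 3 + 4 * ll ^ 4 + 5 * ll ^ 5 + 6 * ll ^ 6 + 12 * ll ^ 7)) (R := (1 + 5 * ll + 12 * ll ^ 2 + 11 * ll ^ 3 + 10 * ll ^ 4 + 16 * ll ^ 5 + 12 * ll ^ 6 + 14 * ll ^ 7 + 19 * ll ^ 8)) (Q := (233 + 142 * ll + 98 * ll ^ 2 + 128 * ll ^ 3 + 25 * ll ^ 4 + 30 * ll ^ 5 + 60 * ll ^ 6)) (chain_d8_5 hζ) (xi6inv_d8 hζ) (lam_pow_dvd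 hζ (by norm_num)) ?_
  ring

/-- level 8 unit -/
noncomputable def h8 : 𝓞 K := ((((((hζ.toInteger ^ 7) * (xi hζ 2)) * (xi' hζ 3 (by norm_num))) * (xi' hζ 3 (by norm_num))) * (xi' hζ 4 (by norm_num))) * (xi' hζ 4 (by norm_num))) * (xi' hζ 6 (by norm_num))

theorem h8_isUnit : IsUnit (h8 hζ) := (((((((z_isUnit hζ).pow 7).mul (xi_isUnit hζ (by norm_num : Nat.Coprime 2 13))).mul (xi'_isUnit hζ (by norm_num : Nat.Coprime 3 13))).mul (xi'_isUnit hζ (by norm_num : Nat.Coprime 3 13))).mul (xi'_isUnit hζ (by norm_num : Nat.Coprime 4 13))).mul (xi'_isUnit hζ (by norm_num : Nat.Coprime 4 13))).mul (xi'_isUnit hζ (by norm_num : Nat.Coprime 6 13))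

theorem h8_cong : (hζ.toInteger - 1) ^ 9 ∣ h8 hζ - (9 + 3 * (hζ.toInteger - 1) ^ 8) := by
  have h := chain_d8_6 hζ
  have e1 : ((9 : 𝓞 K) + 3 * (hζ.toInteger - 1) ^ 8) = (9 + 3 * ll ^ 8) := by ring
  rw [e1, h8]; exact h

-- ===================== level d = 10 (modulus l^11) : exponents {2: 3, 3: -3, 4: -1, 5: -4, 6: 1}, zeta^2 =====================
theorem zpow_d10 : (hζ.toInteger - 1) ^ 11 ∣ hζ.toInteger ^ 2 - (1 + 2 * ll + ll ^ 2) := by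
  have hz := z_eq hζ
  refine trunc_cong (X := (1 + 2 * ll + ll ^ 2)) (R := (0)) (Q := (0)) ?_ (lam_pow_dvd hζ (by norm_num)) ?_
  · rw [hz]; ring
  · ring

theorem xi2_d10 : (hζ.toInteger - 1) ^ 11 ∣ xi hζ 2 - (2 + ll) := by
  refine trunc_cong (X := (2 + ll)) (R := (0)) (Q := (0)) (xi2_eq hζ) (lam_pow_dvd hζ (by norm_num)) ?_
  ring

theorem xi3inv_d10 : (hζ.toInteger - 1) ^ 11 ∣ xi' hζ 3 (by norm_num) - (9 + 4 * ll + 6 * ll ^ 2 + 10 * ll ^ 3 + ll ^ 4 + 4 * ll ^ 6 + 9 * ll ^ 7 + 7 * ll ^ 8 + 3 * ll ^ 9 + 12 * ll ^ 10) := by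
  refine inv_cong (X := (3 + 3 * ll + ll ^ 2)) (R := (2 + 3 * ll + 3 * ll ^ 2 + 4 * ll ^ 3 + 3 * ll ^ 4 + ll ^ 5 + ll ^ 6 + 3 * ll ^ 7 + 4 * ll ^ 8 + 3 * ll ^ 9 + 4 * ll ^ 10)) (Q := (39 + 12 * ll)) (xi_mul_xi' hζ _) (xi3_eq hζ) (lam_pow_dvd hζ (by norm_num)) ?_
  ring

theorem xi4inv_d10 : (hζ.toInteger - 1) ^ 11 ∣ xi' hζ 4 (by norm_num) - (10 + 11 * ll + 6 * ll ^ 2 + 10 * ll ^ 3 + 12 * ll ^ 4 + 3 * ll ^ 5 + 7 * ll ^ 6 + 3 * ll ^ 7 + 4 * ll ^ 8 + 12 * ll ^ 9) := by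
  refine inv_cong (X := (4 + 6 * ll + 4 * ll ^ 2 + ll ^ 3)) (R := (3 + 8 * ll + 10 * ll ^ 2 + 10 * ll ^ 3 + 11 * ll ^ 4 + 10 * ll ^ 5 + 8 * ll ^ 6 + 6 * ll ^ 7 + 5 * ll ^ 8 + 7 * ll ^ 9 + 7 * ll ^ 10)) (Q := (52 + 12 * ll)) (xi_mul_xi' hζ _) (xi4_eq hζ) (lam_pow_dvd hζ (by norm_num)) ?_
  ring

theorem xi5inv_d10 : (hζ.toInteger - 1) ^ 11 ∣ xi' hζ 5 (by norm_num) - (8 + 10 * ll + 3 * ll ^ 2 + 5 * ll ^ 3 + ll ^ 4 + 9 * ll ^ 5 + 3 * ll ^ 6 + 3 * ll ^ 8 + 10 * ll ^ 9 + 2 * ll ^ 10) := by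
  refine inv_cong (X := (5 + 10 * ll + 10 * ll ^ 2 + 5 * ll ^ 3 + ll ^ 4)) (R := (3 + 10 * ll + 15 * ll ^ 2 + 15 * ll ^ 3 + 11 * ll ^ 4 + 10 * ll ^ 5 + 11 * ll ^ 6 + 10 * ll ^ 7 + 7 * ll ^ 8 + 8 * ll ^ 9 + 11 * ll ^ 10)) (Q := (135 + 73 * ll + 20 * ll ^ 2 + 2 * ll ^ 3)) (xi_mul_xi' hζ _) (xi5_eq hζ) (lam_pow_dvd hζ (by norm_num)) ?_
  ring

theorem xi6_d10 : (hζ.toInteger - 1) ^ 11 ∣ xi hζ 6 - (6 + 2 * ll + 7 * ll ^ 2 + 2 * ll ^ 3 + 6 * ll ^ 4 + ll ^ 5) := by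
  refine trunc_cong (X := (6 + 15 * ll + 20 * ll ^ 2 + 15 * ll ^ 3 + 6 * ll ^ 4 + ll ^ 5)) (R := (ll + ll ^ 2 + ll ^ 3)) (Q := (0)) (xi6_eq hζ) (lam_pow_dvd hζ (by norm_num)) ?_
  ring

theorem chain_d10_1 : (hζ.toInteger - 1) ^ 11 ∣ (hζ.toInteger ^ 2) * (xi hζ 2) - (2 + 5 * ll + 4 * ll ^ 2 + ll ^ 3) := by
  refine step (P := (1 + 2 * ll + ll ^ 2)) (F := (2 + ll)) (R := (0)) (Q := (0)) (zpow_d10 hζ) (xi2_d10 hζ) (lam_pow_dvd hζ (by norm_num)) ?_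
  ring

theorem chain_d10_2 : (hζ.toInteger - 1) ^ 11 ∣ ((hζ.toInteger ^ 2) * (xi hζ 2)) * (xi hζ 2) - (4 + 12 * ll + 6 * ll ^ 3 + ll ^ 4) := by
  refine step (P := (2 + 5 * ll + 4 * ll ^ 2 + ll ^ 3)) (F := (2 + ll)) (R := (ll ^ 2)) (Q := (0)) (chain_d10_1 hζ) (xi2_d10 hζ) (lam_pow_dvd hζ (by norm_num)) ?_
  ring

theorem chain_d10_3 : (hζ.toInteger - 1) ^ 11 ∣ (((hζ.toInteger ^ 2) * (xi hζ 2)) * (xi hζ 2)) * (xi hζ 2) - (8 + 2 * ll + 12 * ll ^ 2 + 12 * ll ^ 3 + 8 * ll ^ 4 + ll ^ 5) := by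
  refine step (P := (4 + 12 * ll + 6 * ll ^ 3 + ll ^ 4)) (F := (2 + ll)) (R := (2 * ll)) (Q := (0)) (chain_d10_2 hζ) (xi2_d10 hζ) (lam_pow_dvd hζ (by norm_num)) ?_
  ring

theorem chain_d10_4 : (hζ.toInteger - 1) ^ 11 ∣ ((((hζ.toInteger ^ 2) * (xi hζ 2)) * (xi hζ 2)) * (xi hζ 2)) * (xi' hζ 3 (by norm_num)) - (7 + 11 * ll + 8 * ll ^ 2 + ll ^ 3 + 12 * ll ^ 4 + ll ^ 5 + 8 * ll ^ 6 + 9 * ll ^ 7 + 10 * ll ^ 8 + ll ^ 10) := by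
  refine step (P := (8 + 2 * ll + 12 * ll ^ 2 + 12 * ll ^ 3 + 8 * ll ^ 4 + ll ^ 5)) (F := (9 + 4 * ll + 6 * ll ^ 2 + 10 * ll ^ 3 + ll ^ 4 + 4 * ll ^ 6 + 9 * ll ^ 7 + 7 * ll ^ 8 + 3 * ll ^ 9 + 12 * ll ^ 10)) (R := (5 + 3 * ll + 12 * ll ^ 2 + 19 * ll ^ 3 + 16 * ll ^ 4 + 18 * ll ^ 5 + 16 * ll ^ 6 + 13 * ll ^ 7 + 10 * ll ^ 8 + 15 * ll ^ 9 + 25 * ll ^ 10)) (Q := (220 + 245 * ll + 175 * ll ^ 2 + 99 * ll ^ 3 + 12 * ll ^ 4)) (chain_d10_3 hζ) (xi3inv_d10 hζ) (lam_pow_dvd hζ (by norm_num)) ?_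
  ring

theorem chain_d10_5 : (hζ.toInteger - 1) ^ 11 ∣ (((((hζ.toInteger ^ 2) * (xi hζ 2)) * (xi hζ 2)) * (xi hζ 2)) * (xi' hζ 3 (by norm_num))) * (xi' hζ 3 (by norm_num)) - (11 + 10 * ll + 2 * ll ^ 2 + 8 * ll ^ 3 + 4 * ll ^ 4 + 11 * ll ^ 5 + 12 * ll ^ 6 + 9 * ll ^ 7 + 12 * ll ^ 8 + 11 * ll ^ 9 + 7 * ll ^ 10) := by
  refine step (P := (7 + 11 * ll + 8 * ll ^ 2 + ll ^ 3 + 12 * ll ^ 4 + ll ^ 5 + 8 * ll ^ 6 + 9 * ll ^ 7 + 10 * ll ^ 8 + ll ^ 10)) (F := (9 + 4 * ll + 6 * ll ^ 2 + 10 * ll ^ 3 + ll ^ 4 + 4 * ll ^ 6 + 9 * ll ^ 7 + 7 * ll ^ 8 + 3 * ll ^ 9 + 12 * ll ^ 10)) (R := (4 + 9 * ll + 12 * ll ^ 2 + 13 * ll ^ 3 + 21 * ll ^ 4 + 11 * ll ^ 5 + 14 * ll ^ 6 + 26 * ll ^ 7 + 28 * ll ^ 8 + 26 * ll ^ 9 + 30 * ll ^ 10)) (Q := (388 + 240 * ll + 173 * ll ^ 2 + 325 * ll ^ 3 + 189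 * ll ^ 4 + 197 * ll ^ 5 + 147 * ll ^ 6 + 127 * ll ^ 7 + 3 * ll ^ 8 + 12 * ll ^ 9)) (chain_d10_4 hζ) (xi3inv_d10 hζ) (lam_pow_dvd hζ (by norm_num)) ?_
  ring

theorem chain_d10_6 : (hζ.toInteger - 1) ^ 11 ∣ ((((((hζ.toInteger ^ 2) * (xi hζ 2)) * (xi hζ 2)) * (xi hζ 2)) * (xi' hζ 3 (by norm_num))) * (xi' hζ 3 (by norm_num))) * (xi' hζ 3 (by norm_num)) - (8 + 4 * ll + 7 * ll ^ 2 + 3 * ll ^ 3 + 9 * ll ^ 4 + 11 * ll ^ 5 + 3 * ll ^ 6 + 5 * ll ^ 7 + 11 * ll ^ 8 + 4 * ll ^ 9 + 12 * ll ^ 10) := by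
  refine step (P := (11 + 10 * ll + 2 * ll ^ 2 + 8 * ll ^ 3 + 4 * ll ^ 4 + 11 * ll ^ 5 + 12 * ll ^ 6 + 9 * ll ^ 7 + 12 * ll ^ 8 + 11 * ll ^ 9 + 7 * ll ^ 10)) (F := (9 + 4 * ll + 6 * ll ^ 2 + 10 * ll ^ 3 + ll ^ 4 + 4 * ll ^ 6 + 9 * ll ^ 7 + 7 * ll ^ 8 + 3 * ll ^ 9 + 12 * ll ^ 10)) (R := (7 + 10 * ll + 9 * ll ^ 2 + 19 * ll ^ 3 + 14 * ll ^ 4 + 14 * ll ^ 5 + 23 * ll ^ 6 + 29 * ll ^ 7 + 38 * ll ^ 8 + 37 * ll ^ 9 + 41 * ll ^ 10)) (Q := (485 + 387 * ll + 410 * ll ^ 2 + 301 * ll ^ 3 + 383 * ll ^ 4 + 382 * ll ^ 5 + 284 * ll ^ 6 + 226 * ll ^ 7 + 153 * ll ^ 8 + 84 * ll ^ 9)) (chain_d10_5 hζ) (xi3inv_d10 hζ) (lam_pow_dvd hζ (by norm_num)) ?_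
  ring

theorem chain_d10_7 : (hζ.toInteger - 1) ^ 11 ∣ (((((((hζ.toInteger ^ 2) * (xi hζ 2)) * (xi hζ 2)) * (xi hζ 2)) * (xi' hζ 3 (by norm_num))) * (xi' hζ 3 (by norm_num))) * (xi' hζ 3 (by norm_num))) * (xi' hζ 4 (by norm_num)) - (2 + 11 * ll + 6 * ll ^ 2 + 3 * ll ^ 3 + 2 * ll ^ 4 + 5 * ll ^ 5 + 10 * ll ^ 6 + 10 * ll ^ 7 + 9 * ll ^ 8 + ll ^ 9 + 3 * ll ^ 10) := by
  refine step (P := (8 + 4 * ll + 7 * ll ^ 2 + 3 * ll ^ 3 + 9 * ll ^ 4 + 11 * ll ^ 5 + 3 * ll ^ 6 + 5 * ll ^ 7 + 11 * ll ^ 8 + 4 * ll ^ 9 + 12 * ll ^ 10)) (F := (10 + 11 * ll + 6 * ll ^ 2 + 10 * ll ^ 3 + 12 * ll ^ 4 + 3 * ll ^ 5 + 7 * ll ^ 6 + 3 * ll ^ 7 + 4 * ll ^ 8 + 12 * ll ^ 9)) (R := (6 + 9 * ll + 12 * ll ^ 2 + 16 * ll ^ 3 + 23 * ll ^ 4 + 28 * ll ^ 5 + 29 * ll ^ 6 + 26 * ll ^ 7 + 38 * ll ^ 8 + 41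 * ll ^ 9 + 38 * ll ^ 10)) (Q := (535 + 385 * ll + 397 * ll ^ 2 + 392 * ll ^ 3 + 153 * ll ^ 4 + 200 * ll ^ 5 + 184 * ll ^ 6 + 96 * ll ^ 7 + 144 * ll ^ 8)) (chain_d10_6 hζ) (xi4inv_d10 hζ) (lam_pow_dvd hζ (by norm_num)) ?_
  ring

theorem chain_d10_8 : (hζ.toInteger - 1) ^ 11 ∣ ((((((((hζ.toInteger ^ 2) * (xi hζ 2)) * (xi hζ 2)) * (xi hζ 2)) * (xi' hζ 3 (by norm_num))) * (xi' hζ 3 (by norm_num))) * (xi' hζ 3 (by norm_num))) * (xi' hζ 4 (by norm_num))) * (xi' hζ 5 (by norm_num)) - (3 + 4 * ll + 8 * ll ^ 2 + 10 * ll ^ 3 + 4 * ll ^ 4 + 11 * ll ^ 5 + 2 * ll ^ 6 + 9 * ll ^ 7 + 7 * ll ^ 8 + 3 * ll ^ 9 + 5 * ll ^ 10) := by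
  refine step (P := (2 + 11 * ll + 6 * ll ^ 2 + 3 * ll ^ 3 + 2 * ll ^ 4 + 5 * ll ^ 5 + 10 * ll ^ 6 + 10 * ll ^ 7 + 9 * ll ^ 8 + ll ^ 9 + 3 * ll ^ 10)) (F := (8 + 10 * ll + 3 * ll ^ 2 + 5 * ll ^ 3 + ll ^ 4 + 9 * ll ^ 5 + 3 * ll ^ 6 + 3 * ll ^ 8 + 10 * ll ^ 9 + 2 * ll ^ 10)) (R := (1 + 8 * ll + 12 * ll ^ 2 + 9 * ll ^ 3 + 9 * ll ^ 4 + 9 * ll ^ 5 + 20 * ll ^ 6 + 22 * ll ^ 7 + 21 * ll ^ 8 + 20 * ll ^ 9 + 23 * ll ^ 10)) (Q := (284 + 191 * ll + 168 * ll ^ 2 + 123 * ll ^ 3 + 170 * ll ^ 4 + 156 * ll ^ 5 + 113 * ll ^ 6 + 37 * ll ^ 7 + 32 * ll ^ 8 + 6 * ll ^ 9)) (chain_d10_7 hζ) (xi5inv_d10 hζ) (lam_pow_dvd hζ (by norm_num)) ?_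
  ring

theorem chain_d10_9 : (hζ.toInteger - 1) ^ 11 ∣ (((((((((hζ.toInteger ^ 2) * (xi hζ 2)) * (xi hζ 2)) * (xi hζ 2)) * (xi' hζ 3 (by norm_num))) * (xi' hζ 3 (by norm_num))) * (xi' hζ 3 (by norm_num))) * (xi' hζ 4 (by norm_num))) * (xi' hζ 5 (by norm_num))) * (xi' hζ 5 (by norm_num)) - (11 + 10 * ll + 9 * ll ^ 2 + 5 * ll ^ 3 + 10 * ll ^ 4 + 8 * ll ^ 5 + 7 * ll ^ 6 + 5 * ll ^ 7 + 9 * ll ^ 8 + 3 * ll ^ 9 + 7 * ll ^ 10) := by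
  refine step (P := (3 + 4 * ll + 8 * ll ^ 2 + 10 * ll ^ 3 + 4 * ll ^ 4 + 11 * ll ^ 5 + 2 * ll ^ 6 + 9 * ll ^ 7 + 7 * ll ^ 8 + 3 * ll ^ 9 + 5 * ll ^ 10)) (F := (8 + 10 * ll + 3 * ll ^ 2 + 5 * ll ^ 3 + ll ^ 4 + 9 * ll ^ 5 + 3 * ll ^ 6 + 3 * ll ^ 8 + 10 * ll ^ 9 + 2 * ll ^ 10)) (R := (1 + 4 * ll + 8 * ll ^ 2 + 14 * ll ^ 3 + 13 * ll ^ 4 + 17 * ll ^ 5 + 18 * ll ^ 6 + 18 * ll ^ 7 + 25 * ll ^ 8 + 19 * ll ^ 9 + 24 * ll ^ 10)) (Q := (272 + 252 * ll + 211 * ll ^ 2 + 177 * ll ^ 3 + 123 * ll ^ 4 + 130 * ll ^ 5 + 97 * ll ^ 6 + 59 * ll ^ 7 + 56 * ll ^ 8 + 10 * ll ^ 9)) (chain_d10_8 hζ) (xi5inv_d10 hζ) (lam_pow_dvd hζ (by norm_num)) ?_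
  ring

theorem chain_d10_10 : (hζ.toInteger - 1) ^ 11 ∣ ((((((((((hζ.toInteger ^ 2) * (xi hζ 2)) * (xi hζ 2)) * (xi hζ 2)) * (xi' hζ 3 (by norm_num))) * (xi' hζ 3 (by norm_num))) * (xi' hζ 3 (by norm_num))) * (xi' hζ 4 (by norm_num))) * (xi' hζ 5 (by norm_num))) * (xi' hζ 5 (by norm_num))) * (xi' hζ 5 (by norm_num)) - (10 + 8 * ll + 10 * ll ^ 2 + 7 * ll ^ 3 + 10 * ll ^ 4 + 8 * ll ^ 5 + 11 * ll ^ 6 + ll ^ 7 + 12 * ll ^ 8 + ll ^ 9 + 6 * ll ^ 10) := by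
  refine step (P := (11 + 10 * ll + 9 * ll ^ 2 + 5 * ll ^ 3 + 10 * ll ^ 4 + 8 * ll ^ 5 + 7 * ll ^ 6 + 5 * ll ^ 7 + 9 * ll ^ 8 + 3 * ll ^ 9 + 7 * ll ^ 10)) (F := (8 + 10 * ll + 3 * ll ^ 2 + 5 * ll ^ 3 + ll ^ 4 + 9 * ll ^ 5 + 3 * ll ^ 6 + 3 * ll ^ 8 + 10 * ll ^ 9 + 2 * ll ^ 10)) (R := (6 + 14 * ll + 15 * ll ^ 2 + 16 * ll ^ 3 + 16 * ll ^ 4 + 25 * ll ^ 5 + 24 * ll ^ 6 + 23 * ll ^ 7 + 22 * ll ^ 8 + 32 * ll ^ 9 + 30 * ll ^ 10)) (Q := (341 + 209 * ll + 268 * ll ^ 2 + 182 * ll ^ 3 + 173 * ll ^ 4 + 112 * ll ^ 5 + 109 * ll ^ 6 + 69 * ll ^ 7 + 76 * ll ^ 8 + 14 * ll ^ 9)) (chain_d10_9 hζ) (xi5inv_d10 hζ) (lam_pow_dvd hζ (by norm_num)) ?_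
  ring

theorem chain_d10_11 : (hζ.toInteger - 1) ^ 11 ∣ (((((((((((hζ.toInteger ^ 2) * (xi hζ 2)) * (xi hζ 2)) * (xi hζ 2)) * (xi' hζ 3 (by norm_num))) * (xi' hζ 3 (by norm_num))) * (xi' hζ 3 (by norm_num))) * (xi' hζ 4 (by norm_num))) * (xi' hζ 5 (by norm_num))) * (xi' hζ 5 (by norm_num))) * (xi' hζ 5 (by norm_num))) * (xi' hζ 5 (by norm_num)) - (2 + 8 * ll + 8 * ll ^ 2 + 9 * ll ^ 3 + 9 * ll ^ 4 + 8 * ll ^ 5 + 7 * ll ^ 6 + ll ^ 7 + 4 * ll ^ 10) := by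
  refine step (P := (10 + 8 * ll + 10 * ll ^ 2 + 7 * ll ^ 3 + 10 * ll ^ 4 + 8 * ll ^ 5 + 11 * ll ^ 6 + ll ^ 7 + 12 * ll ^ 8 + ll ^ 9 + 6 * ll ^ 10)) (F := (8 + 10 * ll + 3 * ll ^ 2 + 5 * ll ^ 3 + ll ^ 4 + 9 * ll ^ 5 + 3 * ll ^ 6 + 3 * ll ^ 8 + 10 * ll ^ 9 + 2 * ll ^ 10)) (R := (6 + 12 * ll + 14 * ll ^ 2 + 17 * ll ^ 3 + 17 * ll ^ 4 + 25 * ll ^ 5 + 26 * ll ^ 6 + 24 * ll ^ 7 + 24 * ll ^ 8 + 33 * ll ^ 9 + 26 * ll ^ 10)) (Q := (384 + 197 * ll + 280 * ll ^ 2 + 184 * ll ^ 3 + 186 * ll ^ 4 + 86 * ll ^ 5 + 125 * ll ^ 6 + 52 * ll ^ 7 + 62 * ll ^ 8 + 12 * ll ^ 9)) (chain_d10_10 hζ) (xi5inv_d10 hζ) (lam_pow_dvd hζ (by norm_num)) ?_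
  ring

theorem chain_d10_12 : (hζ.toInteger - 1) ^ 11 ∣ ((((((((((((hζ.toInteger ^ 2) * (xi hζ 2)) * (xi hζ 2)) * (xi hζ 2)) * (xi' hζ 3 (by norm_num))) * (xi' hζ 3 (by norm_num))) * (xi' hζ 3 (by norm_num))) * (xi' hζ 4 (by norm_num))) * (xi' hζ 5 (by norm_num))) * (xi' hζ 5 (by norm_num))) * (xi' hζ 5 (by norm_num))) * (xi' hζ 5 (by norm_num))) * (xi hζ 6) - (12 + 11 * ll ^ 10) := by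
  refine step (P := (2 + 8 * ll + 8 * ll ^ 2 + 9 * ll ^ 3 + 9 * ll ^ 4 + 8 * ll ^ 5 + 7 * ll ^ 6 + ll ^ 7 + 4 * ll ^ 10)) (F := (6 + 2 * ll + 7 * ll ^ 2 + 2 * ll ^ 3 + 6 * ll ^ 4 + ll ^ 5)) (R := (4 * ll + 6 * ll ^ 2 + 10 * ll ^ 3 + 12 * ll ^ 4 + 15 * ll ^ 5 + 15 * ll ^ 6 + 12 * ll ^ 7 + 10 * ll ^ 8 + 6 * ll ^ 9 + 5 * ll ^ 10)) (Q := (21 + 29 * ll + 8 * ll ^ 2 + 24 * ll ^ 3 + 4 * ll ^ 4)) (chain_d10_11 hζ) (xi6_d10 hζ) (lam_pow_dvd hζ (by norm_num)) ?_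
  ring

/-- level 10 unit -/
noncomputable def h10 : 𝓞 K := ((((((((((((hζ.toInteger ^ 2) * (xi hζ 2)) * (xi hζ 2)) * (xi hζ 2)) * (xi' hζ 3 (by norm_num))) * (xi' hζ 3 (by norm_num))) * (xi' hζ 3 (by norm_num))) * (xi' hζ 4 (by norm_num))) * (xi' hζ 5 (by norm_num))) * (xi' hζ 5 (by norm_num))) * (xi' hζ 5 (by norm_num))) * (xi' hζ 5 (by norm_num))) * (xi hζ 6)

theorem h10_isUnit : IsUnit (h10 hζ) := (((((((((((((z_isUnit hζ).pow 2).mul (xi_isUnit hζ (by norm_num : Nat.Coprime 2 13))).mul (xi_isUnit hζ (by norm_num : Nat.Coprime 2 13))).mul (xi_isUnit hζ (by norm_num : Nat.Coprime 2 13))).mul (xi'_isUnit hζ (by norm_num : Nat.Coprime 3 13))).mul (xi'_isUnit hζ (by norm_num : Nat.Coprime 3 13))).mul (xi'_isUnit hζ (by norm_num : Nat.Coprime 3 13))).mul (xi'_isUnit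 hζ (by norm_num : Nat.Coprime 4 13))).mul (xi'_isUnit hζ (by norm_num : Nat.Coprime 5 13))).mul (xi'_isUnit hζ (by norm_num : Nat.Coprime 5 13))).mul (xi'_isUnit hζ (by norm_num : Nat.Coprime 5 13))).mul (xi'_isUnit hζ (by norm_num : Nat.Coprime 5 13))).mul (xi_isUnit hζ (by norm_num : Nat.Coprime 6 13))

theorem h10_cong : (hζ.toInteger - 1) ^ 11 ∣ h10 hζ - (12 + 11 * (hζ.toInteger - 1) ^ 10) := by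
  have h := chain_d10_12 hζ
  have e1 : ((12 : 𝓞 K) + 11 * (hζ.toInteger - 1) ^ 10) = (12 + 11 * ll ^ 10) := by ring
  rw [e1, h10]; exact h

theorem h1_cong : (hζ.toInteger - 1) ^ 2 ∣ hζ.toInteger - (1 + 1 * (hζ.toInteger - 1) ^ 1) := by
  have : hζ.toInteger - (1 + 1 * (hζ.toInteger - 1) ^ 1) = 0 := by ring
  rw [this]; exact dvd_zero _

/-- Triangular system of units for `p = 13`: units `h j` with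
`h j ≡ n j + e j * λ ^ (d j)  mod λ ^ (d j + 1)`, where `λ = ζ - 1`, the levels `d j` are strictly
increasing in `[1, p - 2]` and `p ∤ n j`, `p ∤ e j`. -/
theorem triangular_units :
    ∃ (h : Fin 6 → (𝓞 K)ˣ) (d : Fin 6 → ℕ) (n e : Fin 6 → ℤ),
      StrictMono d ∧ (∀ j, 1 ≤ d j) ∧ (∀ j, d j ≤ 11) ∧
      (∀ j, ¬ (13 : ℤ) ∣ n j) ∧ (∀ j, ¬ (13 : ℤ) ∣ e j) ∧
      ∀ j, (hζ.toInteger - 1) ^ (d j + 1) ∣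
        ((h j : (𝓞 K)ˣ) : 𝓞 K) - ((n j : 𝓞 K) + (e j : 𝓞 K) * (hζ.toInteger - 1) ^ (d j)) := by
  refine ⟨![(z_isUnit hζ).unit, (h2_isUnit hζ).unit, (h4_isUnit hζ).unit, (h6_isUnit hζ).unit, (h8_isUnit hζ).unit, (h10_isUnit hζ).unit],
    ![1, 2, 4, 6, 8, 10], ![1, 6, 7, 1, 9, 12], ![1, 12, 5, 4, 3, 11], ?_, ?_, ?_, ?_, ?_, ?_⟩
  · intro i j hij
    fin_cases i <;> fin_cases j <;> simp at hij ⊢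
  · intro j; fin_cases j <;> simp
  · intro j; fin_cases j <;> simp
  · intro j; fin_cases j <;> simp
  · intro j; fin_cases j <;> simp
  · intro j
    fin_cases j
    · simp

    · simpa using h2_cong hζ
    · simpa using h4_cong hζ
    · simpa using h6_cong hζ
    · simpa using h8_cong hζ
    · simpa using h10_cong hζ

end units

end Fermat.Agent.Lib.Kummer.TriUnits13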