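import Mathlib.NumberTheory.NumberField.Cyclotomic.Ideal
import Mathlib.RingTheory.RootsOfUnity.CyclotomicUnits
import Mathlib.Tactic.NormNum.Prime

set_option autoImplicit false
set_option linter.unusedSectionVars false

namespace Fermat.Agent.Lib.Kummer.TriUnits7

open NumberField Finset

section calculus

variable {A : Type*} [CommRing A]

theorem step {l a b P F P' R Q : A} {m : ℕ} (ha : l ^ m ∣ a - P) (hb : l ^ m ∣ b - F)
    (hp : l ^ m ∣ (7 : A)) (hid : P * F = P' + 7 * R + l ^ m * Q) : l ^ m ∣ a * b - P' := by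
  obtain ⟨u, hu⟩ := ha
  obtain ⟨v, hv⟩ := hb
  obtain ⟨w, hw⟩ := hp
  refine ⟨u * b + P * v + w * R + Q, ?_⟩
  have e1 : a = P + l ^ m * u := by rw [← hu]; ring
  have e2 : F = b - l ^ m * v := by rw [← hv]; ring
  have e3 : P' = P * F - 7 * R - l ^ m * Q := by rw [hid]; ring
  rw [e3, e2, e1, hw]; ring

theorem inv_cong {l x x' X X' R Q : A} {m : ℕ} (hx : x * x' = 1) (hX : x = X)
    (hp : l ^ m ∣ (7 : A)) (hid : X * X' = 1 + 7 * R + l ^ m * Q) : l ^ m ∣ x' - X' := by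
  obtain ⟨w, hw⟩ := hp
  refine ⟨-(x' * (w * R + Q)), ?_⟩
  have e1 : x' - X' = x' * (1 - x * X') := by
    have : x' * (x * X') = (x * x') * X' := by ring
    rw [mul_sub, this, hx]; ring
  rw [e1, hX, hid, hw]; ring

theorem exact_cong {l x X : A} {m : ℕ} (hX : x = X) : l ^ m ∣ x - X := by
  rw [hX, sub_self]; exact dvd_zero _

theorem trunc_cong {l x X T R Q : A} {m : ℕ} (hX : x = X)
    (hp : l ^ m ∣ (7 : A)) (hid : X = T + 7 * R + l ^ m * Q) : l ^ m ∣ x - T := by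
  obtain ⟨w, hw⟩ := hp
  refine ⟨w * R + Q, ?_⟩
  rw [hX, hid, hw]; ring

end calculus

section units

variable {K : Type*} [Field K] [NumberField K] [IsCyclotomicExtension {7} ℚ K]
  {ζ : K} (hζ : IsPrimitiveRoot ζ 7)

local notation "ll" => (IsPrimitiveRoot.toInteger hζ - 1)


theorem lam_pow_dvd {m : ℕ} (hm : m ≤ 6) : (hζ.toInteger - 1) ^ m ∣ (7 : 𝓞 K) := by
  have : Fact (Nat.Prime 7) := ⟨by norm_num⟩
  have h := (IsCyclotomicExtension.Rat.associated_zeta_sub_one_pow_prime 7 hζ).dvd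
  have h2 : (hζ.toInteger - 1) ^ m ∣ (hζ.toInteger - 1) ^ (7 - 1) := pow_dvd_pow _ (by omega)
  exact_mod_cast h2.trans h

theorem z_eq : hζ.toInteger = (hζ.toInteger - 1) + 1 := by ring

theorem z_pow : hζ.toInteger ^ 7 = 1 := hζ.toInteger_isPrimitiveRoot.pow_eq_one

theorem z_isUnit : IsUnit hζ.toInteger := IsUnit.of_pow_eq_one (z_pow hζ) (by norm_num)

/-- the cyclotomic unit `1 + z + ... + z^(a-1)` -/
noncomputable def xi (a : ℕ) : 𝓞 K := ∑ i ∈ range a, hζ.toInteger ^ i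

theorem xi_isUnit {a : ℕ} (ha : a.Coprime 7) : IsUnit (xi hζ a) :=
  hζ.toInteger_isPrimitiveRoot.geom_sum_isUnit (by norm_num) ha

/-- the inverse of `xi a` -/
noncomputable def xi' (a : ℕ) (ha : a.Coprime 7) : 𝓞 K := ((xi_isUnit hζ ha).unit⁻¹ : (𝓞 K)ˣ)

theorem xi_mul_xi' {a : ℕ} (ha : a.Coprime 7) : xi hζ a * xi' hζ a ha = 1 := by
  unfold xi'
  exact (xi_isUnit hζ ha).mul_val_inv

theorem xi'_isUnit {a : ℕ} (ha : a.Coprime 7) : IsUnit (xi' hζ a ha) :=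
  ((xi_isUnit hζ ha).unit⁻¹).isUnit

theorem xi2_eq : xi hζ 2 = (2 + ll) := by
  have hz := z_eq hζ
  simp only [xi, sum_range_succ, range_zero, sum_empty]
  rw [hz]; ring

theorem xi3_eq : xi hζ 3 = (3 + 3 * ll + ll ^ 2) := by
  have hz := z_eq hζ
  simp only [xi, sum_range_succ, range_zero, sum_empty]
  rw [hz]; ring

-- ===================== level d = 2 (modulus l^3) : exponents {2: 0, 3: 1}, zeta^6 =====================
theorem zpow_d2 : (hζ.toInteger - 1) ^ 3 ∣ hζ.toInteger ^ 6 - (1 + 6 * ll + ll ^ 2) := by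
  have hz := z_eq hζ
  refine trunc_cong (X := (1 + 6 * ll + 15 * ll ^ 2 + 20 * ll ^ 3 + 15 * ll ^ 4 + 6 * ll ^ 5 + ll ^ 6)) (R := (2 * ll ^ 2)) (Q := (20 + 15 * ll + 6 * ll ^ 2 + ll ^ 3)) ?_ (lam_pow_dvd hζ (by norm_num)) ?_
  · rw [hz]; ring
  · ring

theorem xi3_d2 : (hζ.toInteger - 1) ^ 3 ∣ xi hζ 3 - (3 + 3 * ll + ll ^ 2) := by
  refine trunc_cong (X := (3 + 3 * ll + ll ^ 2)) (R := (0)) (Q := (0)) (xi3_eq hζ) (lam_pow_dvd hζ (by norm_num)) ?_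
  ring

theorem chain_d2_1 : (hζ.toInteger - 1) ^ 3 ∣ (hζ.toInteger ^ 6) * (xi hζ 3) - (3 + ll ^ 2) := by
  refine step (P := (1 + 6 * ll + ll ^ 2)) (F := (3 + 3 * ll + ll ^ 2)) (R := (3 * ll + 3 * ll ^ 2)) (Q := (9 + ll)) (zpow_d2 hζ) (xi3_d2 hζ) (lam_pow_dvd hζ (by norm_num)) ?_
  ring

/-- level 2 unit -/
noncomputable def h2 : 𝓞 K := (hζ.toInteger ^ 6) * (xi hζ 3)

theorem h2_isUnit : IsUnit (h2 hζ) := ((z_isUnit hζ).pow 6).mul (xi_isUnit hζ (by norm_num : Nat.Coprime 3 7))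

theorem h2_cong : (hζ.toInteger - 1) ^ 3 ∣ h2 hζ - (3 + 1 * (hζ.toInteger - 1) ^ 2) := by
  have h := chain_d2_1 hζ
  have e1 : ((3 : 𝓞 K) + 1 * (hζ.toInteger - 1) ^ 2) = (3 + ll ^ 2) := by ring
  rw [e1, h2]; exact h

-- ===================== level d = 4 (modulus l^5) : exponents {2: 2, 3: 1}, zeta^5 =====================
theorem zpow_d4 : (hζ.toInteger - 1) ^ 5 ∣ hζ.toInteger ^ 5 - (1 + 5 * ll + 3 * ll ^ 2 + 3 * ll ^ 3 + 5 * ll ^ 4) := by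
  have hz := z_eq hζ
  refine trunc_cong (X := (1 + 5 * ll + 10 * ll ^ 2 + 10 * ll ^ 3 + 5 * ll ^ 4 + ll ^ 5)) (R := (ll ^ 2 + ll ^ 3)) (Q := (1)) ?_ (lam_pow_dvd hζ (by norm_num)) ?_
  · rw [hz]; ring
  · ring

theorem xi2_d4 : (hζ.toInteger - 1) ^ 5 ∣ xi hζ 2 - (2 + ll) := by
  refine trunc_cong (X := (2 + ll)) (R := (0)) (Q := (0)) (xi2_eq hζ) (lam_pow_dvd hζ (by norm_num)) ?_
  ring

theorem xi3_d4 : (hζ.toInteger - 1) ^ 5 ∣ xi hζ 3 - (3 + 3 * ll + ll ^ 2) := by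
  refine trunc_cong (X := (3 + 3 * ll + ll ^ 2)) (R := (0)) (Q := (0)) (xi3_eq hζ) (lam_pow_dvd hζ (by norm_num)) ?_
  ring

theorem chain_d4_1 : (hζ.toInteger - 1) ^ 5 ∣ (hζ.toInteger ^ 5) * (xi hζ 2) - (2 + 4 * ll + 4 * ll ^ 2 + 2 * ll ^ 3 + 6 * ll ^ 4) := by
  refine step (P := (1 + 5 * ll + 3 * ll ^ 2 + 3 * ll ^ 3 + 5 * ll ^ 4)) (F := (2 + ll)) (R := (ll + ll ^ 2 + ll ^ 3 + ll ^ 4)) (Q := (5)) (zpow_d4 hζ) (xi2_d4 hζ) (lam_pow_dvd hζ (by norm_num)) ?_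
  ring

theorem chain_d4_2 : (hζ.toInteger - 1) ^ 5 ∣ ((hζ.toInteger ^ 5) * (xi hζ 2)) * (xi hζ 2) - (4 + 3 * ll + 5 * ll ^ 2 + ll ^ 3) := by
  refine step (P := (2 + 4 * ll + 4 * ll ^ 2 + 2 * ll ^ 3 + 6 * ll ^ 4)) (F := (2 + ll)) (R := (ll + ll ^ 2 + ll ^ 3 + 2 * ll ^ 4)) (Q := (6)) (chain_d4_1 hζ) (xi2_d4 hζ) (lam_pow_dvd hζ (by norm_num)) ?_
  ring

theorem chain_d4_3 : (hζ.toInteger - 1) ^ 5 ∣ (((hζ.toInteger ^ 5) * (xi hζ 2)) * (xi hζ 2)) * (xi hζ 3) - (5 + ll ^ 4) := by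
  refine step (P := (4 + 3 * ll + 5 * ll ^ 2 + ll ^ 3)) (F := (3 + 3 * ll + ll ^ 2)) (R := (1 + 3 * ll + 4 * ll ^ 2 + 3 * ll ^ 3 + ll ^ 4)) (Q := (1)) (chain_d4_2 hζ) (xi3_d4 hζ) (lam_pow_dvd hζ (by norm_num)) ?_
  ring

/-- level 4 unit -/
noncomputable def h4 : 𝓞 K := (((hζ.toInteger ^ 5) * (xi hζ 2)) * (xi hζ 2)) * (xi hζ 3)

theorem h4_isUnit : IsUnit (h4 hζ) := ((((z_isUnit hζ).pow 5).mul (xi_isUnit hζ (by norm_num : Nat.Coprime 2 7))).mul (xi_isUnit hζ (by norm_num : Nat.Coprime 2 7))).mul (xi_isUnit hζ (by norm_num : Nat.Coprime 3 7))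

theorem h4_cong : (hζ.toInteger - 1) ^ 5 ∣ h4 hζ - (5 + 1 * (hζ.toInteger - 1) ^ 4) := by
  have h := chain_d4_3 hζ
  have e1 : ((5 : 𝓞 K) + 1 * (hζ.toInteger - 1) ^ 4) = (5 + ll ^ 4) := by ring
  rw [e1, h4]; exact h

theorem h1_cong : (hζ.toInteger - 1) ^ 2 ∣ hζ.toInteger - (1 + 1 * (hζ.toInteger - 1) ^ 1) := by
  have : hζ.toInteger - (1 + 1 * (hζ.toInteger - 1) ^ 1) = 0 := by ring
  rw [this]; exact dvd_zero _

/-- Triangular system of units for `p = 7`: units `h j` with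
`h j ≡ n j + e j * λ ^ (d j)  mod λ ^ (d j + 1)`, where `λ = ζ - 1`, the levels `d j` are strictly
increasing in `[1, p - 2]` and `p ∤ n j`, `p ∤ e j`. -/
theorem triangular_units :
    ∃ (h : Fin 3 → (𝓞 K)ˣ) (d : Fin 3 → ℕ) (n e : Fin 3 → ℤ),
      StrictMono d ∧ (∀ j, 1 ≤ d j) ∧ (∀ j, d j ≤ 5) ∧
      (∀ j, ¬ (7 : ℤ) ∣ n j) ∧ (∀ j, ¬ (7 : ℤ) ∣ e j) ∧
      ∀ j, (hζ.toInteger - 1) ^ (d j + 1) ∣
        ((h j : (𝓞 K)ˣ) : 𝓞 K) - ((n j : 𝓞 K) + (e j : 𝓞 K) * (hζ.toInteger - 1) ^ (d j)) := by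
  refine ⟨![(z_isUnit hζ).unit, (h2_isUnit hζ).unit, (h4_isUnit hζ).unit],
    ![1, 2, 4], ![1, 3, 5], ![1, 1, 1], ?_, ?_, ?_, ?_, ?_, ?_⟩
  · intro i j hij
    fin_cases i <;> fin_cases j <;> simp at hij ⊢
  · intro j; fin_cases j <;> simp
  · intro j; fin_cases j <;> simp
  · intro j; fin_cases j <;> simp
  · intro j; fin_cases j <;> simp
  · intro j
    fin_cases j
    · simp

    · simpa using h2_cong hζ
    · simpa using h4_cong hζ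

end units

end Fermat.Agent.Lib.Kummer.TriUnits7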