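import Mathlib

/-!
Kummer's lemma for the `p`-th cyclotomic field from an explicit independence certificate.

* `exists_eq_prod_mul_pow`: abstract counting step in a commutative group.
* `kummer_of_independent`: if `(p - 1) / 2` units are independent modulo `p`-th powers and rational
  integers mod `p`, every unit congruent to a rational integer mod `p` is a `p`-th power.
* `independent_of_triangular`: the independence hypothesis follows from triangular expansions in
  powers of `ζ - 1`.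
* `kummer_of_triangular`: the combination.
-/

set_option autoImplicit false

open NumberField

namespace Fermat.Agent.Lib.Kummer.UnitsRank

section generic

variable (E : Type*) [CommGroup E] (p : ℕ)

/-- The additive subgroup of `p`-th powers. -/
def pthPowers : AddSubgroup (Additive E) := (nsmulAddMonoidHom (α := Additive E) p).range

/-- The group modulo `p`-th powers, additively. -/
def ModPth : Type _ := Additive E ⧸ pthPowers E p

instance : AddCommGroup (ModPth E p) :=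
  inferInstanceAs (AddCommGroup (Additive E ⧸ pthPowers E p))

variable {E}

/-- The class of an element modulo `p`-th powers. -/
def ModPth.mk (x : E) : ModPth E p := QuotientAddGroup.mk (Additive.ofMul x)

variable {p}

theorem ModPth.mk_surjective : Function.Surjective (ModPth.mk (E := E) p) := by
  intro x
  induction x using QuotientAddGroup.induction_on with
  | H a => exact ⟨Additive.toMul a, rfl⟩

theorem ModPth.mk_mul (x y : E) : ModPth.mk p (x * y) = ModPth.mk p x + ModPth.mk p y := rfl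

theorem ModPth.mk_one : ModPth.mk p (1 : E) = 0 := rfl

theorem ModPth.mk_inv (x : E) : ModPth.mk p x⁻¹ = - ModPth.mk p x := rfl

theorem ModPth.mk_pow (x : E) (n : ℕ) : ModPth.mk p (x ^ n) = n • ModPth.mk p x := rfl

theorem ModPth.mk_prod {ι : Type*} (s : Finset ι) (f : ι → E) :
    ModPth.mk p (∏ i ∈ s, f i) = ∑ i ∈ s, ModPth.mk p (f i) := by
  classical
  induction s using Finset.induction_on with
  | empty => simp [ModPth.mk_one]
  | insert a s ha ih => rw [Finset.prod_insert ha, Finset.sum_insert ha, ModPth.mk_mul, ih]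

theorem ModPth.mk_eq_zero_iff (x : E) : ModPth.mk p x = 0 ↔ ∃ w : E, w ^ p = x := by
  show (QuotientAddGroup.mk (Additive.ofMul x) : Additive E ⧸ pthPowers E p) = 0 ↔ _
  rw [QuotientAddGroup.eq_zero_iff]
  constructor
  · rintro ⟨a, ha⟩
    exact ⟨Additive.toMul a, by
      have := congrArg Additive.toMul ha
      simpa using this⟩
  · rintro ⟨w, rfl⟩
    exact ⟨Additive.ofMul w, rfl⟩

theorem ModPth.nsmul_eq_zero (x : ModPth E p) : p • x = 0 := by
  obtain ⟨a, rfl⟩ := ModPth.mk_surjective x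
  rw [← ModPth.mk_pow, ModPth.mk_eq_zero_iff]
  exact ⟨a, rfl⟩

noncomputable instance : Module (ZMod p) (ModPth E p) :=
  AddCommGroup.zmodModule ModPth.nsmul_eq_zero

theorem ModPth.zmod_smul (c : ZMod p) [NeZero p] (x : ModPth E p) : c • x = c.val • x := by
  conv_lhs => rw [← ZMod.natCast_zmod_val c]
  rw [Nat.cast_smul_eq_nsmul]

theorem ModPth.zmod_smul_mk [NeZero p] (c : ZMod p) (x : E) :
    c • ModPth.mk p x = ModPth.mk p (x ^ c.val) := by
  rw [ModPth.zmod_smul, ModPth.mk_pow]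

theorem ModPth.sum_zmod_smul_mk [NeZero p] {ι : Type*} [Fintype ι] (c : ι → ZMod p) (h : ι → E) :
    ∑ i, c i • ModPth.mk p (h i) = ModPth.mk p (∏ i, h i ^ (c i).val) := by
  rw [ModPth.mk_prod]
  exact Finset.sum_congr rfl fun i _ => ModPth.zmod_smul_mk (c i) (h i)

/-- Abstract counting step: if a commutative group is generated by at most as many elements as
there are elements `h j` which are independent modulo `p`-th powers, then every element is a product
of powers of the `h j` times a `p`-th power. -/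
theorem exists_eq_prod_mul_pow [Fact p.Prime]
    {κ : Type*} [Fintype κ] (g : κ → E) (hg : Subgroup.closure (Set.range g) = ⊤)
    {ι : Type*} [Fintype ι] (h : ι → E) (hcard : Fintype.card κ ≤ Fintype.card ι)
    (hind : ∀ e : ι → ℕ, (∀ j, e j < p) → (∃ w : E, w ^ p = ∏ j, h j ^ e j) → ∀ j, e j = 0)
    (u : E) :
    ∃ (e : ι → ℕ) (w : E), (∀ j, e j < p) ∧ u = (∏ j, h j ^ e j) * w ^ p := by
  classical
  have : NeZero p := ⟨(Fact.out : p.Prime).ne_zero⟩
  have hspan : Submodule.span (ZMod p) (Set.range fun k => ModPth.mk p (g k)) = ⊤ := by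
    rw [eq_top_iff]
    rintro x -
    obtain ⟨a, rfl⟩ := ModPth.mk_surjective x
    have ha : a ∈ Subgroup.closure (Set.range g) := hg ▸ Subgroup.mem_top a
    induction ha using Subgroup.closure_induction with
    | mem x hx => obtain ⟨k, rfl⟩ := hx; exact Submodule.subset_span ⟨k, rfl⟩
    | one => rw [ModPth.mk_one]; exact Submodule.zero_mem _
    | mul x y _ _ hx hy => rw [ModPth.mk_mul]; exact Submodule.add_mem _ hx hy
    | inv x _ hx => rw [ModPth.mk_inv]; exact Submodule.neg_mem _ hx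
  have : Module.Finite (ZMod p) (ModPth E p) :=
    Module.finite_def.mpr (hspan ▸ Submodule.fg_span (Set.finite_range _))
  have hfin : Module.finrank (ZMod p) (ModPth E p) ≤ Fintype.card κ := by
    have h1 := finrank_range_le_card (R := ZMod p) (fun k => ModPth.mk p (g k))
    rwa [Set.finrank, hspan, finrank_top] at h1
  have hli : LinearIndependent (ZMod p) (fun j => ModPth.mk p (h j)) := by
    rw [Fintype.linearIndependent_iff]
    intro c hc j
    rw [ModPth.sum_zmod_smul_mk, ModPth.mk_eq_zero_iff] at hc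
    have := hind (fun j => (c j).val) (fun j => ZMod.val_lt _) hc j
    exact (ZMod.val_eq_zero _).mp this
  have hcard' : Fintype.card ι = Module.finrank (ZMod p) (ModPth E p) :=
    le_antisymm hli.fintype_card_le_finrank (hfin.trans hcard)
  have htop := hli.span_eq_top_of_card_eq_finrank' hcard'
  have hu : ModPth.mk p u ∈ Submodule.span (ZMod p) (Set.range fun j => ModPth.mk p (h j)) := by
    rw [htop]; exact Submodule.mem_top
  obtain ⟨c, hc⟩ := (Submodule.mem_span_range_iff_exists_fun (ZMod p)).mp hu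
  rw [ModPth.sum_zmod_smul_mk] at hc
  have h0 : ModPth.mk p (u * (∏ i, h i ^ (c i).val)⁻¹) = 0 := by
    rw [ModPth.mk_mul, ModPth.mk_inv, hc, add_neg_cancel]
  obtain ⟨w, hw⟩ := (ModPth.mk_eq_zero_iff _).mp h0
  refine ⟨fun j => (c j).val, w, fun j => ZMod.val_lt _, ?_⟩
  rw [hw, mul_comm, inv_mul_cancel_right]

end generic

section numberField

variable {p : ℕ} [hp : Fact p.Prime] {K : Type*} [Field K] [NumberField K]
  [IsCyclotomicExtension {p} ℚ K]

/-- Every algebraic integer of the `p`-th cyclotomic field is congruent to a rational integer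
modulo `ζ - 1`. -/
theorem exists_int_zeta_sub_one_dvd_sub {ζ : K} (hζ : IsPrimitiveRoot ζ p) (x : 𝓞 K) :
    ∃ n : ℤ, hζ.toInteger - 1 ∣ x - n := by
  classical
  set I : Ideal (𝓞 K) := Ideal.span {hζ.toInteger - 1} with hI
  have hcard : Nat.card (𝓞 K ⧸ I) = p := by
    rw [← Submodule.cardQuot_apply, ← Ideal.absNorm_apply]
    have hK : IsCyclotomicExtension {p} ℚ K := inferInstance
    have hζ' := hζ
    rw [← pow_one p] at hK hζ'
    exact IsCyclotomicExtension.Rat.absNorm_span_zeta_sub_one p 0 hζ'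
  have : Finite (𝓞 K ⧸ I) := Nat.finite_of_card_ne_zero (hcard ▸ hp.out.ne_zero)
  have : Fintype (𝓞 K ⧸ I) := Fintype.ofFinite _
  have hcard' : Fintype.card (𝓞 K ⧸ I) = p := by rw [← Nat.card_eq_fintype_card, hcard]
  let e := ZMod.ringEquivOfPrime (𝓞 K ⧸ I) hp.out hcard'
  obtain ⟨c, hc⟩ := e.surjective (Ideal.Quotient.mk I x)
  refine ⟨(c.val : ℤ), ?_⟩
  rw [← Ideal.mem_span_singleton, ← hI, ← Ideal.Quotient.eq, ← hc]
  have : ((c.val : ℤ) : 𝓞 K) = ((c.val : ℕ) : 𝓞 K) := by push_cast; rfl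
  rw [this, map_natCast, ← map_natCast e, ZMod.natCast_zmod_val]

omit [NumberField K] [IsCyclotomicExtension {p} ℚ K] in
/-- `p` divides `(ζ - 1) ^ m` for `p - 1 ≤ m`. -/
theorem natCast_dvd_zeta_sub_one_pow {ζ : K} (hζ : IsPrimitiveRoot ζ p) {m : ℕ} (hm : p - 1 ≤ m) :
    (p : 𝓞 K) ∣ (hζ.toInteger - 1) ^ m :=
  ((IsCyclotomicExtension.Rat.associated_zeta_sub_one_pow_prime p hζ).symm.dvd).trans
    (pow_dvd_pow _ hm)

omit [NumberField K] [IsCyclotomicExtension {p} ℚ K] in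
/-- `(ζ - 1) ^ m` divides `p` for `m ≤ p - 1`. -/
theorem zeta_sub_one_pow_dvd_natCast {ζ : K} (hζ : IsPrimitiveRoot ζ p) {m : ℕ} (hm : m ≤ p - 1) :
    (hζ.toInteger - 1) ^ m ∣ (p : 𝓞 K) :=
  (pow_dvd_pow _ hm).trans
    (IsCyclotomicExtension.Rat.associated_zeta_sub_one_pow_prime p hζ).dvd

/-- A `p`-th power is congruent to a rational integer modulo `p`. -/
theorem exists_int_natCast_dvd_pow_sub (x : 𝓞 K) : ∃ n : ℤ, (p : 𝓞 K) ∣ x ^ p - n := by
  have hζ := IsCyclotomicExtension.zeta_spec p ℚ K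
  obtain ⟨n, y, hy⟩ := exists_int_zeta_sub_one_dvd_sub hζ x
  refine ⟨n ^ p, ?_⟩
  have hx : x = n + (hζ.toInteger - 1) * y := by rw [← hy]; ring
  obtain ⟨r, hr⟩ := exists_add_pow_prime_eq hp.out (n : 𝓞 K) ((hζ.toInteger - 1) * y)
  obtain ⟨z, hz⟩ := natCast_dvd_zeta_sub_one_pow hζ (m := p) (Nat.sub_le p 1)
  refine ⟨z * y ^ p + n * ((hζ.toInteger - 1) * y) * r, ?_⟩
  rw [hx, hr, mul_pow, hz]
  push_cast
  ring

theorem rank_add_one_eq (hp2 : p ≠ 2) : Units.rank K + 1 = (p - 1) / 2 := by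
  have hp3 : 2 < p := lt_of_le_of_ne hp.out.two_le (Ne.symm hp2)
  have h1 : Fintype.card (InfinitePlace K) = (p - 1) / 2 := by
    rw [InfinitePlace.card_eq_nrRealPlaces_add_nrComplexPlaces,
      IsCyclotomicExtension.Rat.nrRealPlaces_eq_zero K hp3,
      IsCyclotomicExtension.Rat.nrComplexPlaces_eq_totient_div_two p K,
      Nat.totient_prime hp.out, zero_add]
  have h2 : 0 < Fintype.card (InfinitePlace K) := Fintype.card_pos
  rw [Units.rank, ← h1]
  omega

theorem exists_generators (K : Type*) [Field K] [NumberField K] :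
    ∃ g : Option (Fin (Units.rank K)) → (𝓞 K)ˣ, Subgroup.closure (Set.range g) = ⊤ := by
  obtain ⟨t, ht⟩ := IsCyclic.exists_generator (α := Units.torsion K)
  refine ⟨fun o => o.elim (t : (𝓞 K)ˣ) (Units.fundSystem K), ?_⟩
  rw [eq_top_iff, ← Units.closure_fundSystem_sup_torsion_eq_top K, sup_le_iff]
  constructor
  · apply Subgroup.closure_mono
    rintro _ ⟨i, rfl⟩
    exact ⟨some i, rfl⟩
  · intro x hx
    obtain ⟨k, hk⟩ := Subgroup.mem_zpowers_iff.mp (ht (⟨x, hx⟩ : Units.torsion K))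
    have : x = (t : (𝓞 K)ˣ) ^ k := by
      have := congrArg (Subtype.val) hk
      simpa using this.symm
    rw [this]
    apply Subgroup.zpow_mem
    apply Subgroup.subset_closure
    exact ⟨none, rfl⟩

/-- **Kummer's lemma from an independence certificate.**  If at least `(p - 1) / 2` units are
independent modulo `p`-th powers and rational integers mod `p`, then every unit which is congruent
to a rational integer modulo `p` is a `p`-th power. -/
theorem kummer_of_independent (hp2 : p ≠ 2) {ι : Type*} [Fintype ι]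
    (hcard : (p - 1) / 2 ≤ Fintype.card ι) (h : ι → (𝓞 K)ˣ)
    (hind : ∀ e : ι → ℕ, (∀ j, e j < p) →
      (∃ n : ℤ, (p : 𝓞 K) ∣ ((∏ j, h j ^ e j : (𝓞 K)ˣ) : 𝓞 K) - n) → ∀ j, e j = 0)
    (u : (𝓞 K)ˣ) (hu : ∃ n : ℤ, (p : 𝓞 K) ∣ (u : 𝓞 K) - n) : ∃ v : (𝓞 K)ˣ, u = v ^ p := by
  obtain ⟨g, hg⟩ := exists_generators K
  have hcard' : Fintype.card (Option (Fin (Units.rank K))) ≤ Fintype.card ι := by
    rw [Fintype.card_option, Fintype.card_fin, rank_add_one_eq hp2]; exact hcard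
  have hind' : ∀ e : ι → ℕ, (∀ j, e j < p) →
      (∃ w : (𝓞 K)ˣ, w ^ p = ∏ j, h j ^ e j) → ∀ j, e j = 0 := by
    rintro e he ⟨w, hw⟩
    apply hind e he
    obtain ⟨n, hn⟩ := exists_int_natCast_dvd_pow_sub (p := p) (w : 𝓞 K)
    exact ⟨n, by rw [← hw]; simpa using hn⟩
  obtain ⟨e, w, he, huw⟩ := exists_eq_prod_mul_pow (p := p) g hg h hcard' hind' u
  have he0 : ∀ j, e j = 0 := by
    apply hind e he
    obtain ⟨n, hn⟩ := hu
    obtain ⟨m, hm⟩ := exists_int_natCast_dvd_pow_sub (p := p) ((w⁻¹ : (𝓞 K)ˣ) : 𝓞 K)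
    refine ⟨n * m, ?_⟩
    have h1 : ((∏ j, h j ^ e j : (𝓞 K)ˣ) : 𝓞 K) =
        (u : 𝓞 K) * ((w⁻¹ : (𝓞 K)ˣ) : 𝓞 K) ^ p := by
      have : (∏ j, h j ^ e j : (𝓞 K)ˣ) = u * (w⁻¹) ^ p := by
        rw [huw, mul_assoc, ← mul_pow, mul_inv_cancel, one_pow, mul_one]
      rw [this]; push_cast; rfl
    rw [h1]
    have h2 : (u : 𝓞 K) * ((w⁻¹ : (𝓞 K)ˣ) : 𝓞 K) ^ p - ((n * m : ℤ) : 𝓞 K) =
        ((u : 𝓞 K) - n) * ((w⁻¹ : (𝓞 K)ˣ) : 𝓞 K) ^ p +
          n * (((w⁻¹ : (𝓞 K)ˣ) : 𝓞 K) ^ p - m) := by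
      push_cast; ring
    rw [h2]
    exact dvd_add (Dvd.dvd.mul_right hn _) (Dvd.dvd.mul_left hm _)
  refine ⟨w, ?_⟩
  rw [huw]
  simp [he0]

end numberField

theorem one_add_pow_of_mul_self_eq_zero {R : Type*} [CommRing R] {t : R} (ht : t * t = 0)
    (e : ℕ) : (1 + t) ^ e = 1 + e * t := by
  induction e with
  | zero => simp
  | succ k ih =>
    rw [pow_succ, ih]
    push_cast
    linear_combination (k : R) * ht

section triangular

variable {p : ℕ} [hp : Fact p.Prime] {K : Type*} [Field K] [NumberField K]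
  [IsCyclotomicExtension {p} ℚ K]

theorem independent_of_triangular {ζ : K} (hζ : IsPrimitiveRoot ζ p) {ι : Type*} [Fintype ι]
    (h : ι → (𝓞 K)ˣ) (d : ι → ℕ) (n c : ι → ℤ)
    (hd : Function.Injective d) (hd1 : ∀ j, 1 ≤ d j) (hd2 : ∀ j, d j + 2 ≤ p)
    (hn : ∀ j, ¬ (p : ℤ) ∣ n j) (hc : ∀ j, ¬ (p : ℤ) ∣ c j)
    (hexp : ∀ j, (hζ.toInteger - 1) ^ (d j + 1) ∣
      (h j : 𝓞 K) - n j * (1 + c j * (hζ.toInteger - 1) ^ d j))
    (e : ι → ℕ) (he : ∀ j, e j < p)
    (hint : ∃ m : ℤ, (p : 𝓞 K) ∣ ((∏ j, h j ^ e j : (𝓞 K)ˣ) : 𝓞 K) - m) : ∀ j, e j = 0 := by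
  classical
  by_contra hne
  push Not at hne
  obtain ⟨m, hm⟩ := hint
  have hT : (Finset.univ.filter (fun j => e j ≠ 0)).Nonempty := by
    obtain ⟨j, hj⟩ := hne
    exact ⟨j, by simp [hj]⟩
  obtain ⟨j0, hj0T, hmin⟩ := Finset.exists_min_image _ d hT
  have hej0 : e j0 ≠ 0 := by simpa using hj0T
  have hmin' : ∀ j, e j ≠ 0 → d j0 ≤ d j := fun j hj => hmin j (by simp [hj])
  set D := d j0 with hD
  set lam := hζ.toInteger - 1 with hlam
  have hpP : Prime (p : ℤ) := Nat.prime_iff_prime_int.mp hp.out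
  have hlamP : Prime lam := hζ.zeta_sub_one_prime'
  have hD1 : 1 ≤ D := hd1 j0
  have hD2 : D + 1 ≤ p - 1 := by have := hd2 j0; omega
  set I : Ideal (𝓞 K) := Ideal.span {lam ^ (D + 1)} with hI
  set π := Ideal.Quotient.mk I with hπ
  have hl0 : ∀ k, D + 1 ≤ k → π lam ^ k = 0 := by
    intro k hk
    rw [← map_pow, hπ, Ideal.Quotient.eq_zero_iff_mem, hI, Ideal.mem_span_singleton]
    exact pow_dvd_pow _ hk
  have hp0 : π (p : 𝓞 K) = 0 := by
    rw [hπ, Ideal.Quotient.eq_zero_iff_mem, hI, Ideal.mem_span_singleton]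
    exact zeta_sub_one_pow_dvd_natCast hζ hD2
  have hπh : ∀ j, D ≤ d j → π (h j : 𝓞 K) = (n j : 𝓞 K ⧸ I) * (1 + c j * π lam ^ d j) := by
    intro j hj
    have h1 : lam ^ (D + 1) ∣ (h j : 𝓞 K) - n j * (1 + c j * lam ^ d j) :=
      (pow_dvd_pow _ (by omega)).trans (hexp j)
    have h2 : π ((h j : 𝓞 K) - n j * (1 + c j * lam ^ d j)) = 0 := by
      rw [hπ, Ideal.Quotient.eq_zero_iff_mem, hI, Ideal.mem_span_singleton]; exact h1
    rw [map_sub, sub_eq_zero] at h2
    rw [h2]; simp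
  set X : 𝓞 K ⧸ I := 1 + (e j0 : 𝓞 K ⧸ I) * (c j0 * π lam ^ D) with hX
  have hfac : ∀ j, π (h j : 𝓞 K) ^ e j =
      ((n j : 𝓞 K ⧸ I)) ^ e j * (if j = j0 then X else 1) := by
    intro j
    by_cases hj : j = j0
    · subst hj
      rw [if_pos rfl, hπh _ le_rfl, mul_pow, hX]
      congr 1
      apply one_add_pow_of_mul_self_eq_zero
      have : π lam ^ D * π lam ^ D = 0 := by
        rw [← pow_add]; exact hl0 _ (by omega)
      linear_combination ((c j : 𝓞 K ⧸ I)) ^ 2 * this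
    · rw [if_neg hj, mul_one]
      by_cases hej : e j = 0
      · rw [hej, pow_zero, pow_zero]
      · have h1 : D ≤ d j := hmin' j hej
        have h2 : D ≠ d j := fun hh => hj (hd hh.symm)
        rw [hπh j h1, hl0 (d j) (by omega), mul_zero, add_zero, mul_one]
  set N : ℤ := ∏ j, n j ^ e j with hN
  have hprod : π ((∏ j, h j ^ e j : (𝓞 K)ˣ) : 𝓞 K) = (N : 𝓞 K ⧸ I) * X := by
    have : ((∏ j, h j ^ e j : (𝓞 K)ˣ) : 𝓞 K) = ∏ j, (h j : 𝓞 K) ^ e j := by push_cast; rfl
    rw [this, map_prod]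
    simp_rw [map_pow, hfac]
    rw [Finset.prod_mul_distrib, Finset.prod_ite_eq' Finset.univ j0 (fun _ => X),
      if_pos (Finset.mem_univ _), hN]
    push_cast
    rfl
  have hm' : π ((∏ j, h j ^ e j : (𝓞 K)ˣ) : 𝓞 K) = π (m : 𝓞 K) := by
    rw [← sub_eq_zero, ← map_sub]
    obtain ⟨z, hz⟩ := hm
    rw [hz, map_mul, hp0, zero_mul]
  -- back to divisibility in `𝓞 K`
  have hkey : lam ^ (D + 1) ∣ (m : 𝓞 K) - (N + N * (e j0 * (c j0 * lam ^ D))) := by
    rw [← Ideal.mem_span_singleton, ← hI, ← Ideal.Quotient.eq_zero_iff_mem, ← hπ, map_sub,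
      ← hm', hprod, hX]
    simp
    ring
  have h1 : lam ∣ ((m - N : ℤ) : 𝓞 K) := by
    have : ((m - N : ℤ) : 𝓞 K) = ((m : 𝓞 K) - (N + N * (e j0 * (c j0 * lam ^ D)))) +
        lam * (N * (e j0 * (c j0 * lam ^ (D - 1)))) := by
      have : lam ^ D = lam * lam ^ (D - 1) := by rw [← pow_succ']; congr 1; omega
      rw [this]; push_cast; ring
    rw [this]
    exact dvd_add ((dvd_pow_self lam (by omega)).trans hkey) (dvd_mul_right _ _)
  have h2 : (p : ℤ) ∣ m - N :=
    (IsCyclotomicExtension.Rat.zeta_sub_one_dvd_intCast_iff' p hζ).mp h1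
  have h3 : lam ^ (D + 1) ∣ ((m - N : ℤ) : 𝓞 K) := by
    obtain ⟨z, hz⟩ := h2
    rw [hz]; push_cast
    exact Dvd.dvd.mul_right (zeta_sub_one_pow_dvd_natCast hζ hD2) _
  have h4 : lam ^ (D + 1) ∣ ((N * e j0 * c j0 : ℤ) : 𝓞 K) * lam ^ D := by
    have : ((N * e j0 * c j0 : ℤ) : 𝓞 K) * lam ^ D =
        ((m - N : ℤ) : 𝓞 K) - ((m : 𝓞 K) - (N + N * (e j0 * (c j0 * lam ^ D)))) := by
      push_cast; ring
    rw [this]
    exact dvd_sub h3 hkey
  have h5 : lam ∣ ((N * e j0 * c j0 : ℤ) : 𝓞 K) := by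
    rw [pow_succ, mul_comm _ (lam ^ D)] at h4
    exact (mul_dvd_mul_iff_left (pow_ne_zero _ hlamP.ne_zero)).mp h4
  have h6 : (p : ℤ) ∣ N * e j0 * c j0 :=
    (IsCyclotomicExtension.Rat.zeta_sub_one_dvd_intCast_iff' p hζ).mp h5
  rcases hpP.dvd_or_dvd h6 with h7 | h7
  · rcases hpP.dvd_or_dvd h7 with h8 | h8
    · rw [hN] at h8
      obtain ⟨j, -, hj⟩ := hpP.exists_mem_finset_dvd h8
      exact hn j (hpP.dvd_of_dvd_pow hj)
    · have : p ∣ e j0 := by exact_mod_cast h8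
      have := Nat.le_of_dvd (Nat.pos_of_ne_zero hej0) this
      have := he j0
      omega
  · exact hc j0 h7

end triangular

section final

variable {p : ℕ} [hp : Fact p.Prime] {K : Type*} [Field K] [NumberField K]
  [IsCyclotomicExtension {p} ℚ K]

/-- **Kummer's lemma from triangular unit expansions.** -/
theorem kummer_of_triangular (hp2 : p ≠ 2) {ζ : K} (hζ : IsPrimitiveRoot ζ p)
    {ι : Type*} [Fintype ι] (hcard : (p - 1) / 2 ≤ Fintype.card ι)
    (h : ι → (𝓞 K)ˣ) (d : ι → ℕ) (n c : ι → ℤ)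
    (hd : Function.Injective d) (hd1 : ∀ j, 1 ≤ d j) (hd2 : ∀ j, d j + 2 ≤ p)
    (hn : ∀ j, ¬ (p : ℤ) ∣ n j) (hc : ∀ j, ¬ (p : ℤ) ∣ c j)
    (hexp : ∀ j, (hζ.toInteger - 1) ^ (d j + 1) ∣
      (h j : 𝓞 K) - n j * (1 + c j * (hζ.toInteger - 1) ^ d j))
    (u : (𝓞 K)ˣ) (hu : ∃ m : ℤ, (p : 𝓞 K) ∣ (u : 𝓞 K) - m) : ∃ v : (𝓞 K)ˣ, u = v ^ p :=
  kummer_of_independent hp2 hcard h
    (fun e he hint => independent_of_triangular hζ h d n c hd hd1 hd2 hn hc hexp e he hint) u hu

end final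

end Fermat.Agent.Lib.Kummer.UnitsRank
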