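import Fermat.Agent.Lib.Kummer.Defs
import Fermat.Agent.Lib.Kummer.UnitsRank

set_option autoImplicit false

namespace Fermat.Agent.Lib.Kummer.UnitsCert

open NumberField

/-- `u` is congruent to `n * (1 + c * l ^ d)` modulo `l ^ (d + 1)`. -/
def HasLevel {A : Type*} [CommRing A] (l u : A) (n c : ℤ) (d : ℕ) : Prop :=
  l ^ (d + 1) ∣ u - (n : A) * (1 + (c : A) * l ^ d)

theorem hasLevel_of_expand {A : Type*} [CommRing A] {l u : A} {n c : ℤ} {d : ℕ} {p : ℕ} {X Y : A}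
    (hp : l ^ (d + 1) ∣ (p : A))
    (h : u - (n : A) * (1 + (c : A) * l ^ d) = (p : A) * X + l ^ (d + 1) * Y) :
    HasLevel l u n c d := by
  unfold HasLevel
  rw [h]
  exact dvd_add (hp.mul_right _) (dvd_mul_right _ _)

/-- A family of units with strictly increasing levels below `p - 1`, with leading data prime
to `p`. -/
def IsTriangularSystem (p : ℕ) {A : Type*} [CommRing A] (l : A) {s : ℕ} (h : Fin s → Aˣ) : Prop :=
  ∃ (n c : Fin s → ℤ) (d : Fin s → ℕ), StrictMono d ∧ (∀ j, 1 ≤ d j ∧ d j + 2 ≤ p) ∧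
    (∀ j, ¬ (p : ℤ) ∣ n j) ∧ (∀ j, ¬ (p : ℤ) ∣ c j) ∧
    ∀ j, HasLevel l ((h j : Aˣ) : A) (n j) (c j) (d j)

section Cyclo

variable {p : ℕ} [hp : Fact p.Prime] {K : Type*} [Field K] {ζ : K} (hζ : IsPrimitiveRoot ζ p)

theorem lam_pow_dvd_natCast {k : ℕ} (hk : k + 1 ≤ p) :
    (hζ.toInteger - 1) ^ k ∣ (p : 𝓞 K) := by
  have h1 := (IsCyclotomicExtension.Rat.associated_zeta_sub_one_pow_prime p hζ).dvd
  exact (pow_dvd_pow _ (by omega)).trans h1

theorem geom_sum_toInteger_eq_zero : ∑ i ∈ Finset.range p, hζ.toInteger ^ i = 0 :=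
  hζ.toInteger_isPrimitiveRoot.geom_sum_eq_zero hp.out.one_lt

end Cyclo

/-- Kummer's lemma from a triangular system of `(p - 1) / 2` units. -/
theorem kummerLemmaHolds_of_isTriangularSystem {p : ℕ} [hp : Fact p.Prime] (hp2 : p ≠ 2)
    {K : Type*} [Field K] [NumberField K] [IsCyclotomicExtension {p} ℚ K] {ζ : K}
    (hζ : IsPrimitiveRoot ζ p) {s : ℕ} (hs : (p - 1) / 2 ≤ s) (h : Fin s → (𝓞 K)ˣ)
    (H : IsTriangularSystem p (hζ.toInteger - 1) h) : KummerLemmaHolds p K := by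
  obtain ⟨n, c, d, hd, hd12, hn, hc, hlev⟩ := H
  intro u hu
  exact UnitsRank.kummer_of_triangular hp2 hζ (by simpa using hs) h d n c hd.injective
    (fun j => (hd12 j).1) (fun j => (hd12 j).2) hn hc (fun j => hlev j) u hu

end Fermat.Agent.Lib.Kummer.UnitsCert
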